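import Mathlib
import Fermat.Prelude.Def_AlgebraicCurve_BaseChangeGalois
import Fermat.Agent.S18.T.Spec
import Fermat.Agent.SS.K.Defs
import Fermat.Agent.SS.NF.Defs
import Fermat.Agent.SS.Val.Gauss2

/-!
# Program T (S35), the abstract toric theorem : definitions

Setting of S18 package T / Program S route K : `A` a DVR of characteristic `0`, uniformiser `ϖ`,
`L = Frac A`, `F / L(t)` finite, `P = s18tInt A t`, `P_(ϖ) = s18tIntLoc A t (C ϖ) = V₁ ∩ V₂`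
(`SsvTwo` : the Gauss valuation has exactly two extensions `V₁, V₂` to `F`).

`σ` is a semilinear automorphism of `F / L` which is a `Q`-FROBENIUS LIFT (`StFrob`) : it fixes the
coordinate `t`, preserves `A`, `V₁`, `V₂` and induces `a ↦ a^Q` on `A / ϖ`.

* `stTh Q σ f = f^Θ`, `Θ = (σ - Q)(σ - 1) = σ² - (Q + 1) σ + Q` (multiplicative notation).
* `StRes t 𝔫`  : the closed point `𝔫` of the chart `t` has residue field `A / ϖ`
  (same body as `SsResRational` of `SS/Geo/Loc.lean`).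
* `StPull t σ 𝔫 𝔫'` : `𝔫' = σ⁻¹ 𝔫`, i.e. `p ∈ 𝔫' ↔ σ p ∈ 𝔫`.
* `StOn V t 𝔫` : the closed point `𝔫` lies on the component `V`, i.e. `P ∩ 𝔪_V ⊆ 𝔫`.
* `StGermAt ϖ t G V₁ V₂ σ 𝔫` : the germ hypothesis of `st_toric` at one closed point : a smooth or a
  crossing germ (`SsGermSmooth`/`SsGermCross` of Program S, the group `G` is irrelevant here), and
  `σ 𝔫 = 𝔫` if `𝔫` lies on both components.
* `StDivAt L hϖ t n h 𝔫` : THE LOCAL DATUM consumed by the core `st_core` : a function `r` with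
  `r, r⁻¹ ≡ 1 mod ϖ P_(ϖ)` and `ord_R h = n · ord_R r` at all places `R` centred at `𝔫`.
-/

set_option autoImplicit false
set_option linter.unusedSectionVars false
set_option linter.unusedVariables false

noncomputable section

namespace Fermat.Agent.ST

open Polynomial IntermediateField AlgebraicCurve Fermat.Agent.S18 Fermat.Agent.SS

universe u

variable {A : Type*} [CommRing A] [IsDomain A] [IsDiscreteValuationRing A] [CharZero A]
variable {L : Type*} [Field L] [Algebra A L] [IsFractionRing A L]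
variable {F : Type u} [Field F] [Algebra A F] [Algebra L F] [IsScalarTower A L F]
variable {ϖ : A}

/-- `f^Θ`, `Θ = (σ - Q)(σ - 1) = σ² - (Q + 1) σ + Q` in multiplicative notation :
`σ(σ f) · f^Q / (σ f)^(Q + 1)`. -/
def stTh (Q : ℕ) (σ : SemilinearAut L F) (f : F) : F :=
  (σ • (σ • f)) * f ^ Q / (σ • f) ^ (Q + 1)

/-- `σ` is a `Q`-Frobenius lift for the chart `t` : it fixes `t`, preserves `A` (both ways), induces
`a ↦ a^Q` on `A / ϖ`, and preserves the two extensions `V₁, V₂` of the Gauss valuation. -/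
structure StFrob (ϖ : A) (t : F) (V₁ V₂ : ValuationSubring F) (Q : ℕ)
    (σ : SemilinearAut L F) : Prop where
  /-- `σ t = t` -/
  t_fixed : σ • t = t
  /-- `σ a ≡ a^Q mod ϖ` on `A` -/
  base : ∀ a : A, ∃ b : A, σ • algebraMap A F a = algebraMap A F (a ^ Q + ϖ * b)
  /-- `σ⁻¹ A ⊆ A` -/
  base_inv : ∀ a : A, ∃ b : A, σ⁻¹ • algebraMap A F a = algebraMap A F b
  /-- `σ V₁ = V₁` -/
  val₁ : ∀ x : F, σ • x ∈ V₁ ↔ x ∈ V₁
  /-- `σ V₂ = V₂` -/
  val₂ : ∀ x : F, σ • x ∈ V₂ ↔ x ∈ V₂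

/-- the closed point `𝔫` of the chart `t` has residue field `A / ϖ` : every element of `P` is
congruent to a constant modulo `𝔫`.  (Same body as `SsResRational`.) -/
def StRes (t : F) (𝔫 : Ideal ↥(s18tInt A t)) : Prop :=
  ∀ x : ↥(s18tInt A t), ∃ a : A, ∃ p ∈ 𝔫, (x : F) = algebraMap A F a + (p : F)

/-- `𝔫' = σ⁻¹ 𝔫` : `p ∈ 𝔫' ↔ σ p ∈ 𝔫` (`σ p ∈ P` is part of the statement). -/
def StPull (t : F) (σ : SemilinearAut L F) (𝔫 𝔫' : Ideal ↥(s18tInt A t)) : Prop :=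
  ∀ p : ↥(s18tInt A t), p ∈ 𝔫' ↔
    ∃ h : σ • (p : F) ∈ s18tInt A t, (⟨σ • (p : F), h⟩ : ↥(s18tInt A t)) ∈ 𝔫

/-- the closed point `𝔫` lies on the component `V` of the special fibre : `P ∩ 𝔪_V ⊆ 𝔫`. -/
def StOn (V : ValuationSubring F) (t : F) (𝔫 : Ideal ↥(s18tInt A t)) : Prop :=
  ∀ p : ↥(s18tInt A t), (p : F) ∈ V.nonunits → p ∈ 𝔫

/-- THE LOCAL DATUM at the closed point `𝔫` : `r ≡ 1 ≡ r⁻¹ mod ϖ P_(ϖ)` and
`ord_R h = n · ord_R r` at every place `R` centred at `𝔫`. -/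
def StDivAt (L : Type*) [Field L] [Algebra A L] [IsFractionRing A L] [Algebra L F]
    [IsScalarTower A L F] (hϖ : Irreducible ϖ) (t : F) (n : ℕ) (h : F)
    (𝔫 : Ideal ↥(s18tInt A t)) : Prop :=
  ∃ r : F, r ≠ 0 ∧ S18DvdGauss hϖ t (r - 1) ∧ S18DvdGauss hϖ t (r⁻¹ - 1) ∧
    ∀ R : Place L F, SsCentredAt t 𝔫 R → R.ord h = n * R.ord r

/-- THE UNIT PROPERTY at a `σ`-stable crossing point `𝔫` : for every `Φ ∈ Fˣ` there is a unit `ψ` of
`P_𝔫` with `Φ^Θ ≡ ψ mod ϖ P_(ϖ)` (multiplicatively). -/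
def StUnitAt (hϖ : Irreducible ϖ) (t : F) (Q : ℕ) (σ : SemilinearAut L F)
    (𝔫 : Ideal ↥(s18tInt A t)) : Prop :=
  ∀ Φ : F, Φ ≠ 0 → ∃ ψ : F, ψ ≠ 0 ∧ SsnfInLoc t 𝔫 ψ ∧ SsnfInLoc t 𝔫 ψ⁻¹ ∧
    S18DvdGauss hϖ t (stTh Q σ Φ / ψ - 1)

/-- the germ hypothesis of `st_toric` at one closed point -/
def StGermAt (ϖ : A) (t : F) (G : Subgroup (SemilinearAut L F)) (V₁ V₂ : ValuationSubring F)
    (σ : SemilinearAut L F) (𝔫 : Ideal ↥(s18tInt A t)) : Prop :=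
  (SsGermSmooth ϖ t G 𝔫 ∨
    SsGermCross ϖ t G 𝔫) ∧
  (StOn V₁ t 𝔫 → StOn V₂ t 𝔫 → StPull t σ 𝔫 𝔫)

end Fermat.Agent.ST
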