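import Mathlib
import Fermat.Agent.ST.Defs

/-!
# Program T (S35), leaf ST/Frob (prefix `stb_`) : algebra of `Θ` and `σ`-stability

Setting of `ST/Defs.lean`.  `stTh Q σ f = σ(σ f) · f^Q / (σ f)^(Q+1)` is `f^Θ`,
`Θ = (σ - Q)(σ - 1)`.

* `stb_th_ne_zero`, `stb_th_one`, `stb_th_mul`, `stb_th_inv`, `stb_th_pow`, `stb_th_zpow`,
  `stb_th_prod` : `f ↦ f^Θ` is multiplicative;
* `stb_ord_th` : the order of `f^Θ` at a place;
* `stb_dvdGauss_inv`, `stb_dvdGauss_mul`, `stb_dvdGauss_smul`, `stb_dvdGauss_th` : the subgroup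
  `1 + ϖ P_(ϖ)` is stable under inversion, products, `σ` and `Θ`;
* `StFrob.inv_chart` : a Frobenius lift for the chart `t` is one for the chart `t⁻¹`;
* `stb_int` : `σ P = P`;
* `stb_exists_pull`, `stb_centred_pull`, `stb_centred_push` : the closed point `σ⁻¹ 𝔫` and the
  transport of centres;
* `stb_rational_smul` : a translate of a rational place is rational.
-/

set_option autoImplicit false
set_option linter.unusedSectionVars false
set_option linter.unusedVariables false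

noncomputable section

namespace Fermat.Agent.ST

open Polynomial IntermediateField AlgebraicCurve Fermat.Agent.S18 Fermat.Agent.SS
open scoped Pointwise

universe u

variable {A : Type*} [CommRing A] [IsDomain A] [IsDiscreteValuationRing A] [CharZero A]
variable {L : Type*} [Field L] [Algebra A L] [IsFractionRing A L]
variable {F : Type u} [Field F] [Algebra A F] [Algebra L F] [IsScalarTower A L F]
variable {ϖ : A}

/-! ### `f ↦ f^Θ` is multiplicative -/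

/-- `σ • g ≠ 0` for `g ≠ 0` -/
theorem stb_smul_ne_zero (σ : SemilinearAut L F) {g : F} (hg : g ≠ 0) : σ • g ≠ 0 := by
  rw [SemilinearAut.smul_def]
  exact (map_ne_zero_iff _ (SemilinearAut.toRingAut σ).injective).mpr hg

theorem stb_th_ne_zero (Q : ℕ) (σ : SemilinearAut L F) {f : F} (hf : f ≠ 0) : stTh Q σ f ≠ 0 :=
  div_ne_zero (mul_ne_zero (stb_smul_ne_zero σ (stb_smul_ne_zero σ hf)) (pow_ne_zero _ hf))
    (pow_ne_zero _ (stb_smul_ne_zero σ hf))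

theorem stb_th_one (Q : ℕ) (σ : SemilinearAut L F) : stTh Q σ (1 : F) = 1 := by
  unfold stTh
  rw [smul_one, smul_one, one_pow, one_pow, mul_one, div_one]

theorem stb_th_mul (Q : ℕ) (σ : SemilinearAut L F) (a b : F) :
    stTh Q σ (a * b) = stTh Q σ a * stTh Q σ b := by
  unfold stTh
  rw [smul_mul', smul_mul', mul_pow, mul_pow, div_mul_div_comm]
  congr 1
  ring

theorem stb_th_inv (Q : ℕ) (σ : SemilinearAut L F) (a : F) : stTh Q σ a⁻¹ = (stTh Q σ a)⁻¹ := by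
  unfold stTh
  rw [smul_inv'', smul_inv'', inv_pow, inv_pow, inv_div, ← mul_inv, inv_div_inv]

theorem stb_th_pow (Q : ℕ) (σ : SemilinearAut L F) (a : F) (n : ℕ) :
    stTh Q σ (a ^ n) = stTh Q σ a ^ n := by
  induction n with
  | zero => rw [pow_zero, pow_zero, stb_th_one]
  | succ k ih => rw [pow_succ, pow_succ, stb_th_mul, ih]

theorem stb_th_zpow (Q : ℕ) (σ : SemilinearAut L F) (a : F) (n : ℤ) :
    stTh Q σ (a ^ n) = stTh Q σ a ^ n := by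
  cases n with
  | ofNat k => rw [Int.ofNat_eq_natCast, zpow_natCast, zpow_natCast, stb_th_pow]
  | negSucc k => rw [zpow_negSucc, zpow_negSucc, stb_th_inv, stb_th_pow]

theorem stb_th_prod (Q : ℕ) (σ : SemilinearAut L F) {ι : Type*} (S : Finset ι) (a : ι → F) :
    stTh Q σ (∏ i ∈ S, a i) = ∏ i ∈ S, stTh Q σ (a i) := by
  classical
  induction S using Finset.induction_on with
  | empty => rw [Finset.prod_empty, Finset.prod_empty, stb_th_one]
  | insert i S hi ih => rw [Finset.prod_insert hi, Finset.prod_insert hi, stb_th_mul, ih]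

/-! ### the order of `f^Θ` -/

/-- `ord_R (σ • f) = ord_{σ⁻¹ R} f` -/
theorem stb_ord_smul (σ : SemilinearAut L F) (R : Place L F) (f : F) :
    R.ord (σ • f) = (σ⁻¹ • R).ord f := by
  have h := SemilinearAut.ord_smul σ (σ⁻¹ • R) f
  rwa [smul_inv_smul] at h

/-- the order of `f^Θ` -/
theorem stb_ord_th (Q : ℕ) (σ : SemilinearAut L F) (R : Place L F) {f : F} (hf : f ≠ 0) :
    R.ord (stTh Q σ f) =
      (σ⁻¹ • σ⁻¹ • R).ord f + Q * R.ord f - (Q + 1) * (σ⁻¹ • R).ord f := by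
  have hσf := stb_smul_ne_zero σ hf
  have hσσf := stb_smul_ne_zero σ hσf
  unfold stTh
  rw [div_eq_mul_inv, Place.ord_mul _ (mul_ne_zero hσσf (pow_ne_zero _ hf))
      (inv_ne_zero (pow_ne_zero _ hσf)),
    Place.ord_mul _ hσσf (pow_ne_zero _ hf), Place.ord_inv, ← zpow_natCast f Q,
    ← zpow_natCast (σ • f) (Q + 1), Place.ord_zpow, Place.ord_zpow, stb_ord_smul σ R (σ • f),
    stb_ord_smul σ (σ⁻¹ • R) f, stb_ord_smul σ R f]
  push_cast
  ring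

/-! ### the subgroup `1 + ϖ P_(ϖ)` -/

/-- `ϖ ∈ P_(ϖ)` -/
theorem stb_unif_mem_intLoc (hϖ : Irreducible ϖ) (t : F) :
    algebraMap A F ϖ ∈ s18tIntLoc A t (C ϖ) (s18t_prime_C hϖ) :=
  s18tInt_le_intLoc hϖ t (s18tc_algebraMap_mem_int t ϖ)

/-- `x ≡ 1 mod ϖ P_(ϖ) ⟹ x ∈ P_(ϖ)` -/
theorem stb_mem_intLoc_of_dvdGauss (hϖ : Irreducible ϖ) (t : F) {x : F}
    (hx : S18DvdGauss hϖ t (x - 1)) : x ∈ s18tIntLoc A t (C ϖ) (s18t_prime_C hϖ) := by
  obtain ⟨y, hy, hxy⟩ := hx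
  have h : x = 1 + algebraMap A F ϖ * y := by rw [← hxy]; ring
  rw [h]
  exact Subring.add_mem _ (Subring.one_mem _) (Subring.mul_mem _ (stb_unif_mem_intLoc hϖ t) hy)

/-- `x - 1 ∈ 𝔪_V ⟹ x⁻¹ - 1 ∈ 𝔪_V` -/
theorem stb_inv_sub_one_mem_nonunits (V : ValuationSubring F) {x : F}
    (hx : x - 1 ∈ V.nonunits) : x⁻¹ - 1 ∈ V.nonunits := by
  rw [ValuationSubring.mem_nonunits_iff] at hx ⊢
  have h1 : V.valuation x = 1 := by
    have h := Valuation.map_one_add_of_lt V.valuation hx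
    rwa [add_sub_cancel] at h
  have hx0 : x ≠ 0 := by
    rintro rfl
    rw [map_zero] at h1
    exact zero_ne_one h1
  have h2 : x⁻¹ - 1 = -(x - 1) * x⁻¹ := by
    field_simp
    ring
  rw [h2, map_mul, Valuation.map_neg, map_inv₀, h1, inv_one, mul_one]
  exact hx

/-- `x ≡ 1 ⟹ x⁻¹ ≡ 1 mod ϖ P_(ϖ)` -/
theorem stb_dvdGauss_inv (hϖ : Irreducible ϖ) (t : F) {u₁ u₂ : F} {V₁ V₂ : ValuationSubring F}
    (h2 : SsvTwo hϖ t u₁ u₂ V₁ V₂) {x : F} (hx : S18DvdGauss hϖ t (x - 1)) :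
    S18DvdGauss hϖ t (x⁻¹ - 1) := by
  rw [h2.dvd_iff] at hx ⊢
  exact ⟨stb_inv_sub_one_mem_nonunits V₁ hx.1, stb_inv_sub_one_mem_nonunits V₂ hx.2⟩

/-- `x ≡ 1, y ≡ 1 ⟹ x y ≡ 1 mod ϖ P_(ϖ)` -/
theorem stb_dvdGauss_mul (hϖ : Irreducible ϖ) (t : F) {x y : F}
    (hx : S18DvdGauss hϖ t (x - 1)) (hy : S18DvdGauss hϖ t (y - 1)) :
    S18DvdGauss hϖ t (x * y - 1) := by
  have h : x * y - 1 = (x - 1) * y + (y - 1) := by ring
  rw [h]
  exact S18DvdGauss.add hϖ (S18DvdGauss.mul_mem hϖ hx (stb_mem_intLoc_of_dvdGauss hϖ t hy)) hy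

/-- `x ≡ 1 ⟹ x^k ≡ 1 mod ϖ P_(ϖ)` -/
theorem stb_dvdGauss_pow (hϖ : Irreducible ϖ) (t : F) {x : F}
    (hx : S18DvdGauss hϖ t (x - 1)) (k : ℕ) : S18DvdGauss hϖ t (x ^ k - 1) := by
  induction k with
  | zero =>
    rw [pow_zero, sub_self]
    exact ⟨0, Subring.zero_mem _, (mul_zero _).symm⟩
  | succ k ih =>
    rw [pow_succ]
    exact stb_dvdGauss_mul hϖ t ih hx

variable {V₁ V₂ : ValuationSubring F} {Q : ℕ} {σ : SemilinearAut L F} {t : F}

theorem StFrob.inv_chart (hσ : StFrob ϖ t V₁ V₂ Q σ) : StFrob ϖ t⁻¹ V₁ V₂ Q σ where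
  t_fixed := by rw [smul_inv'', hσ.t_fixed]
  base := hσ.base
  base_inv := hσ.base_inv
  val₁ := hσ.val₁
  val₂ := hσ.val₂

/-! ### `σ P = P` -/

/-- a semilinear automorphism fixing `t` and preserving `A` preserves the chart ring `A[t]` -/
theorem stb_chart_smul (τ : SemilinearAut L F) (hτt : τ • t = t)
    (hτA : ∀ a : A, ∃ b : A, τ • algebraMap A F a = algebraMap A F b) {c : F}
    (hc : c ∈ s18tChart A t) : τ • c ∈ s18tChart A t := by
  unfold s18tChart at hc ⊢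
  induction hc using Algebra.adjoin_induction with
  | mem x hx =>
    rw [Set.mem_singleton_iff] at hx
    rw [hx, hτt]
    exact Algebra.subset_adjoin (Set.mem_singleton t)
  | algebraMap a =>
    obtain ⟨b, hb⟩ := hτA a
    rw [hb]
    exact Subalgebra.algebraMap_mem _ b
  | add x y _ _ hx hy =>
    rw [smul_add]
    exact Subalgebra.add_mem _ hx hy
  | mul x y _ _ hx hy =>
    rw [smul_mul']
    exact Subalgebra.mul_mem _ hx hy

/-- a semilinear automorphism fixing `t` and preserving `A` preserves `P` -/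
theorem stb_int_smul (τ : SemilinearAut L F) (hτt : τ • t = t)
    (hτA : ∀ a : A, ∃ b : A, τ • algebraMap A F a = algebraMap A F b) {x : F}
    (hx : x ∈ s18tInt A t) : τ • x ∈ s18tInt A t := by
  rw [mem_s18tInt] at hx ⊢
  let ψ : F →+* F := (SemilinearAut.toRingAut τ : F →+* F)
  let φ : ↥(s18tChart A t) →+* ↥(s18tChart A t) :=
    ψ.restrict (s18tChart A t) (s18tChart A t) (fun c hc => stb_chart_smul τ hτt hτA hc)
  have hcomp : (algebraMap ↥(s18tChart A t) F).comp φ =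
      ψ.comp (algebraMap ↥(s18tChart A t) F) := by
    ext c
    rfl
  exact IsIntegral.map_of_comp_eq φ ψ hcomp hx

/-- `σ` preserves `A` -/
theorem StFrob.base' (hσ : StFrob ϖ t V₁ V₂ Q σ) (a : A) :
    ∃ b : A, σ • algebraMap A F a = algebraMap A F b := by
  obtain ⟨b, hb⟩ := hσ.base a
  exact ⟨_, hb⟩

/-- `σ⁻¹ t = t` -/
theorem StFrob.t_fixed_inv (hσ : StFrob ϖ t V₁ V₂ Q σ) : σ⁻¹ • t = t := by
  rw [inv_smul_eq_iff, hσ.t_fixed]

/-- `σ P ⊆ P` -/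
theorem stb_int_of_mem (hσ : StFrob ϖ t V₁ V₂ Q σ) {x : F} (hx : x ∈ s18tInt A t) :
    σ • x ∈ s18tInt A t :=
  stb_int_smul σ hσ.t_fixed hσ.base' hx

/-- `σ⁻¹ P ⊆ P` -/
theorem stb_int_inv_of_mem (hσ : StFrob ϖ t V₁ V₂ Q σ) {x : F} (hx : x ∈ s18tInt A t) :
    σ⁻¹ • x ∈ s18tInt A t :=
  stb_int_smul σ⁻¹ hσ.t_fixed_inv hσ.base_inv hx

/-- `σ P = P` -/
theorem stb_int (hσ : StFrob ϖ t V₁ V₂ Q σ) (x : F) : σ • x ∈ s18tInt A t ↔ x ∈ s18tInt A t := by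
  refine ⟨fun h => ?_, fun h => stb_int_of_mem hσ h⟩
  have h2 := stb_int_inv_of_mem hσ h
  rwa [inv_smul_smul] at h2

/-! ### `σ` and the maximal ideals of the valuation rings -/

/-- `y ∈ 𝔪_V ↔ y = 0 ∨ y⁻¹ ∉ V` -/
theorem stb_mem_nonunits_iff (V : ValuationSubring F) (y : F) :
    y ∈ V.nonunits ↔ y = 0 ∨ y⁻¹ ∉ V := by
  rw [ValuationSubring.mem_nonunits_iff]
  rcases eq_or_ne y 0 with rfl | hy
  · simp
  · rw [← ValuationSubring.valuation_le_one_iff, map_inv₀, not_le]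
    have hv : V.valuation y ≠ 0 := (Valuation.ne_zero_iff _).mpr hy
    constructor
    · intro h
      right
      exact (one_lt_inv₀ (zero_lt_iff.mpr hv)).mpr h
    · rintro (h | h)
      · exact absurd h hy
      · exact (one_lt_inv₀ (zero_lt_iff.mpr hv)).mp h

/-- an automorphism with `τ V = V` (elementwise) preserves `𝔪_V` -/
theorem stb_nonunits_smul_iff (τ : SemilinearAut L F) (V : ValuationSubring F)
    (hV : ∀ x : F, τ • x ∈ V ↔ x ∈ V) (y : F) : τ • y ∈ V.nonunits ↔ y ∈ V.nonunits := by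
  rw [stb_mem_nonunits_iff, stb_mem_nonunits_iff, ← smul_inv'', hV, smul_eq_zero_iff_eq]

/-- membership in the non-units of a translate -/
theorem stb_mem_nonunits_smul (τ : SemilinearAut L F) (V : ValuationSubring F) (x : F) :
    x ∈ (τ • V).nonunits ↔ τ⁻¹ • x ∈ V.nonunits := by
  rw [stb_mem_nonunits_iff, stb_mem_nonunits_iff, ← smul_inv'',
    ValuationSubring.mem_pointwise_smul_iff_inv_smul_mem, smul_eq_zero_iff_eq]

/-- `σ` preserves `≡ 1 mod ϖ P_(ϖ)` -/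
theorem stb_dvdGauss_smul (hϖ : Irreducible ϖ) {u₁ u₂ : F} (h2 : SsvTwo hϖ t u₁ u₂ V₁ V₂)
    (hσ : StFrob ϖ t V₁ V₂ Q σ) {x : F} (hx : S18DvdGauss hϖ t (x - 1)) :
    S18DvdGauss hϖ t (σ • x - 1) := by
  rw [h2.dvd_iff] at hx ⊢
  have h : σ • x - 1 = σ • (x - 1) := by rw [smul_sub, smul_one]
  rw [h]
  exact ⟨(stb_nonunits_smul_iff σ V₁ hσ.val₁ _).mpr hx.1,
    (stb_nonunits_smul_iff σ V₂ hσ.val₂ _).mpr hx.2⟩

/-- `x ≡ 1 ⟹ x^Θ ≡ 1` -/
theorem stb_dvdGauss_th (hϖ : Irreducible ϖ) {u₁ u₂ : F} (h2 : SsvTwo hϖ t u₁ u₂ V₁ V₂)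
    (hσ : StFrob ϖ t V₁ V₂ Q σ) {x : F} (hx : S18DvdGauss hϖ t (x - 1)) :
    S18DvdGauss hϖ t (stTh Q σ x - 1) := by
  have h1 := stb_dvdGauss_smul hϖ h2 hσ hx
  have h3 := stb_dvdGauss_smul hϖ h2 hσ h1
  have h4 := stb_dvdGauss_pow hϖ t hx Q
  have h5 := stb_dvdGauss_inv hϖ t h2 (stb_dvdGauss_pow hϖ t h1 (Q + 1))
  unfold stTh
  rw [div_eq_mul_inv]
  exact stb_dvdGauss_mul hϖ t (stb_dvdGauss_mul hϖ t h3 h4) h5

/-! ### the closed point `σ⁻¹ 𝔫` -/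

/-- `σ` as a ring endomorphism of `P` -/
def stbEnd (hσ : StFrob ϖ t V₁ V₂ Q σ) : ↥(s18tInt A t) →+* ↥(s18tInt A t) :=
  ((SemilinearAut.toRingAut σ : F →+* F)).restrict (s18tInt A t) (s18tInt A t)
    (fun x hx => stb_int_of_mem hσ hx)

theorem stbEnd_coe (hσ : StFrob ϖ t V₁ V₂ Q σ) (p : ↥(s18tInt A t)) :
    ((stbEnd hσ p : ↥(s18tInt A t)) : F) = σ • (p : F) := rfl

theorem stbEnd_surjective (hσ : StFrob ϖ t V₁ V₂ Q σ) : Function.Surjective (stbEnd hσ) := by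
  intro y
  refine ⟨⟨σ⁻¹ • (y : F), stb_int_inv_of_mem hσ y.2⟩, Subtype.ext ?_⟩
  rw [stbEnd_coe]
  exact smul_inv_smul σ (y : F)

/-- `comap σ 𝔫` is `σ⁻¹ 𝔫` -/
theorem stb_pull_comap (hσ : StFrob ϖ t V₁ V₂ Q σ) (𝔫 : Ideal ↥(s18tInt A t)) :
    StPull t σ 𝔫 (Ideal.comap (stbEnd hσ) 𝔫) := by
  intro p
  rw [Ideal.mem_comap]
  constructor
  · intro h
    exact ⟨stb_int_of_mem hσ p.2, h⟩
  · rintro ⟨h, hp⟩
    exact hp

/-- `StPull` determines the ideal -/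
theorem stb_pull_unique {𝔫 𝔫' 𝔫'' : Ideal ↥(s18tInt A t)} (h' : StPull t σ 𝔫 𝔫')
    (h'' : StPull t σ 𝔫 𝔫'') : 𝔫' = 𝔫'' := by
  ext p
  rw [h' p, h'' p]

/-- `p ∈ σ⁻¹ 𝔫 ↔ σ p ∈ 𝔫`, with the membership proof supplied -/
theorem stb_pull_mem_iff (hσ : StFrob ϖ t V₁ V₂ Q σ) {𝔫 𝔫' : Ideal ↥(s18tInt A t)}
    (h : StPull t σ 𝔫 𝔫') (p : ↥(s18tInt A t)) : p ∈ 𝔫' ↔ stbEnd hσ p ∈ 𝔫 := by
  rw [h p]
  constructor
  · rintro ⟨_, hp⟩
    exact hp
  · intro hp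
    exact ⟨stb_int_of_mem hσ p.2, hp⟩

/-- the uniformiser is not a unit of `A` as soon as it lies in a maximal ideal of `P` -/
theorem stb_not_isUnit_of_mem (𝔫 : Ideal ↥(s18tInt A t)) (h𝔫 : 𝔫.IsMaximal)
    (hϖ𝔫 : sskPi ϖ t ∈ 𝔫) : ¬ IsUnit ϖ := by
  intro hu
  obtain ⟨v, hv⟩ := hu.exists_right_inv
  apply h𝔫.ne_top
  rw [Ideal.eq_top_iff_one]
  have h1 : (1 : ↥(s18tInt A t)) =
      sskPi ϖ t * ⟨algebraMap A F v, s18tc_algebraMap_mem_int t v⟩ := by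
    apply Subtype.ext
    show (1 : F) = algebraMap A F ϖ * algebraMap A F v
    rw [← map_mul, hv, map_one]
  rw [h1]
  exact Ideal.mul_mem_right _ _ hϖ𝔫

/-- `algebraMap A F` is injective -/
theorem stb_algebraMap_injective (L : Type*) [Field L] [Algebra A L] [IsFractionRing A L]
    [Algebra L F] [IsScalarTower A L F] : Function.Injective (algebraMap A F) := by
  rw [IsScalarTower.algebraMap_eq A L F]
  exact (algebraMap L F).injective.comp (IsFractionRing.injective A L)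

/-- existence of `σ⁻¹ 𝔫` -/
theorem stb_exists_pull (hσ : StFrob ϖ t V₁ V₂ Q σ) (𝔫 : Ideal ↥(s18tInt A t)) (h𝔫 : 𝔫.IsMaximal)
    (hϖ𝔫 : sskPi ϖ t ∈ 𝔫) :
    ∃ 𝔫' : Ideal ↥(s18tInt A t), StPull t σ 𝔫 𝔫' ∧ 𝔫'.IsMaximal ∧ sskPi ϖ t ∈ 𝔫' ∧
      (StRes t 𝔫 → StRes t 𝔫') ∧ (StOn V₁ t 𝔫' ↔ StOn V₁ t 𝔫) ∧ (StOn V₂ t 𝔫' ↔ StOn V₂ t 𝔫) := by
  have hpull := stb_pull_comap hσ 𝔫
  have hon : ∀ V : ValuationSubring F, (∀ x : F, σ • x ∈ V ↔ x ∈ V) →
      (StOn V t (Ideal.comap (stbEnd hσ) 𝔫) ↔ StOn V t 𝔫) := by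
    intro V hV
    constructor
    · intro h p hp
      obtain ⟨q, rfl⟩ := stbEnd_surjective hσ p
      have hq : (q : F) ∈ V.nonunits := by
        rw [← stb_nonunits_smul_iff σ V hV]
        exact hp
      exact h q hq
    · intro h p hp
      rw [Ideal.mem_comap]
      apply h
      show σ • (p : F) ∈ V.nonunits
      rw [stb_nonunits_smul_iff σ V hV]
      exact hp
  refine ⟨Ideal.comap (stbEnd hσ) 𝔫, hpull,
    Ideal.comap_isMaximal_of_surjective (stbEnd hσ) (stbEnd_surjective hσ), ?_, ?_,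
    hon V₁ hσ.val₁, hon V₂ hσ.val₂⟩
  · -- `ϖ ∈ σ⁻¹ 𝔫`
    rw [Ideal.mem_comap]
    obtain ⟨b, hb⟩ := hσ.base ϖ
    have hQ : Q ≠ 0 := by
      rintro rfl
      obtain ⟨b0, hb0⟩ := hσ.base 0
      rw [map_zero, smul_zero, pow_zero] at hb0
      have h0 : (1 : A) + ϖ * b0 = 0 := by
        apply stb_algebraMap_injective (A := A) (F := F) L
        rw [← hb0, map_zero]
      apply stb_not_isUnit_of_mem 𝔫 h𝔫 hϖ𝔫
      refine IsUnit.of_mul_eq_one (-b0) ?_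
      linear_combination (-1 : A) * h0
    obtain ⟨k, hk⟩ := Nat.exists_eq_add_one_of_ne_zero hQ
    have h1 : stbEnd hσ (sskPi ϖ t) =
        sskPi ϖ t * ⟨algebraMap A F (ϖ ^ k + b), s18tc_algebraMap_mem_int t _⟩ := by
      apply Subtype.ext
      show σ • algebraMap A F ϖ = algebraMap A F ϖ * algebraMap A F (ϖ ^ k + b)
      rw [hb, ← map_mul, hk]
      congr 1
      ring
    rw [h1]
    exact Ideal.mul_mem_right _ _ hϖ𝔫
  · -- residue field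
    intro hres x
    obtain ⟨a, p, hp, hx⟩ := hres (stbEnd hσ x)
    obtain ⟨b, hb⟩ := hσ.base_inv a
    obtain ⟨q, rfl⟩ := stbEnd_surjective hσ p
    refine ⟨b, q, hp, ?_⟩
    rw [stbEnd_coe, stbEnd_coe] at hx
    have h2 : (x : F) = σ⁻¹ • (σ • (x : F)) := (inv_smul_smul σ _).symm
    rw [h2, hx, smul_add, hb, inv_smul_smul]

/-- `R` centred at `𝔫` ⟹ `σ⁻¹ R` centred at `σ⁻¹ 𝔫` -/
theorem stb_centred_pull (hσ : StFrob ϖ t V₁ V₂ Q σ) {𝔫 𝔫' : Ideal ↥(s18tInt A t)}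
    (h : StPull t σ 𝔫 𝔫') (R : Place L F) (hR : SsCentredAt t 𝔫 R) :
    SsCentredAt t 𝔫' (σ⁻¹ • R) := by
  refine ⟨fun x hx => ?_, fun p hp => ?_⟩
  · show x ∈ (σ⁻¹ • R).toValuationSubring
    rw [SemilinearAut.smul_toValuationSubring,
      ValuationSubring.mem_pointwise_smul_iff_inv_smul_mem, inv_inv]
    exact hR.1 (stb_int_of_mem hσ hx)
  · have hp' : (p : F) ∈ (σ⁻¹ • R.toValuationSubring).nonunits := hp
    rw [stb_mem_nonunits_smul, inv_inv] at hp'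
    have h1 : stbEnd hσ p ∈ 𝔫 := hR.2 hp'
    exact (stb_pull_mem_iff hσ h p).mpr h1

/-- `R` centred at `σ⁻¹ 𝔫` ⟹ `σ R` centred at `𝔫` -/
theorem stb_centred_push (hσ : StFrob ϖ t V₁ V₂ Q σ) {𝔫 𝔫' : Ideal ↥(s18tInt A t)}
    (h : StPull t σ 𝔫 𝔫') (R : Place L F) (hR : SsCentredAt t 𝔫' R) :
    SsCentredAt t 𝔫 (σ • R) := by
  refine ⟨fun x hx => ?_, fun p hp => ?_⟩
  · show x ∈ (σ • R).toValuationSubring
    rw [SemilinearAut.smul_toValuationSubring,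
      ValuationSubring.mem_pointwise_smul_iff_inv_smul_mem]
    exact hR.1 (stb_int_inv_of_mem hσ hx)
  · have hp' : (p : F) ∈ (σ • R.toValuationSubring).nonunits := hp
    rw [stb_mem_nonunits_smul] at hp'
    have h1 : (⟨σ⁻¹ • (p : F), stb_int_inv_of_mem hσ p.2⟩ : ↥(s18tInt A t)) ∈ 𝔫' := hR.2 hp'
    rw [stb_pull_mem_iff hσ h] at h1
    have e : stbEnd hσ ⟨σ⁻¹ • (p : F), stb_int_inv_of_mem hσ p.2⟩ = p :=
      Subtype.ext (smul_inv_smul σ (p : F))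
    rwa [e] at h1

/-- `σ` preserves rationality of places -/
theorem stb_rational_smul (γ : SemilinearAut L F) (R : Place L F) (hR : SsRational R) :
    SsRational (γ • R) := by
  intro x hx
  rw [SemilinearAut.smul_toValuationSubring] at hx ⊢
  have hx' : γ⁻¹ • x ∈ R.toValuationSubring :=
    ValuationSubring.mem_pointwise_smul_iff_inv_smul_mem.mp hx
  obtain ⟨c, hc⟩ := hR _ hx'
  refine ⟨SemilinearAut.baseAut γ c, ?_⟩
  rw [stb_mem_nonunits_smul, smul_sub, SemilinearAut.smul_algebraMap, SemilinearAut.baseAut_inv,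
    RingEquiv.symm_apply_apply]
  exact hc

end Fermat.Agent.ST
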