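import Mathlib
import Fermat.Prelude.Def_AlgebraicCurve_BaseChangeGalois
import Fermat.Agent.S18.T.Spec
import Fermat.Agent.S18.RH.W
import Fermat.Agent.S24.PlaceOrd
import Fermat.Agent.SS.K.Spec
import Fermat.Agent.SS.Geo.ChartInv
import Fermat.Agent.ST.Defs
import Fermat.Agent.ST.Frob

/-!
# Program T (S35), leaf ST/Core (prefix `stk_`) : KRULL + KUM from the local divisor datum

* `stk_kumAt` : the local datum `StDivAt` at a closed point `𝔫` (`r ≡ 1 ≡ r⁻¹ mod ϖ P_(ϖ)`,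
  `ord_R h = n · ord_R r` at the places centred at `𝔫`) together with `h ≡ 1 mod ϖ P_(ϖ)` gives
  the local datum `SskKumAt` of (KUM) : `h / r^n ∈ 1 + ϖ P_𝔫` (by (KRULL) `ssk_krull`);
* `st_divAt_inv` : transfer of `StDivAt` from the chart `t` to the closed points `∌ t⁻¹` of the
  chart `t⁻¹` (`ssgl_centred_back`);
* `st_core` : `h ≡ 1 mod ϖ P_(ϖ)` + `StDivAt` at all closed points `∋ ϖ` of the chart `t` and at
  the closed points `∋ ϖ, t⁻¹` of the chart `t⁻¹` ⟹ `h` is an `n`-th power (`ssk_kummer`).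
-/

set_option autoImplicit false
set_option linter.unusedSectionVars false
set_option linter.unusedVariables false

noncomputable section

namespace Fermat.Agent.ST

open Polynomial IntermediateField AlgebraicCurve Fermat.Agent.S18 Fermat.Agent.S24 Fermat.Agent.SS

universe u

variable {A : Type*} [CommRing A] [IsDomain A] [IsDiscreteValuationRing A] [CharZero A]
variable {L : Type*} [Field L] [Algebra A L] [IsFractionRing A L]
variable {F : Type u} [Field F] [Algebra A F] [Algebra L F] [IsScalarTower A L F]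
variable {ϖ : A}

/-- the local datum `StDivAt` and `h ≡ 1 mod ϖ P_(ϖ)` give the local datum of (KUM) -/
theorem stk_kumAt (hϖ : Irreducible ϖ) (t : F) (ht : Transcendental L t)
    [FiniteDimensional L⟮t⟯ F] (n : ℕ) (h : F) (hh : h ≠ 0) (hh1 : S18DvdGauss hϖ t (h - 1))
    (𝔫 : Ideal ↥(s18tInt A t)) (h𝔫 : 𝔫.IsMaximal) (hd : StDivAt L hϖ t n h 𝔫) :
    SskKumAt hϖ t n h 𝔫 := by
  obtain ⟨r, hr0, hr1, hr2, hord⟩ := hd
  -- `x₁ = h / r^n ≡ 1`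
  have hx1 : S18DvdGauss hϖ t (h / r ^ n - 1) := by
    have h1 := stb_dvdGauss_mul hϖ t hh1 (stb_dvdGauss_pow hϖ t hr2 n)
    rwa [inv_pow, ← div_eq_mul_inv] at h1
  obtain ⟨m, hm, hxm⟩ := hx1
  have hinjF : Function.Injective (algebraMap A F) := stb_algebraMap_injective L
  have hϖF : algebraMap A F ϖ ≠ 0 := fun h0 => hϖ.ne_zero (hinjF (by rw [h0, map_zero]))
  -- (KRULL)
  obtain ⟨s, hs, hsm⟩ := ssk_krull hϖ t ht 𝔫 h𝔫 m hm (by
    intro V hV hPV hcentre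
    obtain ⟨R, hR⟩ := s18r_exists_place t ht V hV
    have hcen : SsCentredAt t 𝔫 R := by
      refine ⟨?_, ?_⟩
      · rw [hR]; exact hPV
      · rw [hR]; exact hcentre
    have h1 := hord R hcen
    have hx0 : h / r ^ n ≠ 0 := div_ne_zero hh (pow_ne_zero _ hr0)
    have h2 : R.ord (h / r ^ n) = 0 := by
      rw [div_eq_mul_inv, R.ord_mul hh (inv_ne_zero (pow_ne_zero _ hr0)), R.ord_inv,
        ← zpow_natCast, R.ord_zpow, h1]
      ring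
    have h3 : h / r ^ n ∈ R.toValuationSubring :=
      (PlaceOrd.mem_iff_ord_nonneg R hx0).mpr (by rw [h2])
    have h4 : (algebraMap A F ϖ)⁻¹ ∈ R.toValuationSubring := by
      have : (algebraMap A F ϖ)⁻¹ = algebraMap L F (algebraMap A L ϖ)⁻¹ := by
        rw [map_inv₀, ← IsScalarTower.algebraMap_apply A L F]
      rw [this]
      exact R.algebraMap_mem' _
    have h5 : m = (h / r ^ n - 1) * (algebraMap A F ϖ)⁻¹ := by
      rw [hxm, mul_comm (algebraMap A F ϖ) m, mul_assoc, mul_inv_cancel₀ hϖF, mul_one]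
    rw [← hR, h5]
    exact R.toValuationSubring.mul_mem _ _
      (sub_mem h3 R.toValuationSubring.one_mem) h4)
  refine ⟨r, hr0, hr1, hr2, s, hs, (s : F) * m, hsm, ?_⟩
  rw [hxm]; ring

/-- transfer of the local datum from the chart `t` to the closed points `∌ t⁻¹` of the chart `t⁻¹` -/
theorem st_divAt_inv (hϖ : Irreducible ϖ) (t : F) (ht : Transcendental L t)
    [FiniteDimensional L⟮t⟯ F] (n : ℕ) (h : F)
    (h0 : ∀ 𝔫 : Ideal ↥(s18tInt A t), 𝔫.IsMaximal → sskPi ϖ t ∈ 𝔫 → StDivAt L hϖ t n h 𝔫)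
    (𝔫' : Ideal ↥(s18tInt A t⁻¹)) (h𝔫' : 𝔫'.IsMaximal) (hϖ𝔫' : sskPi ϖ t⁻¹ ∈ 𝔫')
    (hunit : ssglTinv (A := A) t ∉ 𝔫') :
    StDivAt L hϖ t⁻¹ n h 𝔫' := by
  have ht0 : t ≠ 0 := by
    rintro rfl
    exact ht (isAlgebraic_zero)
  have := h𝔫'.isPrime
  obtain ⟨𝔫, h𝔫max, h𝔫le⟩ := Ideal.exists_le_maximal _ (ssgl_back_ne_top t ht0 𝔫' hunit)
  have hϖ𝔫 : sskPi ϖ t ∈ 𝔫 := h𝔫le (ssgl_pi_mem_back t ht0 𝔫' hϖ𝔫')
  obtain ⟨r, hr0, hr1, hr2, hord⟩ := h0 𝔫 h𝔫max hϖ𝔫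
  refine ⟨r, hr0, (s18t_dvdGauss_inv (L := L) hϖ t ht _).mpr hr1,
    (s18t_dvdGauss_inv (L := L) hϖ t ht _).mpr hr2, fun R hR => ?_⟩
  exact hord R (ssgl_centred_back t ht0 𝔫' hunit 𝔫 h𝔫le R hR)

/-- (T-core) `h ≡ 1 mod ϖ P_(ϖ)` + the local datum at every closed point `∋ ϖ` of both charts
⟹ `h` is an `n`-th power (as soon as it is one in `F' = F(y)`, `L` algebraically closed in `F'`). -/
theorem st_core (F' : Type u) [Field F'] [Algebra F F'] [Algebra A F'] [Algebra L F']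
    [IsScalarTower A F F'] [IsScalarTower L F F'] [IsScalarTower A L F']
    (hϖ : Irreducible ϖ) (t : F) (ht : Transcendental L t) [FiniteDimensional L⟮t⟯ F]
    (n : ℕ) (hn : IsUnit (n : A)) (ζ : A) (hζ : IsPrimitiveRoot ζ n)
    (h : F) (hh : h ≠ 0) (hh1 : S18DvdGauss hϖ t (h - 1))
    (h0 : ∀ 𝔫 : Ideal ↥(s18tInt A t), 𝔫.IsMaximal → sskPi ϖ t ∈ 𝔫 → StDivAt L hϖ t n h 𝔫)
    (hinf : ∀ 𝔫 : Ideal ↥(s18tInt A t⁻¹), 𝔫.IsMaximal → sskPi ϖ t⁻¹ ∈ 𝔫 → ssglTinv (A := A) t ∈ 𝔫 →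
      StDivAt L hϖ t⁻¹ n h 𝔫)
    (y : F') (hy : y ^ n = algebraMap F F' h)
    (hgen : IntermediateField.adjoin F {y} = ⊤)
    (hL : ∀ x : F', IsAlgebraic L x → x ∈ (algebraMap L F').range) :
    ∃ y₀ : F, y₀ ^ n = h := by
  have ht' : Transcendental L t⁻¹ := by
    intro h
    exact ht (by simpa using h.inv)
  have hfd : FiniteDimensional L⟮t⁻¹⟯ F := by
    have hEq : L⟮t⁻¹⟯ = L⟮t⟯ := by
      apply le_antisymm
      · rw [IntermediateField.adjoin_simple_le_iff]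
        exact inv_mem (IntermediateField.mem_adjoin_simple_self L t)
      · rw [IntermediateField.adjoin_simple_le_iff]
        have := inv_mem (IntermediateField.mem_adjoin_simple_self L t⁻¹)
        simpa using this
    rw [hEq]; infer_instance
  have hh1' : S18DvdGauss hϖ t⁻¹ (h - 1) := (s18t_dvdGauss_inv (L := L) hϖ t ht _).mpr hh1
  have hinf' : ∀ 𝔫 : Ideal ↥(s18tInt A t⁻¹), 𝔫.IsMaximal → sskPi ϖ t⁻¹ ∈ 𝔫 →
      StDivAt L hϖ t⁻¹ n h 𝔫 := by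
    intro 𝔫 h𝔫 hϖ𝔫
    by_cases hmem : ssglTinv (A := A) t ∈ 𝔫
    · exact hinf 𝔫 h𝔫 hϖ𝔫 hmem
    · exact st_divAt_inv hϖ t ht n h h0 𝔫 h𝔫 hϖ𝔫 hmem
  exact ssk_kummer F' hϖ t ht n hn ζ hζ h hh hh1 y hy hgen hL
    (fun 𝔫 h𝔫 hϖ𝔫 => stk_kumAt hϖ t ht n h hh hh1 𝔫 h𝔫 (h0 𝔫 h𝔫 hϖ𝔫))
    (fun 𝔫 h𝔫 hϖ𝔫 => stk_kumAt hϖ t⁻¹ ht' n h hh hh1' 𝔫 h𝔫 (hinf' 𝔫 h𝔫 hϖ𝔫))

end Fermat.Agent.ST
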