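import Mathlib
import Fermat.Agent.SS.NF.Defs
import Fermat.Agent.SS.Loc.Germ
import Fermat.Agent.SS.Loc.GermNF

/-!
# Program T (S35), leaf ST/Deep : at most one deep rational place per crossing; the bad set is stable

Setting of S18 package T / `SS/Loc` : `A` a DVR of characteristic `0` with uniformiser `ϖ`,
`L = Frac A`, `F / L(t)` finite, `P = s18tInt A t`, `𝔫 ∋ ϖ` a maximal ideal of `P`.

A rational place `R` centred at `𝔫` is GOOD (`StdGood t 𝔫 R`, the first alternative of `SsLocAt`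
verbatim) if there is a function with a simple zero at `R` and no other zero or pole among the
places centred at `𝔫`.

* `std_ev_eq` (abstract, Mathlib only) : two retractions `ev, ev' : O → A` of the constants with
  `ϖ^n ∣ ev (u n), ev (w n), ev' (u n), ev' (w n)` for generators `(ϖ, u n, w n)` of `𝔪_O`, all `n`,
  coincide;
* `std_cross_dich` : at a crossing germ every rational place centred at `𝔫` is cut out by a
  coordinate function or is DEEP for the family (`StdDeep`);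
* `std_deep_unique` : two deep rational places centred at `𝔫` coincide;
* `std_rational_smul`, `std_centred_smul`, `std_good_of_smul`, `std_good_smul_iff` : rationality,
  being centred at `𝔫` and goodness are invariant under a semilinear automorphism `σ` with
  `σ⁻¹ P ⊆ P` and `σ 𝔫 ⊆ 𝔫` (`StdStable t 𝔫 σ`);
* `std_fixed_of_not_good` : at a crossing germ, a rational place centred at `𝔫` which is not good is
  fixed by every stable `σ`;
* `std_locAt_of_germF`, `std_locAt_of_germ` : a germ at `𝔫` (NO invariance of the coordinates under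
  `σ, τ`; the group argument of the germ is arbitrary) gives `SsLocAt t σ τ 𝔫` for stable `σ, τ`.
-/

set_option autoImplicit false
set_option linter.unusedSectionVars false
set_option linter.unusedVariables false
set_option linter.style.haveILetI false

noncomputable section

namespace Fermat.Agent.ST

open Polynomial IntermediateField Fermat.Agent.S18 Fermat.Agent.SS IsLocalRing AlgebraicCurve
open scoped Pointwise

/-! ### the abstract uniqueness statement -/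

section Abs

variable {A O : Type*} [CommRing A] [IsDomain A] [IsDiscreteValuationRing A]
variable [CommRing O] [IsLocalRing O]

/-- Krull intersection in a DVR -/
theorem std_eq_zero_of_forall_dvd (ϖ : A) (hϖ : Irreducible ϖ) (a : A)
    (h : ∀ m : ℕ, ϖ ^ m ∣ a) : a = 0 := by
  by_contra h0
  obtain ⟨k, e, hke⟩ := IsDiscreteValuationRing.eq_unit_mul_pow_irreducible h0 hϖ
  have h5 := h (k + 1)
  rw [hke] at h5
  have h6 : ϖ ^ (k + 1) ∣ ϖ ^ k := by
    have h7 : ϖ ^ k = (↑e⁻¹ : A) * (↑e * ϖ ^ k) := by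
      rw [← mul_assoc, Units.inv_mul, one_mul]
    rw [h7]
    exact Dvd.dvd.mul_left h5 _
  have h8 := (pow_dvd_pow_iff hϖ.ne_zero hϖ.not_isUnit).mp h6
  omega

/-- two retractions of the constants which are deep for the same family of generators of `𝔪_O`
coincide -/
theorem std_ev_eq (ι : A →+* O) (ev ev' : O →+* A) (hev : ∀ a, ev (ι a) = a)
    (hev' : ∀ a, ev' (ι a) = a) (ϖ : A) (hϖ : Irreducible ϖ) (u w : ℕ → O)
    (hmax : ∀ n, maximalIdeal O = Ideal.span {ι ϖ, u n, w n})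
    (hu : ∀ n, ϖ ^ n ∣ ev (u n)) (hw : ∀ n, ϖ ^ n ∣ ev (w n))
    (hu' : ∀ n, ϖ ^ n ∣ ev' (u n)) (hw' : ∀ n, ϖ ^ n ∣ ev' (w n)) (x : O) : ev x = ev' x := by
  have key : ∀ m : ℕ, ϖ ^ m ∣ ev x - ev' x := by
    intro m
    obtain ⟨c, α, β, γ, hxd⟩ := ssl_decomp ι ev hev ϖ (u m) (w m) (hmax m) m x
    have h1 : ev x = c + ev α * ev (u m) + ev β * ev (w m) + ev γ * ϖ ^ m := by
      rw [hxd]; simp only [map_add, map_mul, map_pow, hev]
    have h2 : ev' x = c + ev' α * ev' (u m) + ev' β * ev' (w m) + ev' γ * ϖ ^ m := by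
      rw [hxd]; simp only [map_add, map_mul, map_pow, hev']
    have h3 : ev x - ev' x = ev α * ev (u m) + ev β * ev (w m) + ev γ * ϖ ^ m -
        (ev' α * ev' (u m) + ev' β * ev' (w m) + ev' γ * ϖ ^ m) := by
      rw [h1, h2]; ring
    rw [h3]
    exact dvd_sub
      (dvd_add (dvd_add (Dvd.dvd.mul_left (hu m) _) (Dvd.dvd.mul_left (hw m) _))
        (Dvd.dvd.mul_left dvd_rfl _))
      (dvd_add (dvd_add (Dvd.dvd.mul_left (hu' m) _) (Dvd.dvd.mul_left (hw' m) _))
        (Dvd.dvd.mul_left dvd_rfl _))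
  exact sub_eq_zero.mp (std_eq_zero_of_forall_dvd ϖ hϖ _ key)

end Abs

universe u

variable {A : Type*} [CommRing A] [IsDomain A] [IsDiscreteValuationRing A] [CharZero A]
variable {L : Type*} [Field L] [Algebra A L] [IsFractionRing A L]
variable {F : Type u} [Field F] [Algebra A F] [Algebra L F] [IsScalarTower A L F]
variable {ϖ : A}

/-! ### definitions -/

/-- `R` is deep for the family `(u n, w n)` : `u n (R), w n (R) ∈ ϖ^n A` for every `n`. -/
def StdDeep (ϖ : A) (u w : ℕ → F) (R : ValuationSubring F) : Prop :=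
  ∀ n : ℕ, ∃ a b : A, R.valuation (u n - algebraMap A F (ϖ ^ n * a)) < 1 ∧
    R.valuation (w n - algebraMap A F (ϖ ^ n * b)) < 1

/-- `R` is good at `𝔫` : there is a function with a simple zero at `R` and neither zero nor pole
at any other place centred at `𝔫` (the first alternative of `SsLocAt`, verbatim). -/
def StdGood (t : F) (𝔫 : Ideal ↥(s18tInt A t)) (R : Place L F) : Prop :=
  ∃ f : F, f ≠ 0 ∧ R.ord f = 1 ∧
    ∀ R' : Place L F, SsCentredAt t 𝔫 R' → R' ≠ R → R'.ord f = 0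

/-- `σ` is stable at `𝔫` : `σ⁻¹ P ⊆ P` and `σ 𝔫 ⊆ 𝔫`. -/
def StdStable (t : F) (𝔫 : Ideal ↥(s18tInt A t)) (σ : SemilinearAut L F) : Prop :=
  (∀ x ∈ s18tInt A t, σ⁻¹ • x ∈ s18tInt A t) ∧
    ∀ p : ↥(s18tInt A t), p ∈ 𝔫 → ∀ h : σ • (p : F) ∈ s18tInt A t,
      (⟨σ • (p : F), h⟩ : ↥(s18tInt A t)) ∈ 𝔫

/-! ### the dichotomy at a crossing -/

section Dich

variable {t : F} {𝔫 : Ideal ↥(s18tInt A t)} [h𝔫 : 𝔫.IsPrime] {R : ValuationSubring F}

/-- THE LOCAL DICHOTOMY AT A CROSSING POINT, without automorphisms : a rational place `R` centred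
in `𝔫` is deep for the family, or is cut out by `c - a` with `c = u_n` or `c = w_n`. -/
theorem std_cross_dich (ht : Transcendental L t) [FiniteDimensional L⟮t⟯ F]
    (hR : SsPoint L ϖ t 𝔫 R) (u w ρ : ℕ → F) (κ d : ℕ → A)
    (hgen : ∀ n, SsGen ϖ t 𝔫 (u n) (w n)) (hρ : ∀ n, SsInLoc t 𝔫 (ρ n))
    (hnode : ∀ n, u n * w n = algebraMap A F (κ n) - algebraMap A F (d n) * ρ n)
    (hd : ∀ n, ϖ ^ n ∣ d n) :
    StdDeep ϖ u w R ∨
    ∃ (c : F) (a : A), (∃ n, c = u n ∨ c = w n) ∧ S18IsUnif R (c - algebraMap A F a) ∧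
      ∀ V : ValuationSubring F, S18IsPlace L V → SsCentred t 𝔫 V →
        V.valuation (c - algebraMap A F a) < 1 → V = R := by
  set uO : ℕ → ↥(ssLocRing t 𝔫) := fun n => ⟨u n, (hgen n).1.inLoc⟩ with huO
  set wO : ℕ → ↥(ssLocRing t 𝔫) := fun n => ⟨w n, (hgen n).2.1.inLoc⟩ with hwO
  have hau : ∀ n, R.valuation (u n - algebraMap A F (sslEv hR (uO n))) < 1 :=
    fun n => sslEv_spec hR (uO n)
  have haw : ∀ n, R.valuation (w n - algebraMap A F (sslEv hR (wO n))) < 1 :=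
    fun n => sslEv_spec hR (wO n)
  by_cases hsu : ∃ n, sslEv hR (uO n) ≠ 0 ∧ ∃ c : A, d n = sslEv hR (uO n) * c ∧ ϖ ∣ c
  · obtain ⟨n, ha0, c, hc, hcϖ⟩ := hsu
    right
    refine ⟨u n, sslEv hR (uO n), ⟨n, Or.inl rfl⟩, ?_⟩
    exact ss_loc_cross ht hR (u n) (w n) (ρ n) (hgen n) (hρ n) (κ n) (d n) (hnode n) _ (hau n) ha0
      c hc hcϖ
  by_cases hsw : ∃ n, sslEv hR (wO n) ≠ 0 ∧ ∃ c : A, d n = sslEv hR (wO n) * c ∧ ϖ ∣ c
  · obtain ⟨n, hb0, c, hc, hcϖ⟩ := hsw
    right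
    refine ⟨w n, sslEv hR (wO n), ⟨n, Or.inr rfl⟩, ?_⟩
    exact ss_loc_cross ht hR (w n) (u n) (ρ n) (hgen n).symm (hρ n) (κ n) (d n)
      (by rw [mul_comm]; exact hnode n) _ (haw n) hb0 c hc hcϖ
  left
  push Not at hsu hsw
  have hdvr : ∀ (a d' : A), (a ≠ 0 → ∀ c : A, d' = a * c → ¬ ϖ ∣ c) → d' ∣ a := by
    intro a d' h
    by_cases ha0 : a = 0
    · rw [ha0]; exact dvd_zero _
    rcases ValuationRing.dvd_total a d' with ⟨c, hc⟩ | h'
    · have hcu : IsUnit c := by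
        by_contra hcu
        have : c ∈ maximalIdeal A := (mem_maximalIdeal _).mpr hcu
        rw [hR.unif.maximalIdeal_eq] at this
        exact h ha0 c hc (Ideal.mem_span_singleton.mp this)
      obtain ⟨c', hc'⟩ := hcu.exists_right_inv
      exact ⟨c', by rw [hc, mul_assoc, hc', mul_one]⟩
    · exact h'
  intro n
  obtain ⟨a, ha⟩ := (hd n).trans (hdvr _ (d n) (hsu n))
  obtain ⟨b, hb⟩ := (hd n).trans (hdvr _ (d n) (hsw n))
  exact ⟨a, b, by rw [← ha]; exact hau n, by rw [← hb]; exact haw n⟩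

/-- (DEEP-UNIQ) two rational places centred in `𝔫` which are deep for the same family of
generators of `𝔫 P_𝔫` coincide. -/
theorem std_deep_unique (ht : Transcendental L t) [FiniteDimensional L⟮t⟯ F]
    {R R' : ValuationSubring F} (hR : SsPoint L ϖ t 𝔫 R) (hR' : SsPoint L ϖ t 𝔫 R')
    (u w : ℕ → F) (hgen : ∀ n, SsGen ϖ t 𝔫 (u n) (w n))
    (hdeep : StdDeep ϖ u w R) (hdeep' : StdDeep ϖ u w R') : R = R' := by
  set uO : ℕ → ↥(ssLocRing t 𝔫) := fun n => ⟨u n, (hgen n).1.inLoc⟩ with huO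
  set wO : ℕ → ↥(ssLocRing t 𝔫) := fun n => ⟨w n, (hgen n).2.1.inLoc⟩ with hwO
  have hdvd : ∀ {V : ValuationSubring F} (hV : SsPoint L ϖ t 𝔫 V), StdDeep ϖ u w V →
      (∀ n, ϖ ^ n ∣ sslEv hV (uO n)) ∧ (∀ n, ϖ ^ n ∣ sslEv hV (wO n)) := by
    intro V hV hVd
    refine ⟨fun n => ?_, fun n => ?_⟩
    · obtain ⟨a, b, ha, hb⟩ := hVd n
      have : sslEv hV (uO n) = ϖ ^ n * a := sslEv_eq hV ha
      rw [this]
      exact Dvd.intro _ rfl
    · obtain ⟨a, b, ha, hb⟩ := hVd n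
      have : sslEv hV (wO n) = ϖ ^ n * b := sslEv_eq hV hb
      rw [this]
      exact Dvd.intro _ rfl
  have heq : ∀ x : ↥(ssLocRing t 𝔫), sslEv hR x = sslEv hR' x :=
    std_ev_eq (sslConst t 𝔫) (sslEv hR) (sslEv hR') (sslEv_const hR) (sslEv_const hR') ϖ hR.unif
      uO wO (fun n => ssl_max_eq hR.mem (hgen n)) (hdvd hR hdeep).1 (hdvd hR hdeep).2
      (hdvd hR' hdeep').1 (hdvd hR' hdeep').2
  apply ssl_place_eq_of_centre (A := A) t ht hR.place hR'.place hR.centred.1 hR'.centred.1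
  intro p
  have hp : SsInLoc t 𝔫 (p : F) := ssl_int_le_locRing t 𝔫 p.2
  have h1 : ∀ {V : ValuationSubring F} (hV : SsPoint L ϖ t 𝔫 V),
      V.valuation (p : F) < 1 ↔ sslEv hV (⟨(p : F), hp⟩ : ↥(ssLocRing t 𝔫)) = 0 := by
    intro V hV
    rw [← RingHom.mem_ker, sslEv_ker, mem_sslCentre]
  rw [h1 hR, h1 hR', heq]

end Dich

/-! ### transport by a semilinear automorphism -/

section Smul

variable {t : F} {𝔫 : Ideal ↥(s18tInt A t)}

/-- membership in the non-units of a translate -/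
theorem std_mem_nonunits_smul (σ : SemilinearAut L F) (V : ValuationSubring F) (x : F) :
    x ∈ (σ • V).nonunits ↔ σ⁻¹ • x ∈ V.nonunits := ssl_val_smul_lt σ V x

/-- a translate of a rational place is rational -/
theorem std_rational_smul (σ : SemilinearAut L F) (R : Place L F) (hR : SsRational R) :
    SsRational (σ • R) := by
  intro x hx
  rw [SemilinearAut.smul_toValuationSubring] at hx ⊢
  have hx' : σ⁻¹ • x ∈ R.toValuationSubring :=
    ValuationSubring.mem_pointwise_smul_iff_inv_smul_mem.mp hx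
  obtain ⟨c, hc⟩ := hR _ hx'
  refine ⟨SemilinearAut.baseAut σ c, ?_⟩
  rw [std_mem_nonunits_smul, smul_sub, SemilinearAut.smul_algebraMap, SemilinearAut.baseAut_inv,
    RingEquiv.symm_apply_apply]
  exact hc

/-- a translate by a stable automorphism of a place centred at `𝔫` is centred at `𝔫` -/
theorem std_centred_smul {σ : SemilinearAut L F} (hσ : StdStable t 𝔫 σ) (R : Place L F)
    (hR : SsCentredAt t 𝔫 R) : SsCentredAt t 𝔫 (σ • R) := by
  refine ⟨fun x hx => ?_, fun p hp => ?_⟩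
  · show x ∈ (σ • R).toValuationSubring
    rw [SemilinearAut.smul_toValuationSubring, ValuationSubring.mem_pointwise_smul_iff_inv_smul_mem]
    exact hR.1 (hσ.1 x hx)
  · have hp' : (p : F) ∈ (σ • R.toValuationSubring).nonunits := hp
    rw [std_mem_nonunits_smul] at hp'
    have hmem : σ⁻¹ • (p : F) ∈ s18tInt A t := hσ.1 _ p.2
    have h1 : (⟨σ⁻¹ • (p : F), hmem⟩ : ↥(s18tInt A t)) ∈ 𝔫 := hR.2 hp'
    have h2 := hσ.2 _ h1 (by
      show σ • (σ⁻¹ • (p : F)) ∈ s18tInt A t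
      rw [smul_inv_smul]; exact p.2)
    have e : (⟨σ • (σ⁻¹ • (p : F)), by rw [smul_inv_smul]; exact p.2⟩ : ↥(s18tInt A t)) = p :=
      Subtype.ext (smul_inv_smul σ (p : F))
    rw [← e]
    exact h2

/-- goodness descends along a stable automorphism -/
theorem std_good_of_smul {σ : SemilinearAut L F} (hσ : StdStable t 𝔫 σ) (R : Place L F)
    (h : StdGood t 𝔫 (σ • R)) : StdGood t 𝔫 R := by
  obtain ⟨f, hf0, hord, hother⟩ := h
  refine ⟨σ⁻¹ • f, (smul_ne_zero_iff_ne _).mpr hf0, ?_, fun R' hR'c hne => ?_⟩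
  · rw [← SemilinearAut.ord_smul σ R (σ⁻¹ • f), smul_inv_smul]
    exact hord
  · rw [← SemilinearAut.ord_smul σ R' (σ⁻¹ • f), smul_inv_smul]
    exact hother (σ • R') (std_centred_smul hσ R' hR'c)
      (fun he => hne (MulAction.injective σ he))

/-- goodness is invariant under a stable automorphism whose inverse is stable -/
theorem std_good_smul_iff {σ : SemilinearAut L F} (hσ : StdStable t 𝔫 σ)
    (hσ' : StdStable t 𝔫 σ⁻¹) (R : Place L F) : StdGood t 𝔫 (σ • R) ↔ StdGood t 𝔫 R := by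
  refine ⟨std_good_of_smul hσ R, fun h => ?_⟩
  apply std_good_of_smul hσ' (σ • R)
  rwa [inv_smul_smul]

/-- the identity is stable -/
theorem std_stable_one : StdStable t 𝔫 (1 : SemilinearAut L F) := by
  refine ⟨fun x hx => ?_, fun p hp h => ?_⟩
  · rw [inv_one, one_smul]; exact hx
  · have e : (⟨(1 : SemilinearAut L F) • (p : F), h⟩ : ↥(s18tInt A t)) = p :=
      Subtype.ext (one_smul _ _)
    rw [e]; exact hp

/-- a product of stable automorphisms is stable -/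
theorem std_stable_mul {σ τ : SemilinearAut L F} (hσ : StdStable t 𝔫 σ) (hτ : StdStable t 𝔫 τ) :
    StdStable t 𝔫 (σ * τ) := by
  refine ⟨fun x hx => ?_, fun p hp h => ?_⟩
  · rw [mul_inv_rev, mul_smul]
    exact hτ.1 _ (hσ.1 x hx)
  · have h1 : τ • (p : F) ∈ s18tInt A t := by
      have := hσ.1 _ h
      rwa [mul_smul, inv_smul_smul] at this
    have h2 := hτ.2 p hp h1
    have h3 := hσ.2 _ h2 (by
      show σ • (τ • (p : F)) ∈ s18tInt A t
      rw [← mul_smul]; exact h)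
    have e : (⟨(σ * τ) • (p : F), h⟩ : ↥(s18tInt A t)) =
        ⟨σ • (τ • (p : F)), by rw [← mul_smul]; exact h⟩ := Subtype.ext (mul_smul σ τ (p : F))
    rw [e]
    exact h3

/-- a power of a stable automorphism is stable -/
theorem std_stable_pow {σ : SemilinearAut L F} (hσ : StdStable t 𝔫 σ) (k : ℕ) :
    StdStable t 𝔫 (σ ^ k) := by
  induction k with
  | zero => rw [pow_zero]; exact std_stable_one
  | succ k ih => rw [pow_succ]; exact std_stable_mul ih hσ

/-- the inverse of a stable automorphism of `P` is stable, `𝔫` being maximal -/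
theorem std_stable_inv (h𝔫 : 𝔫.IsMaximal) {σ : SemilinearAut L F}
    (hσP : ∀ x ∈ s18tInt A t, σ • x ∈ s18tInt A t) (hσ : StdStable t 𝔫 σ) :
    StdStable t 𝔫 σ⁻¹ := by
  refine ⟨fun x hx => ?_, fun p hp h => ?_⟩
  · rw [inv_inv]; exact hσP x hx
  · -- the ideal `J = {p | σ p ∈ 𝔫}` contains `𝔫` and is proper
    let φ : ↥(s18tInt A t) →+* ↥(s18tInt A t) :=
      ((MulSemiringAction.toRingHom (SemilinearAut L F) F σ).comp
        (s18tInt A t).subtype).codRestrict (s18tInt A t) (fun x => hσP _ x.2)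
    have hφ : ∀ x : ↥(s18tInt A t), ((φ x : ↥(s18tInt A t)) : F) = σ • (x : F) := fun x => rfl
    have hle : 𝔫 ≤ 𝔫.comap φ := by
      intro x hx
      rw [Ideal.mem_comap]
      have := hσ.2 x hx (hσP _ x.2)
      exact this
    have hne : 𝔫.comap φ ≠ ⊤ := by
      intro htop
      have h1 : (1 : ↥(s18tInt A t)) ∈ 𝔫.comap φ := by rw [htop]; exact Submodule.mem_top
      rw [Ideal.mem_comap, map_one] at h1
      exact h𝔫.ne_top ((Ideal.eq_top_iff_one _).mpr h1)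
    have heq : 𝔫 = 𝔫.comap φ := h𝔫.eq_of_le hne hle
    rw [heq, Ideal.mem_comap]
    have e : φ (⟨σ⁻¹ • (p : F), h⟩ : ↥(s18tInt A t)) = p :=
      Subtype.ext (by rw [hφ]; exact smul_inv_smul σ (p : F))
    rw [e]
    exact hp

end Smul

/-! ### the main statements -/

section Main

variable {t : F} {𝔫 : Ideal ↥(s18tInt A t)}

/-- the crossing data extracted from `SsGermCrossF` (the invariance clauses are dropped) -/
theorem std_cross_data {G : Subgroup (SemilinearAut L F)} (h : SsGermCrossF ϖ t G 𝔫) :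
    ∃ (u w ρ : ℕ → F) (κ d : ℕ → A), (∀ n, SsGen ϖ t 𝔫 (u n) (w n)) ∧
      (∀ n, SsInLoc t 𝔫 (ρ n)) ∧
      (∀ n, u n * w n = algebraMap A F (κ n) - algebraMap A F (d n) * ρ n) ∧
      ∀ n, ϖ ^ n ∣ d n := by
  choose u w ρ κ d hu hw hgen hρ hnode hd using h
  exact ⟨u, w, ρ, κ, d, hgen, hρ, hnode, hd⟩

/-- at a crossing germ, a rational place centred at `𝔫` is good or deep for the family -/
theorem std_good_or_deep (hϖ : Irreducible ϖ) (ht : Transcendental L t)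
    [FiniteDimensional L⟮t⟯ F] (h𝔫 : 𝔫.IsMaximal) (hϖ𝔫 : sskPi ϖ t ∈ 𝔫)
    (u w ρ : ℕ → F) (κ d : ℕ → A) (hgen : ∀ n, SsGen ϖ t 𝔫 (u n) (w n))
    (hρ : ∀ n, SsInLoc t 𝔫 (ρ n))
    (hnode : ∀ n, u n * w n = algebraMap A F (κ n) - algebraMap A F (d n) * ρ n)
    (hd : ∀ n, ϖ ^ n ∣ d n) (R : Place L F) (hRr : SsRational R) (hRc : SsCentredAt t 𝔫 R) :
    StdGood t 𝔫 R ∨ StdDeep ϖ u w R.toValuationSubring := by
  haveI : 𝔫.IsPrime := h𝔫.isPrime
  have hR := ssl_point_of_place hϖ hϖ𝔫 R hRr hRc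
  rcases std_cross_dich ht hR u w ρ κ d hgen hρ hnode hd with hdeep | ⟨c, a, ⟨n, hcn⟩, hunif, huniq⟩
  · exact Or.inr hdeep
  · left
    have hcO : SsInLoc t 𝔫 c := by
      rcases hcn with rfl | rfl
      · exact (hgen n).1.inLoc
      · exact (hgen n).2.1.inLoc
    exact ssl_locAt_left R
      ((ssLocRing t 𝔫).sub_mem hcO (ssl_int_le_locRing t 𝔫 (s18tc_algebraMap_mem_int t a)))
      hunif huniq

/-- at a crossing germ, a rational place centred at `𝔫` which is NOT good is fixed by every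
stable automorphism (no invariance of the coordinates is needed) -/
theorem std_fixed_of_not_good (hϖ : Irreducible ϖ) (ht : Transcendental L t)
    [FiniteDimensional L⟮t⟯ F] (G : Subgroup (SemilinearAut L F))
    (h𝔫 : 𝔫.IsMaximal) (hϖ𝔫 : sskPi ϖ t ∈ 𝔫) (hcross : SsGermCrossF ϖ t G 𝔫)
    {σ : SemilinearAut L F} (hσ : StdStable t 𝔫 σ)
    (R : Place L F) (hRr : SsRational R) (hRc : SsCentredAt t 𝔫 R) (hbad : ¬ StdGood t 𝔫 R) :
    σ • R = R := by
  haveI : 𝔫.IsPrime := h𝔫.isPrime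
  obtain ⟨u, w, ρ, κ, d, hgen, hρ, hnode, hd⟩ := std_cross_data hcross
  have hdeep : StdDeep ϖ u w R.toValuationSubring :=
    (std_good_or_deep hϖ ht h𝔫 hϖ𝔫 u w ρ κ d hgen hρ hnode hd R hRr hRc).resolve_left hbad
  have hRr' : SsRational (σ • R) := std_rational_smul σ R hRr
  have hRc' : SsCentredAt t 𝔫 (σ • R) := std_centred_smul hσ R hRc
  have hbad' : ¬ StdGood t 𝔫 (σ • R) := fun hg => hbad (std_good_of_smul hσ R hg)
  have hdeep' : StdDeep ϖ u w (σ • R).toValuationSubring :=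
    (std_good_or_deep hϖ ht h𝔫 hϖ𝔫 u w ρ κ d hgen hρ hnode hd (σ • R) hRr' hRc').resolve_left hbad'
  exact Place.ext (std_deep_unique ht (ssl_point_of_place hϖ hϖ𝔫 (σ • R) hRr' hRc')
    (ssl_point_of_place hϖ hϖ𝔫 R hRr hRc) u w hgen hdeep' hdeep)

/-- (DEEP-UNIQ) at a crossing germ there is at most one rational place centred at `𝔫` which is
not good -/
theorem std_bad_unique (hϖ : Irreducible ϖ) (ht : Transcendental L t)
    [FiniteDimensional L⟮t⟯ F] (G : Subgroup (SemilinearAut L F))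
    (h𝔫 : 𝔫.IsMaximal) (hϖ𝔫 : sskPi ϖ t ∈ 𝔫) (hcross : SsGermCrossF ϖ t G 𝔫)
    (R R' : Place L F) (hRr : SsRational R) (hRc : SsCentredAt t 𝔫 R) (hbad : ¬ StdGood t 𝔫 R)
    (hRr' : SsRational R') (hRc' : SsCentredAt t 𝔫 R') (hbad' : ¬ StdGood t 𝔫 R') : R = R' := by
  haveI : 𝔫.IsPrime := h𝔫.isPrime
  obtain ⟨u, w, ρ, κ, d, hgen, hρ, hnode, hd⟩ := std_cross_data hcross
  have hdeep : StdDeep ϖ u w R.toValuationSubring :=
    (std_good_or_deep hϖ ht h𝔫 hϖ𝔫 u w ρ κ d hgen hρ hnode hd R hRr hRc).resolve_left hbad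
  have hdeep' : StdDeep ϖ u w R'.toValuationSubring :=
    (std_good_or_deep hϖ ht h𝔫 hϖ𝔫 u w ρ κ d hgen hρ hnode hd R' hRr' hRc').resolve_left hbad'
  exact Place.ext (std_deep_unique ht (ssl_point_of_place hϖ hϖ𝔫 R hRr hRc)
    (ssl_point_of_place hϖ hϖ𝔫 R' hRr' hRc') u w hgen hdeep hdeep')

/-- every rational place centred at a smooth germ is good -/
theorem std_good_of_smooth (hϖ : Irreducible ϖ) (ht : Transcendental L t)
    [FiniteDimensional L⟮t⟯ F] (G : Subgroup (SemilinearAut L F))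
    (h𝔫 : 𝔫.IsMaximal) (hϖ𝔫 : sskPi ϖ t ∈ 𝔫) (hsm : SsGermSmoothF ϖ t G 𝔫)
    (R : Place L F) (hRr : SsRational R) (hRc : SsCentredAt t 𝔫 R) : StdGood t 𝔫 R := by
  haveI : 𝔫.IsPrime := h𝔫.isPrime
  have hR := ssl_point_of_place hϖ hϖ𝔫 R hRr hRc
  obtain ⟨z, hgen⟩ := hsm
  set a := sslEv hR (⟨z, hgen.1.inLoc⟩ : ↥(ssLocRing t 𝔫)) with ha
  have hspec := sslEv_spec hR (⟨z, hgen.1.inLoc⟩ : ↥(ssLocRing t 𝔫))
  obtain ⟨hunif, huniq⟩ := ss_loc_smooth ht hR z hgen a hspec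
  exact ssl_locAt_left R
    ((ssLocRing t 𝔫).sub_mem hgen.1.inLoc
      (ssl_int_le_locRing t 𝔫 (s18tc_algebraMap_mem_int t a))) hunif huniq

/-- (LOC) + (DEEP-UNIQ) : a germ (with fraction coordinates, NO invariance used) at `𝔫` gives the
local structure `SsLocAt t σ τ 𝔫` for all automorphisms `σ, τ` which are stable at `𝔫`. -/
theorem std_locAt_of_germF (hϖ : Irreducible ϖ) (t : F) (ht : Transcendental L t)
    [FiniteDimensional L⟮t⟯ F] (G : Subgroup (SemilinearAut L F))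
    (σ τ : SemilinearAut L F) (𝔫 : Ideal ↥(s18tInt A t)) (h𝔫 : 𝔫.IsMaximal)
    (hϖ𝔫 : sskPi ϖ t ∈ 𝔫) (hσ : StdStable t 𝔫 σ) (hτ : StdStable t 𝔫 τ)
    (h : SsGermSmoothF ϖ t G 𝔫 ∨ SsGermCrossF ϖ t G 𝔫) : SsLocAt t σ τ 𝔫 := by
  intro R hRr hRc
  rcases h with hsm | hcross
  · exact Or.inl (std_good_of_smooth hϖ ht G h𝔫 hϖ𝔫 hsm R hRr hRc)
  · by_cases hgood : StdGood t 𝔫 R
    · exact Or.inl hgood
    · exact Or.inr ⟨std_fixed_of_not_good hϖ ht G h𝔫 hϖ𝔫 hcross hσ R hRr hRc hgood,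
        std_fixed_of_not_good hϖ ht G h𝔫 hϖ𝔫 hcross hτ R hRr hRc hgood⟩

/-- the same for the germ predicates of `SS/NF/Defs.lean` -/
theorem std_locAt_of_germ (hϖ : Irreducible ϖ) (t : F) (ht : Transcendental L t)
    [FiniteDimensional L⟮t⟯ F] (G : Subgroup (SemilinearAut L F))
    (σ τ : SemilinearAut L F) (𝔫 : Ideal ↥(s18tInt A t)) (h𝔫 : 𝔫.IsMaximal)
    (hϖ𝔫 : sskPi ϖ t ∈ 𝔫) (hσ : StdStable t 𝔫 σ) (hτ : StdStable t 𝔫 τ)
    (h : SsGermSmooth ϖ t G 𝔫 ∨ SsGermCross ϖ t G 𝔫) : SsLocAt t σ τ 𝔫 :=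
  std_locAt_of_germF hϖ t ht G σ τ 𝔫 h𝔫 hϖ𝔫 hσ hτ
    (h.imp (ssl_germSmoothF_of h𝔫.ne_top) (ssl_germCrossF_of h𝔫.ne_top))

end Main

end Fermat.Agent.ST
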