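import Mathlib
import Fermat.Agent.SS.Germ.Inst
import Fermat.Agent.ST.Deep
import Fermat.Agent.ST.Defs

/-!
# Program T (S35), leaf RAT2 : the crossings are stable under the square of a Frobenius lift

Abstract setting (`str2_sq_mem`) : two fields `F₀`, `F`, subrings `P₀ ⊆ F₀`, `P ⊆ F`, two ring
homomorphisms `α, φ : F₀ → F` mapping `P₀` into `P`, two valuation rings `V₁, V₂` of `F`,
endomorphisms `s₀` of `F₀` and `s` of `F` with `s ∘ α = α ∘ s₀` on `P₀`, preserving `P₀`, `P`,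
`P ∩ 𝔪_{V₁}`, and

* `P = α P₀ + (P ∩ 𝔪_{V₁})` (`ssgi_surj₁`),
* (FROB-s) `φ (s₀ b) ≡ (α b)^q mod 𝔪_{V₁}`, `α (s₀ b) ≡ (φ b)^q mod 𝔪_{V₂}` for `b ∈ P₀`.

Then every ideal `𝔫` of `P` containing `P ∩ 𝔪_{V₁}` and `P ∩ 𝔪_{V₂}` (a CROSSING) satisfies
`s (s 𝔫) ⊆ 𝔫`.  (`𝔪 := α⁻¹ 𝔫`, `𝔪' := φ⁻¹ 𝔫` : FROB-s gives `s₀ 𝔪 ⊆ 𝔪'` and `s₀ 𝔪' ⊆ 𝔪`.)

In the S18/T setting : `str2_stable` gives `StdStable t 𝔫 (σ * σ)`, the input of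
`std_locAt_of_germ` (`ST/Deep.lean`); `str2_stable_of_hyp` takes the surjectivity from `SsgiHyp`.
-/

set_option autoImplicit false
set_option linter.unusedSectionVars false
set_option linter.unusedVariables false

noncomputable section

namespace Fermat.Agent.ST

open Polynomial IntermediateField Fermat.Agent.S18 Fermat.Agent.SS IsLocalRing AlgebraicCurve

/-! ### the abstract statement -/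

section Abs

variable {F₀ F : Type*} [Field F₀] [Field F]

/-- RAT2, abstract form : `s (s 𝔫) ⊆ 𝔫` at a crossing. -/
theorem str2_sq_mem (P₀ : Subring F₀) (P : Subring F) (α φ : F₀ →+* F) (V₁ V₂ : ValuationSubring F)
    (s₀ : F₀ →+* F₀) (s : F →+* F) (q : ℕ) (hq : q ≠ 0)
    (hαP : ∀ b ∈ P₀, α b ∈ P) (hφP : ∀ b ∈ P₀, φ b ∈ P)
    (hs₀ : ∀ b ∈ P₀, s₀ b ∈ P₀) (hsP : ∀ x ∈ P, s x ∈ P)
    (hsα : ∀ b ∈ P₀, s (α b) = α (s₀ b))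
    (hsV₁ : ∀ x ∈ P, x ∈ V₁.nonunits → s x ∈ V₁.nonunits)
    (hsurj₁ : ∀ p ∈ P, ∃ b ∈ P₀, p - α b ∈ V₁.nonunits)
    (hfrob₁ : ∀ b ∈ P₀, φ (s₀ b) - α b ^ q ∈ V₁.nonunits)
    (hfrob₂ : ∀ b ∈ P₀, α (s₀ b) - φ b ^ q ∈ V₂.nonunits)
    (𝔫 : Ideal ↥P) (h𝔭₁ : ∀ p : ↥P, (p : F) ∈ V₁.nonunits → p ∈ 𝔫)
    (h𝔭₂ : ∀ p : ↥P, (p : F) ∈ V₂.nonunits → p ∈ 𝔫)
    (p : ↥P) (hp : p ∈ 𝔫) : (⟨s (s (p : F)), hsP _ (hsP _ p.2)⟩ : ↥P) ∈ 𝔫 := by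
  -- `α b ∈ 𝔫 ⟹ φ (s₀ b) ∈ 𝔫`
  have stepA : ∀ b (hb : b ∈ P₀), (⟨α b, hαP b hb⟩ : ↥P) ∈ 𝔫 →
      (⟨φ (s₀ b), hφP _ (hs₀ b hb)⟩ : ↥P) ∈ 𝔫 := by
    intro b hb hmem
    have h1 : (⟨φ (s₀ b), hφP _ (hs₀ b hb)⟩ : ↥P) - (⟨α b, hαP b hb⟩ : ↥P) ^ q ∈ 𝔫 :=
      h𝔭₁ _ (hfrob₁ b hb)
    have h2 : (⟨α b, hαP b hb⟩ : ↥P) ^ q ∈ 𝔫 := Ideal.pow_mem_of_mem 𝔫 hmem q (Nat.pos_of_ne_zero hq)
    have := 𝔫.add_mem h1 h2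
    rwa [sub_add_cancel] at this
  -- `φ b ∈ 𝔫 ⟹ α (s₀ b) ∈ 𝔫`
  have stepB : ∀ b (hb : b ∈ P₀), (⟨φ b, hφP b hb⟩ : ↥P) ∈ 𝔫 →
      (⟨α (s₀ b), hαP _ (hs₀ b hb)⟩ : ↥P) ∈ 𝔫 := by
    intro b hb hmem
    have h1 : (⟨α (s₀ b), hαP _ (hs₀ b hb)⟩ : ↥P) - (⟨φ b, hφP b hb⟩ : ↥P) ^ q ∈ 𝔫 :=
      h𝔭₂ _ (hfrob₂ b hb)
    have h2 : (⟨φ b, hφP b hb⟩ : ↥P) ^ q ∈ 𝔫 := Ideal.pow_mem_of_mem 𝔫 hmem q (Nat.pos_of_ne_zero hq)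
    have := 𝔫.add_mem h1 h2
    rwa [sub_add_cancel] at this
  -- decompose `p = α b + (p - α b)`
  obtain ⟨b, hb, hpb⟩ := hsurj₁ (p : F) p.2
  have hdiff : p - (⟨α b, hαP b hb⟩ : ↥P) ∈ 𝔫 := h𝔭₁ _ hpb
  have hαb : (⟨α b, hαP b hb⟩ : ↥P) ∈ 𝔫 := by
    have := 𝔫.sub_mem hp hdiff
    rwa [sub_sub_cancel] at this
  have h1 : (⟨α (s₀ (s₀ b)), hαP _ (hs₀ _ (hs₀ b hb))⟩ : ↥P) ∈ 𝔫 :=
    stepB _ (hs₀ b hb) (stepA b hb hαb)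
  have hdP : (p : F) - α b ∈ P := P.sub_mem p.2 (hαP b hb)
  have h2 : (⟨s (s ((p : F) - α b)), hsP _ (hsP _ hdP)⟩ : ↥P) ∈ 𝔫 :=
    h𝔭₁ _ (hsV₁ _ (hsP _ hdP) (hsV₁ _ hdP hpb))
  have e : (⟨s (s (p : F)), hsP _ (hsP _ p.2)⟩ : ↥P) =
      (⟨s (s ((p : F) - α b)), hsP _ (hsP _ hdP)⟩ : ↥P) +
        (⟨α (s₀ (s₀ b)), hαP _ (hs₀ _ (hs₀ b hb))⟩ : ↥P) := by
    apply Subtype.ext
    show s (s (p : F)) = s (s ((p : F) - α b)) + α (s₀ (s₀ b))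
    rw [map_sub, map_sub, hsα b hb, hsα _ (hs₀ b hb)]
    ring
  rw [e]
  exact 𝔫.add_mem h2 h1

end Abs

/-! ### the S18/T setting -/

section Conc

universe u u₀

variable {A : Type*} [CommRing A] [IsDomain A] [IsDiscreteValuationRing A] [CharZero A]
variable {L : Type*} [Field L] [Algebra A L] [IsFractionRing A L]
variable {F : Type u} [Field F] [Algebra A F] [Algebra L F] [IsScalarTower A L F]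
variable {A₀ : Type*} [CommRing A₀] [IsDomain A₀] [IsDiscreteValuationRing A₀] [CharZero A₀]
variable {L₀ : Type*} [Field L₀] [Algebra A₀ L₀] [IsFractionRing A₀ L₀]
variable {F₀ : Type u₀} [Field F₀] [Algebra A₀ F₀] [Algebra L₀ F₀] [IsScalarTower A₀ L₀ F₀]
variable {ϖ : A} {t : F} {ϖ₀ : A₀} {t₀ : F₀}

/-- RAT2 : at a crossing `𝔫 ⊇ 𝔭₁ + 𝔭₂` the square of a Frobenius lift is stable in the sense of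
`ST/Deep.lean`. -/
theorem str2_stable (α φ : F₀ →+* F) (V₁ V₂ : ValuationSubring F) (s₀ : F₀ →+* F₀)
    (σ : SemilinearAut L F) (q : ℕ) (hq : q ≠ 0)
    (hαP : ∀ b ∈ s18tInt A₀ t₀, α b ∈ s18tInt A t) (hφP : ∀ b ∈ s18tInt A₀ t₀, φ b ∈ s18tInt A t)
    (hs₀ : ∀ b ∈ s18tInt A₀ t₀, s₀ b ∈ s18tInt A₀ t₀)
    (hσP : ∀ x ∈ s18tInt A t, σ • x ∈ s18tInt A t)
    (hσP' : ∀ x ∈ s18tInt A t, σ⁻¹ • x ∈ s18tInt A t)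
    (hσα : ∀ b ∈ s18tInt A₀ t₀, σ • α b = α (s₀ b))
    (hσV₁ : ∀ x ∈ s18tInt A t, x ∈ V₁.nonunits → σ • x ∈ V₁.nonunits)
    (hsurj₁ : ∀ p ∈ s18tInt A t, ∃ b ∈ s18tInt A₀ t₀, p - α b ∈ V₁.nonunits)
    (hfrob₁ : ∀ b ∈ s18tInt A₀ t₀, φ (s₀ b) - α b ^ q ∈ V₁.nonunits)
    (hfrob₂ : ∀ b ∈ s18tInt A₀ t₀, α (s₀ b) - φ b ^ q ∈ V₂.nonunits)
    (𝔫 : Ideal ↥(s18tInt A t))
    (h𝔭₁ : ∀ p : ↥(s18tInt A t), (p : F) ∈ V₁.nonunits → p ∈ 𝔫)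
    (h𝔭₂ : ∀ p : ↥(s18tInt A t), (p : F) ∈ V₂.nonunits → p ∈ 𝔫) :
    StdStable t 𝔫 (σ * σ) := by
  refine ⟨fun x hx => ?_, fun p hp h => ?_⟩
  · rw [mul_inv_rev, mul_smul]
    exact hσP' _ (hσP' x hx)
  · have key := str2_sq_mem (s18tInt A₀ t₀) (s18tInt A t) α φ V₁ V₂ s₀
      (MulSemiringAction.toRingHom (SemilinearAut L F) F σ) q hq hαP hφP hs₀ hσP hσα hσV₁ hsurj₁
      hfrob₁ hfrob₂ 𝔫 h𝔭₁ h𝔭₂ p hp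
    have e : (⟨(σ * σ) • (p : F), h⟩ : ↥(s18tInt A t)) =
        ⟨(MulSemiringAction.toRingHom (SemilinearAut L F) F σ)
          ((MulSemiringAction.toRingHom (SemilinearAut L F) F σ) (p : F)),
          hσP _ (hσP _ p.2)⟩ := Subtype.ext (mul_smul σ σ (p : F))
    rw [e]
    exact key

/-- RAT2 with the surjectivity `P = α P₀ + 𝔭₁` taken from the abstract instance `SsgiHyp` of
Program S. -/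
theorem str2_stable_of_hyp {hϖ₀ : Irreducible ϖ₀} {j : A₀ →+* A} {α φ : F₀ →+* F}
    {V₁ V₂ : ValuationSubring F} {q : ℕ} (H : SsgiHyp hϖ₀ j α φ ϖ t₀ t V₁ V₂ q)
    (s₀ : F₀ →+* F₀) (σ : SemilinearAut L F)
    (hφP : ∀ b ∈ s18tInt A₀ t₀, φ b ∈ s18tInt A t)
    (hs₀ : ∀ b ∈ s18tInt A₀ t₀, s₀ b ∈ s18tInt A₀ t₀)
    (hσP : ∀ x ∈ s18tInt A t, σ • x ∈ s18tInt A t)
    (hσP' : ∀ x ∈ s18tInt A t, σ⁻¹ • x ∈ s18tInt A t)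
    (hσα : ∀ b ∈ s18tInt A₀ t₀, σ • α b = α (s₀ b))
    (hσV₁ : ∀ x ∈ s18tInt A t, x ∈ V₁.nonunits → σ • x ∈ V₁.nonunits)
    (hfrob₁ : ∀ b ∈ s18tInt A₀ t₀, φ (s₀ b) - α b ^ q ∈ V₁.nonunits)
    (hfrob₂ : ∀ b ∈ s18tInt A₀ t₀, α (s₀ b) - φ b ^ q ∈ V₂.nonunits)
    (𝔫 : Ideal ↥(s18tInt A t))
    (h𝔭₁ : ∀ p : ↥(s18tInt A t), (p : F) ∈ V₁.nonunits → p ∈ 𝔫)
    (h𝔭₂ : ∀ p : ↥(s18tInt A t), (p : F) ∈ V₂.nonunits → p ∈ 𝔫) :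
    StdStable t 𝔫 (σ * σ) :=
  str2_stable α φ V₁ V₂ s₀ σ q H.hq.ne_zero (fun b hb => ssga_map_int H.level hb) hφP hs₀ hσP hσP'
    hσα hσV₁ (ssgi_surj₁ H) hfrob₁ hfrob₂ 𝔫 h𝔭₁ h𝔭₂

/-- `StdStable` (`ST/Deep.lean`) from `StPull t σ 𝔫 𝔫` (`ST/Defs.lean`) -/
theorem str2_stable_of_pull {σ : SemilinearAut L F} {𝔫 : Ideal ↥(s18tInt A t)}
    (hσP' : ∀ x ∈ s18tInt A t, σ⁻¹ • x ∈ s18tInt A t) (h : StPull t σ 𝔫 𝔫) :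
    StdStable t 𝔫 σ := by
  refine ⟨hσP', fun p hp hmem => ?_⟩
  obtain ⟨_, h2⟩ := (h p).mp hp
  exact h2

/-- `StPull t σ 𝔫 𝔫` from `StdStable`, `𝔫` being maximal and `σ P ⊆ P` -/
theorem str2_pull_of_stable {σ : SemilinearAut L F} {𝔫 : Ideal ↥(s18tInt A t)}
    (h𝔫 : 𝔫.IsMaximal) (hσP : ∀ x ∈ s18tInt A t, σ • x ∈ s18tInt A t)
    (hσ : StdStable t 𝔫 σ) : StPull t σ 𝔫 𝔫 := by
  let φ : ↥(s18tInt A t) →+* ↥(s18tInt A t) :=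
    ((MulSemiringAction.toRingHom (SemilinearAut L F) F σ).comp
      (s18tInt A t).subtype).codRestrict (s18tInt A t) (fun x => hσP _ x.2)
  have hle : 𝔫 ≤ 𝔫.comap φ := by
    intro x hx
    rw [Ideal.mem_comap]
    exact hσ.2 x hx (hσP _ x.2)
  have hne : 𝔫.comap φ ≠ ⊤ := by
    intro htop
    have h1 : (1 : ↥(s18tInt A t)) ∈ 𝔫.comap φ := by rw [htop]; exact Submodule.mem_top
    rw [Ideal.mem_comap, map_one] at h1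
    exact h𝔫.ne_top ((Ideal.eq_top_iff_one _).mpr h1)
  have heq : 𝔫 = 𝔫.comap φ := h𝔫.eq_of_le hne hle
  intro p
  constructor
  · intro hp
    exact ⟨hσP _ p.2, hσ.2 p hp _⟩
  · rintro ⟨hmem, hp⟩
    rw [heq, Ideal.mem_comap]
    exact hp

/-- RAT2 in the shape of `StGermAt` (`ST/Defs.lean`) : `StPull t (σ * σ) 𝔫 𝔫` at a crossing. -/
theorem str2_pull (α φ : F₀ →+* F) (V₁ V₂ : ValuationSubring F) (s₀ : F₀ →+* F₀)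
    (σ : SemilinearAut L F) (q : ℕ) (hq : q ≠ 0)
    (hαP : ∀ b ∈ s18tInt A₀ t₀, α b ∈ s18tInt A t) (hφP : ∀ b ∈ s18tInt A₀ t₀, φ b ∈ s18tInt A t)
    (hs₀ : ∀ b ∈ s18tInt A₀ t₀, s₀ b ∈ s18tInt A₀ t₀)
    (hσP : ∀ x ∈ s18tInt A t, σ • x ∈ s18tInt A t)
    (hσP' : ∀ x ∈ s18tInt A t, σ⁻¹ • x ∈ s18tInt A t)
    (hσα : ∀ b ∈ s18tInt A₀ t₀, σ • α b = α (s₀ b))
    (hσV₁ : ∀ x ∈ s18tInt A t, x ∈ V₁.nonunits → σ • x ∈ V₁.nonunits)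
    (hsurj₁ : ∀ p ∈ s18tInt A t, ∃ b ∈ s18tInt A₀ t₀, p - α b ∈ V₁.nonunits)
    (hfrob₁ : ∀ b ∈ s18tInt A₀ t₀, φ (s₀ b) - α b ^ q ∈ V₁.nonunits)
    (hfrob₂ : ∀ b ∈ s18tInt A₀ t₀, α (s₀ b) - φ b ^ q ∈ V₂.nonunits)
    (𝔫 : Ideal ↥(s18tInt A t)) (h𝔫 : 𝔫.IsMaximal)
    (h𝔭₁ : StOn V₁ t 𝔫) (h𝔭₂ : StOn V₂ t 𝔫) : StPull t (σ * σ) 𝔫 𝔫 :=
  str2_pull_of_stable h𝔫
    (fun x hx => by rw [mul_smul]; exact hσP _ (hσP x hx))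
    (str2_stable α φ V₁ V₂ s₀ σ q hq hαP hφP hs₀ hσP hσP' hσα hσV₁ hsurj₁ hfrob₁ hfrob₂ 𝔫 h𝔭₁ h𝔭₂)

end Conc

end Fermat.Agent.ST
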