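import Mathlib
import Fermat.Agent.SS.Top.Kum

/-!
# Program T (S35), leaf ST/Alg : the exponent algebra `g ↦ g^{P(s)}`, `P ∈ ℤ[X]`, and the
polynomial TOP-KUM

`s` a semilinear automorphism of a function field `F / K`.  For `P = ∑ aᵢ Xⁱ ∈ ℤ[X]` and `u ∈ Fˣ`,
`u^{P(s)} := ∏ (sⁱ u)^{aᵢ}` (`staPow s P u`); `P ↦ (u ↦ u^{P(s)})` is the ring homomorphism
`ℤ[X] → End(Fˣ)` sending `X` to `s` (`sta_pow_mul`, `sta_pow_add`, `sta_pow_X`, `sta_pow_C`), so
`u^{(PQ)(s)} = (u^{Q(s)})^{P(s)}` for free.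

* `sta_ord_pow` : `ord_v (u^{P(s)}) = ∑ aᵢ · ord_{s⁻ⁱ v} u`;
* `sta_abstract` (POLYNOMIAL TOP-KUM) : if `m D = div g` and `g^{P(s)}` is an `m`-th power then
  `P(s) [D] = 0` in `Pic⁰`, where `P(s) = staEval (staEnd s) P = aeval (staEnd s) P`, `staEnd s` the endomorphism `x ↦ s • x`
  of `Pic⁰ K F`;
* `sta_aeval_apply` : `P(s) x = ∑ aᵢ • (sⁱ • x)`;
* `sta_kill_torsion` : if `g^{P(s)}` is an `m`-th power for every `g` with `m ∣ div g`, then `P(s)` kills
  `Pic⁰[m]`;
* the operators of Program T : `staTheta c = (X - c)(X - 1)`, `sta_theta_coe`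
  (`u^{Θ(σ)} = σ(σu/u) / (σu/u)^c`), `sta_pow_sub_one_coe` (`u^{(X-1)(σ)} = σu / u`),
  `staPT c = ((X - c)(X - 1)²)(X²)`, `sta_pt_coe`, `sta_pt_apply`; substitution `sta_pow_comp_pow`,
  `sta_aeval_comp_pow` (`P(Xⁿ)(s) = P(sⁿ)`).
-/

set_option autoImplicit false
set_option linter.unusedSectionVars false
set_option linter.unusedVariables false

noncomputable section

namespace Fermat.Agent.ST

open AlgebraicCurve Polynomial Fermat.Agent.SS

variable {K F : Type*} [Field K] [Field F] [Algebra K F]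

/-! ### polynomials in one additive endomorphism -/

section Gen

variable {A : Type*} [AddCommGroup A]

/-- `P(S)` for an additive endomorphism `S` of an abelian group and `P ∈ ℤ[X]` -/
def staEval (S : AddMonoid.End A) (P : ℤ[X]) : AddMonoid.End A := aeval S P

theorem sta_eval_mul (S : AddMonoid.End A) (P Q : ℤ[X]) (x : A) :
    staEval S (P * Q) x = staEval S P (staEval S Q x) := by
  unfold staEval
  rw [map_mul]
  rfl

theorem sta_eval_add (S : AddMonoid.End A) (P Q : ℤ[X]) (x : A) :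
    staEval S (P + Q) x = staEval S P x + staEval S Q x := by
  unfold staEval
  rw [map_add]
  rfl

theorem sta_eval_neg (S : AddMonoid.End A) (P : ℤ[X]) (x : A) :
    staEval S (-P) x = -staEval S P x := by
  unfold staEval
  rw [map_neg]
  rfl

theorem sta_eval_sub (S : AddMonoid.End A) (P Q : ℤ[X]) (x : A) :
    staEval S (P - Q) x = staEval S P x - staEval S Q x := by
  rw [sub_eq_add_neg, sta_eval_add, sta_eval_neg, sub_eq_add_neg]

theorem sta_eval_one (S : AddMonoid.End A) (x : A) : staEval S 1 x = x := by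
  unfold staEval
  rw [map_one]
  rfl

theorem sta_eval_zero (S : AddMonoid.End A) (x : A) : staEval S 0 x = 0 := by
  unfold staEval
  rw [map_zero]
  rfl

theorem sta_eval_X (S : AddMonoid.End A) (x : A) : staEval S X x = S x := by
  unfold staEval
  rw [aeval_X]

theorem sta_eval_X_pow (S : AddMonoid.End A) (n : ℕ) (x : A) :
    staEval S (X ^ n) x = (S ^ n) x := by
  unfold staEval
  rw [map_pow, aeval_X]

theorem sta_eval_C (S : AddMonoid.End A) (a : ℤ) (x : A) : staEval S (C a) x = a • x := by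
  unfold staEval
  rw [aeval_C, Algebra.algebraMap_eq_smul_one]
  rfl

theorem sta_eval_sum (S : AddMonoid.End A) {ι : Type*} (I : Finset ι) (Q : ι → ℤ[X]) (x : A) :
    staEval S (∑ i ∈ I, Q i) x = ∑ i ∈ I, staEval S (Q i) x := by
  classical
  induction I using Finset.induction_on with
  | empty => rw [Finset.sum_empty, Finset.sum_empty, sta_eval_zero]
  | insert a I ha ih => rw [Finset.sum_insert ha, Finset.sum_insert ha, sta_eval_add, ih]

/-- `P(S) x = ∑ aᵢ • Sⁱ x` -/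
theorem sta_eval_apply (S : AddMonoid.End A) (P : ℤ[X]) (x : A) :
    staEval S P x = ∑ i ∈ Finset.range (P.natDegree + 1), P.coeff i • (S ^ i) x := by
  conv_lhs => rw [P.as_sum_range_C_mul_X_pow]
  rw [sta_eval_sum]
  refine Finset.sum_congr rfl fun i _ => ?_
  rw [sta_eval_mul, sta_eval_C, sta_eval_X_pow]

theorem sta_eval_sub_one (S : AddMonoid.End A) (x : A) : staEval S (X - 1) x = S x - x := by
  rw [sta_eval_sub, sta_eval_X, sta_eval_one]

theorem sta_eval_sub_C (S : AddMonoid.End A) (c : ℤ) (x : A) :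
    staEval S (X - C c) x = S x - c • x := by
  rw [sta_eval_sub, sta_eval_X, sta_eval_C]

theorem sta_eval_pow_succ (S : AddMonoid.End A) (P : ℤ[X]) (m : ℕ) (x : A) :
    staEval S (P ^ (m + 1)) x = staEval S P (staEval S (P ^ m) x) := by
  rw [pow_succ', sta_eval_mul]

/-- if `P(S)` kills `x` then so does every multiple `(Q P)(S)` -/
theorem sta_eval_mul_eq_zero (S : AddMonoid.End A) (P Q : ℤ[X]) {x : A}
    (h : staEval S P x = 0) : staEval S (Q * P) x = 0 := by
  rw [sta_eval_mul, h, map_zero]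

/-- substitution : `P(Xⁿ)(S) = P(Sⁿ)` -/
theorem sta_eval_comp_pow (S : AddMonoid.End A) (P : ℤ[X]) (n : ℕ) (x : A) :
    staEval S (P.comp (X ^ n)) x = staEval (S ^ n) P x := by
  unfold staEval
  rw [aeval_comp, map_pow, aeval_X]

end Gen

/-! ### the exponent algebra on `Fˣ` -/

/-- the action of `s` on `Fˣ`, written additively -/
def staUnitsEnd (s : SemilinearAut K F) : AddMonoid.End (Additive Fˣ) :=
  MonoidHom.toAdditive (Units.map ((SemilinearAut.toRingAut s : F ≃+* F) : F →* F))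

theorem sta_unitsEnd_apply (s : SemilinearAut K F) (u : Fˣ) :
    ((Additive.toMul (staUnitsEnd s (Additive.ofMul u)) : Fˣ) : F) = s • (u : F) := rfl

theorem sta_unitsEnd_pow_apply (s : SemilinearAut K F) (n : ℕ) (u : Fˣ) :
    ((Additive.toMul ((staUnitsEnd s ^ n) (Additive.ofMul u)) : Fˣ) : F) = s ^ n • (u : F) := by
  induction n generalizing u with
  | zero => rw [pow_zero, pow_zero, one_smul]; rfl
  | succ n ih =>
    rw [pow_succ, pow_succ, mul_smul]
    show ((Additive.toMul ((staUnitsEnd s ^ n) (staUnitsEnd s (Additive.ofMul u))) : Fˣ) : F) = _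
    have := ih (Additive.toMul (staUnitsEnd s (Additive.ofMul u)))
    rw [sta_unitsEnd_apply] at this
    exact this

/-- `u^{P(s)}` -/
def staPow (s : SemilinearAut K F) (P : ℤ[X]) (u : Fˣ) : Fˣ :=
  Additive.toMul (staEval (staUnitsEnd s) P (Additive.ofMul u))

theorem sta_pow_mul (s : SemilinearAut K F) (P Q : ℤ[X]) (u : Fˣ) :
    staPow s (P * Q) u = staPow s P (staPow s Q u) := by
  unfold staPow
  rw [sta_eval_mul]
  rfl

theorem sta_pow_add (s : SemilinearAut K F) (P Q : ℤ[X]) (u : Fˣ) :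
    staPow s (P + Q) u = staPow s P u * staPow s Q u := by
  unfold staPow
  rw [sta_eval_add]
  rfl

theorem sta_pow_neg (s : SemilinearAut K F) (P : ℤ[X]) (u : Fˣ) :
    staPow s (-P) u = (staPow s P u)⁻¹ := by
  unfold staPow
  rw [sta_eval_neg]
  rfl

theorem sta_pow_sub (s : SemilinearAut K F) (P Q : ℤ[X]) (u : Fˣ) :
    staPow s (P - Q) u = staPow s P u / staPow s Q u := by
  rw [sub_eq_add_neg, sta_pow_add, sta_pow_neg, div_eq_mul_inv]

theorem sta_pow_one (s : SemilinearAut K F) (u : Fˣ) : staPow s 1 u = u := by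
  unfold staPow
  rw [sta_eval_one]
  rfl

theorem sta_pow_zero (s : SemilinearAut K F) (u : Fˣ) : staPow s 0 u = 1 := by
  unfold staPow
  rw [sta_eval_zero]
  rfl

theorem sta_pow_X (s : SemilinearAut K F) (u : Fˣ) :
    ((staPow s X u : Fˣ) : F) = s • (u : F) := by
  unfold staPow
  rw [sta_eval_X]
  rfl

theorem sta_pow_X_pow (s : SemilinearAut K F) (n : ℕ) (u : Fˣ) :
    ((staPow s (X ^ n) u : Fˣ) : F) = s ^ n • (u : F) := by
  unfold staPow
  rw [sta_eval_X_pow]
  exact sta_unitsEnd_pow_apply s n u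

theorem sta_pow_C (s : SemilinearAut K F) (a : ℤ) (u : Fˣ) : staPow s (C a) u = u ^ a := by
  unfold staPow
  rw [sta_eval_C]
  rfl

theorem sta_pow_natCast (s : SemilinearAut K F) (a : ℕ) (u : Fˣ) :
    staPow s (a : ℤ[X]) u = u ^ a := by
  have : ((a : ℤ[X])) = C (a : ℤ) := by simp
  rw [this, sta_pow_C, zpow_natCast]

/-- `u ↦ u^{P(s)}` is a group homomorphism of `Fˣ` -/
theorem sta_pow_map_mul (s : SemilinearAut K F) (P : ℤ[X]) (u v : Fˣ) :
    staPow s P (u * v) = staPow s P u * staPow s P v := by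
  unfold staPow
  rw [ofMul_mul, map_add]
  rfl

theorem sta_pow_map_one (s : SemilinearAut K F) (P : ℤ[X]) : staPow s P (1 : Fˣ) = 1 := by
  unfold staPow
  rw [ofMul_one, map_zero]
  rfl

theorem sta_pow_map_inv (s : SemilinearAut K F) (P : ℤ[X]) (u : Fˣ) :
    staPow s P u⁻¹ = (staPow s P u)⁻¹ := by
  unfold staPow
  rw [ofMul_inv, map_neg]
  rfl

theorem sta_pow_map_div (s : SemilinearAut K F) (P : ℤ[X]) (u v : Fˣ) :
    staPow s P (u / v) = staPow s P u / staPow s P v := by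
  rw [div_eq_mul_inv, sta_pow_map_mul, sta_pow_map_inv, div_eq_mul_inv]

theorem sta_pow_map_pow (s : SemilinearAut K F) (P : ℤ[X]) (u : Fˣ) (n : ℕ) :
    staPow s P (u ^ n) = staPow s P u ^ n := by
  induction n with
  | zero => rw [pow_zero, pow_zero, sta_pow_map_one]
  | succ n ih => rw [pow_succ, pow_succ, sta_pow_map_mul, ih]

/-- `u^{P(s)} = ∏ (sⁱ u)^{aᵢ}` -/
theorem sta_pow_coe (s : SemilinearAut K F) (P : ℤ[X]) (u : Fˣ) :
    ((staPow s P u : Fˣ) : F) =
      ∏ i ∈ Finset.range (P.natDegree + 1), (s ^ i • (u : F)) ^ (P.coeff i) := by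
  have hsum : ∀ (I : Finset ℕ) (Q : ℕ → ℤ[X]),
      staPow s (∑ i ∈ I, Q i) u = ∏ i ∈ I, staPow s (Q i) u := by
    intro I Q
    classical
    induction I using Finset.induction_on with
    | empty => rw [Finset.sum_empty, Finset.prod_empty, sta_pow_zero]
    | insert a I ha ih => rw [Finset.sum_insert ha, Finset.prod_insert ha, sta_pow_add, ih]
  conv_lhs => rw [P.as_sum_range_C_mul_X_pow]
  rw [hsum, Units.coe_prod]
  refine Finset.prod_congr rfl fun i _ => ?_
  rw [sta_pow_mul, sta_pow_C, Units.val_zpow_eq_zpow_val, sta_pow_X_pow]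

/-! ### orders -/

/-- the order of a finite product -/
theorem sta_ord_prod (v : Place K F) {ι : Type*} (I : Finset ι) (f : ι → F)
    (hf : ∀ i ∈ I, f i ≠ 0) : v.ord (∏ i ∈ I, f i) = ∑ i ∈ I, v.ord (f i) := by
  classical
  induction I using Finset.induction_on with
  | empty => rw [Finset.prod_empty, Finset.sum_empty, Place.ord_one]
  | insert a I ha ih =>
    rw [Finset.prod_insert ha, Finset.sum_insert ha,
      Place.ord_mul _ (hf a (Finset.mem_insert_self a I))
        (Finset.prod_ne_zero_iff.mpr fun i hi => hf i (Finset.mem_insert_of_mem hi)),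
      ih (fun i hi => hf i (Finset.mem_insert_of_mem hi))]

/-- `ord_v (u^{P(s)}) = ∑ aᵢ · ord_{s⁻ⁱ v} u` -/
theorem sta_ord_pow (s : SemilinearAut K F) (P : ℤ[X]) (u : Fˣ) (v : Place K F) :
    v.ord ((staPow s P u : Fˣ) : F) =
      ∑ i ∈ Finset.range (P.natDegree + 1), P.coeff i * ((s ^ i)⁻¹ • v).ord (u : F) := by
  rw [sta_pow_coe, sta_ord_prod v _ _
    (fun i _ => zpow_ne_zero _ (sstk_smul_ne_zero _ u.ne_zero))]
  refine Finset.sum_congr rfl fun i _ => ?_
  rw [Place.ord_zpow, sstk_ord_smul]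

/-! ### the polynomial operators on `Pic⁰` -/

/-- the endomorphism `x ↦ s • x` of `Pic⁰ K F` -/
def staEnd (s : SemilinearAut K F) : AddMonoid.End (Pic0 K F) :=
  DistribMulAction.toAddMonoidEnd (SemilinearAut K F) (Pic0 K F) s

theorem sta_end_apply (s : SemilinearAut K F) (x : Pic0 K F) : staEnd s x = s • x := rfl

theorem sta_end_pow_apply (s : SemilinearAut K F) (n : ℕ) (x : Pic0 K F) :
    (staEnd s ^ n) x = s ^ n • x := by
  unfold staEnd
  rw [← map_pow]
  rfl

/-- `P(s) x = ∑ aᵢ • (sⁱ • x)` -/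
theorem sta_aeval_apply (s : SemilinearAut K F) (P : ℤ[X]) (x : Pic0 K F) :
    staEval (staEnd s) P x =
      ∑ i ∈ Finset.range (P.natDegree + 1), P.coeff i • (s ^ i • x) := by
  rw [sta_eval_apply]
  refine Finset.sum_congr rfl fun i _ => ?_
  rw [sta_end_pow_apply]

/-- POLYNOMIAL TOP-KUM : if `m D = div g` and `g^{P(s)}` is an `m`-th power then `P(s) [D] = 0`. -/
theorem sta_abstract (s : SemilinearAut K F) (P : ℤ[X])
    (D : Divisor.degZero (K := K) (F := F)) (m : ℕ) (hm : m ≠ 0) (g : Fˣ) (y : F)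
    (hgD : ∀ v : Place K F, v.ord (g : F) = (m : ℤ) * (D : Divisor K F) v)
    (hy : y ^ m = ((staPow s P g : Fˣ) : F)) :
    staEval (staEnd s) P (Pic0.mk D) = 0 := by
  have hy0 : y ≠ 0 := by
    intro h0
    rw [h0, zero_pow hm] at hy
    exact (staPow s P g).ne_zero hy.symm
  have hm' : (m : ℤ) ≠ 0 := by exact_mod_cast hm
  have hord : ∀ v : Place K F, v.ord y =
      ∑ i ∈ Finset.range (P.natDegree + 1), P.coeff i * (D : Divisor K F) ((s ^ i)⁻¹ • v) := by
    intro v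
    apply mul_left_cancel₀ hm'
    have h1 : v.ord (y ^ m) = (m : ℤ) * v.ord y := by
      rw [← zpow_natCast, Place.ord_zpow]
    have h2 : v.ord (y ^ m) =
        ∑ i ∈ Finset.range (P.natDegree + 1), P.coeff i * ((s ^ i)⁻¹ • v).ord (g : F) :=
      (congrArg v.ord hy).trans (sta_ord_pow s P g v)
    rw [← h1, h2, Finset.mul_sum]
    refine Finset.sum_congr rfl fun i _ => ?_
    rw [hgD]
    ring
  rw [sta_aeval_apply]
  have key : ∑ i ∈ Finset.range (P.natDegree + 1), P.coeff i • (s ^ i • Pic0.mk D) =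
      Pic0.mk (∑ i ∈ Finset.range (P.natDegree + 1),
        P.coeff i • SemilinearAut.degZeroSMulHom (s ^ i) D) := by
    show _ = QuotientAddGroup.mk' _ _
    rw [map_sum]
    refine Finset.sum_congr rfl fun i _ => ?_
    rw [map_zsmul]
    rfl
  rw [key]
  refine (QuotientAddGroup.eq_zero_iff _).mpr ?_
  rw [AddSubgroup.mem_addSubgroupOf]
  refine ⟨y, hy0, fun v => ?_⟩
  rw [hord v]
  rw [AddSubgroup.val_finsetSum, Finsupp.finsetSum_apply]
  refine Finset.sum_congr rfl fun i _ => ?_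
  rw [AddSubgroup.coe_zsmul, Finsupp.smul_apply, SemilinearAut.coe_degZeroSMulHom,
    SemilinearAut.divisor_smul_apply, smul_eq_mul]

/-! ### the operators of Program T -/

/-- `Θ_c = (X - c)(X - 1)` (`c = q²`, `X = σ = s²`) -/
def staTheta (c : ℤ) : ℤ[X] := (X - C c) * (X - 1)

/-- `u^{(X-1)(σ)} = σu / u` -/
theorem sta_pow_sub_one_coe (σ : SemilinearAut K F) (u : Fˣ) :
    ((staPow σ (X - 1) u : Fˣ) : F) = σ • (u : F) / (u : F) := by
  rw [sta_pow_sub, sta_pow_one, Units.val_div_eq_div_val, sta_pow_X]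

/-- `u^{(X-c)(σ)} = σu / u^c` -/
theorem sta_pow_sub_C_coe (σ : SemilinearAut K F) (c : ℤ) (u : Fˣ) :
    ((staPow σ (X - C c) u : Fˣ) : F) = σ • (u : F) / (u : F) ^ c := by
  rw [sta_pow_sub, sta_pow_C, Units.val_div_eq_div_val, sta_pow_X, Units.val_zpow_eq_zpow_val]

/-- `u^{Θ_c(σ)} = σ(σu/u) / (σu/u)^c` -/
theorem sta_theta_coe (σ : SemilinearAut K F) (c : ℤ) (u : Fˣ) :
    ((staPow σ (staTheta c) u : Fˣ) : F) =
      σ • (σ • (u : F) / (u : F)) / (σ • (u : F) / (u : F)) ^ c := by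
  unfold staTheta
  rw [sta_pow_mul, sta_pow_sub_C_coe, sta_pow_sub_one_coe]

theorem sta_unitsEnd_pow (s : SemilinearAut K F) (n : ℕ) :
    staUnitsEnd s ^ n = staUnitsEnd (s ^ n) := by
  apply AddMonoidHom.ext
  intro w
  apply Additive.toMul.injective
  apply Units.ext
  exact sta_unitsEnd_pow_apply s n (Additive.toMul w)

theorem sta_end_pow (s : SemilinearAut K F) (n : ℕ) : staEnd s ^ n = staEnd (s ^ n) :=
  (map_pow (DistribMulAction.toAddMonoidEnd (SemilinearAut K F) (Pic0 K F)) s n).symm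

/-- substitution `X ↦ Xⁿ` : `u^{P(Xⁿ)(s)} = u^{P(sⁿ)}` -/
theorem sta_pow_comp_pow (s : SemilinearAut K F) (P : ℤ[X]) (n : ℕ) (u : Fˣ) :
    staPow s (P.comp (X ^ n)) u = staPow (s ^ n) P u := by
  unfold staPow
  rw [sta_eval_comp_pow, sta_unitsEnd_pow]

/-- substitution on `Pic⁰` : `P(Xⁿ)(s) = P(sⁿ)` -/
theorem sta_aeval_comp_pow (s : SemilinearAut K F) (P : ℤ[X]) (n : ℕ) (x : Pic0 K F) :
    staEval (staEnd s) (P.comp (X ^ n)) x = staEval (staEnd (s ^ n)) P x := by
  rw [sta_eval_comp_pow, sta_end_pow]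

/-- `P_T = ((X - c)(X - 1)²)(X²)`, i.e. `(s² - c)(s² - 1)²` (`c = q²`) -/
def staPT (c : ℤ) : ℤ[X] := (staTheta c * (X - 1)).comp (X ^ 2)

/-- `u^{P_T(s)} = (σu/u)^{Θ_c(σ)}`, `σ = s²` : the explicit function of blueprint §1.3 -/
theorem sta_pt_coe (s : SemilinearAut K F) (c : ℤ) (u : Fˣ) :
    ((staPow s (staPT c) u : Fˣ) : F) =
      s ^ 2 • (s ^ 2 • (s ^ 2 • (u : F) / (u : F)) / (s ^ 2 • (u : F) / (u : F))) /
        (s ^ 2 • (s ^ 2 • (u : F) / (u : F)) / (s ^ 2 • (u : F) / (u : F))) ^ c := by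
  unfold staPT
  rw [sta_pow_comp_pow, sta_pow_mul, sta_theta_coe, sta_pow_sub_one_coe]

/-- `P_T(s) x = (σ - c)(σ - 1)(σ - 1) x`, `σ = s²`, in nested form -/
theorem sta_pt_apply (s : SemilinearAut K F) (c : ℤ) (x : Pic0 K F) :
    staEval (staEnd s) (staPT c) x =
      s ^ 2 • (s ^ 2 • (s ^ 2 • x - x) - (s ^ 2 • x - x)) -
        c • (s ^ 2 • (s ^ 2 • x - x) - (s ^ 2 • x - x)) := by
  unfold staPT staTheta
  rw [sta_aeval_comp_pow, sta_eval_mul, sta_eval_mul, sta_eval_sub_C, sta_eval_sub_one,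
    sta_eval_sub_one]
  rfl

/-- POLYNOMIAL TOP-KUM for `g : F`, `g ≠ 0`. -/
theorem sta_abstract' (s : SemilinearAut K F) (P : ℤ[X])
    (D : Divisor.degZero (K := K) (F := F)) (m : ℕ) (hm : m ≠ 0) (g y : F) (hg0 : g ≠ 0)
    (hgD : ∀ v : Place K F, v.ord g = (m : ℤ) * (D : Divisor K F) v)
    (hy : y ^ m = ((staPow s P (Units.mk0 g hg0) : Fˣ) : F)) :
    staEval (staEnd s) P (Pic0.mk D) = 0 :=
  sta_abstract s P D m hm (Units.mk0 g hg0) y hgD hy

/-- POLYNOMIAL TOP-KUM on torsion classes : if for every `g ≠ 0` all of whose orders are divisible by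
`m`, `g^{P(s)}` is an `m`-th power, then `P(s)` kills the `m`-torsion of `Pic⁰`. -/
theorem sta_kill_torsion (s : SemilinearAut K F) (P : ℤ[X]) (m : ℕ) (hm : m ≠ 0)
    (h : ∀ g : Fˣ, (∀ v : Place K F, (m : ℤ) ∣ v.ord (g : F)) →
      ∃ y : F, y ^ m = ((staPow s P g : Fˣ) : F))
    (x : Pic0 K F) (hx : m • x = 0) : staEval (staEnd s) P x = 0 := by
  obtain ⟨D, rfl⟩ := Pic0.mk_surjective x
  obtain ⟨g, hg0, hgD⟩ := sstk_exists_fun D m hx
  obtain ⟨y, hy⟩ := h (Units.mk0 g hg0) (fun v => ⟨_, hgD v⟩)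
  exact sta_abstract s P D m hm (Units.mk0 g hg0) y hgD hy

end Fermat.Agent.ST
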