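import Mathlib
import Fermat.Agent.S18.T.Spec

/-!
# Program T (S35), leaf ST/Up (prefix `stu_`) : transfer of `≡ 0 mod ϖ P_(ϖ)` along an extension
# of the base

`A₁, A₂` discrete valuation rings with uniformisers `ϖ₁, ϖ₂`, `j : A₁ →+* A₂` a ring homomorphism
with `ϖ₂ ∣ j ϖ₁`, `ι : F₁ →+* F₂` a homomorphism of fields over `j`
(`ι ∘ algebraMap A₁ F₁ = algebraMap A₂ F₂ ∘ j`).  Then `ι` maps

* the chart ring `A₁[t]` into `A₂[ι t]` (`stu_chart_map`),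
* `P₁ = s18tInt A₁ t` into `P₂ = s18tInt A₂ (ι t)` (`stu_int_map`),
* `P₁_(ϖ₁)` into `P₂_(ϖ₂)` (`stu_intLoc_map`; no hypothesis on the ramification is needed here:
  an element of `A₁` not divisible by `ϖ₁` is a unit),
* `ϖ₁ P₁_(ϖ₁)` into `ϖ₂ P₂_(ϖ₂)` (`stu_dvdGauss_map`, `stu_dvdGauss_map_sub_one`).
-/

set_option autoImplicit false
set_option linter.unusedSectionVars false
set_option linter.unusedVariables false

noncomputable section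

namespace Fermat.Agent.ST

open Polynomial Fermat.Agent.S18

universe u v

variable {A₁ : Type*} [CommRing A₁] [IsDomain A₁] [IsDiscreteValuationRing A₁] [CharZero A₁]
variable {A₂ : Type*} [CommRing A₂] [IsDomain A₂] [IsDiscreteValuationRing A₂] [CharZero A₂]
variable {F₁ : Type u} [Field F₁] [Algebra A₁ F₁]
variable {F₂ : Type v} [Field F₂] [Algebra A₂ F₂]
variable {ϖ₁ : A₁} {ϖ₂ : A₂}

/-- `ι` maps the chart ring `A₁[t]` into `A₂[ι t]` -/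
theorem stu_chart_map (j : A₁ →+* A₂) (ι : F₁ →+* F₂)
    (hι : ∀ a : A₁, ι (algebraMap A₁ F₁ a) = algebraMap A₂ F₂ (j a)) (t : F₁) {c : F₁}
    (hc : c ∈ s18tChart A₁ t) : ι c ∈ s18tChart A₂ (ι t) := by
  unfold s18tChart at hc ⊢
  induction hc using Algebra.adjoin_induction with
  | mem x hx =>
    rw [Set.mem_singleton_iff] at hx
    rw [hx]
    exact Algebra.subset_adjoin (Set.mem_singleton _)
  | algebraMap a =>
    rw [hι]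
    exact Subalgebra.algebraMap_mem _ _
  | add x y _ _ hx hy =>
    rw [map_add]
    exact Subalgebra.add_mem _ hx hy
  | mul x y _ _ hx hy =>
    rw [map_mul]
    exact Subalgebra.mul_mem _ hx hy

/-- `ι` maps `P₁ = s18tInt A₁ t` into `P₂ = s18tInt A₂ (ι t)` -/
theorem stu_int_map (j : A₁ →+* A₂) (ι : F₁ →+* F₂)
    (hι : ∀ a : A₁, ι (algebraMap A₁ F₁ a) = algebraMap A₂ F₂ (j a)) (t : F₁) {x : F₁}
    (hx : x ∈ s18tInt A₁ t) : ι x ∈ s18tInt A₂ (ι t) := by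
  rw [mem_s18tInt] at hx ⊢
  let φ : ↥(s18tChart A₁ t) →+* ↥(s18tChart A₂ (ι t)) :=
    ι.restrict (s18tChart A₁ t) (s18tChart A₂ (ι t)) (fun c hc => stu_chart_map j ι hι t hc)
  have hcomp : (algebraMap ↥(s18tChart A₂ (ι t)) F₂).comp φ =
      ι.comp (algebraMap ↥(s18tChart A₁ t) F₁) := by
    ext c
    rfl
  exact IsIntegral.map_of_comp_eq φ ι hcomp hx

/-- `aeval (ι t) (b.map j) = ι (aeval t b)` -/
theorem stu_aeval_map (j : A₁ →+* A₂) (ι : F₁ →+* F₂)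
    (hι : ∀ a : A₁, ι (algebraMap A₁ F₁ a) = algebraMap A₂ F₂ (j a)) (t : F₁) (b : A₁[X]) :
    aeval (ι t) (b.map j) = ι (aeval t b) := by
  rw [aeval_def, aeval_def, eval₂_map, hom_eval₂]
  congr 1
  ext a
  exact (hι a).symm

/-- in a discrete valuation ring an element not divisible by the uniformiser is a unit -/
theorem stu_isUnit_of_not_dvd (hϖ₁ : Irreducible ϖ₁) {a : A₁} (ha : ¬ ϖ₁ ∣ a) : IsUnit a := by
  have hmax : IsLocalRing.maximalIdeal A₁ = Ideal.span {ϖ₁} :=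
    (IsDiscreteValuationRing.irreducible_iff_uniformizer ϖ₁).mp hϖ₁
  by_contra hu
  have hmem : a ∈ IsLocalRing.maximalIdeal A₁ := (IsLocalRing.mem_maximalIdeal a).mpr hu
  rw [hmax, Ideal.mem_span_singleton] at hmem
  exact ha hmem

/-- a polynomial not divisible by `ϖ₁` stays not divisible by `ϖ₂` -/
theorem stu_not_dvd_map (hϖ₁ : Irreducible ϖ₁) (hϖ₂ : Irreducible ϖ₂) (j : A₁ →+* A₂)
    {b : A₁[X]} (hb : ¬ (C ϖ₁ ∣ b)) : ¬ (C ϖ₂ ∣ b.map j) := by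
  rw [Polynomial.C_dvd_iff_dvd_coeff] at hb ⊢
  push Not at hb
  obtain ⟨i, hi⟩ := hb
  intro h
  have h1 := h i
  rw [coeff_map] at h1
  have hu : IsUnit (j (b.coeff i)) := (stu_isUnit_of_not_dvd hϖ₁ hi).map j
  exact hϖ₂.not_isUnit (isUnit_of_dvd_unit h1 hu)

/-- `ι` maps `P₁_(ϖ₁)` into `P₂_(ϖ₂)` -/
theorem stu_intLoc_map (hϖ₁ : Irreducible ϖ₁) (hϖ₂ : Irreducible ϖ₂) (j : A₁ →+* A₂)
    (ι : F₁ →+* F₂) (hι : ∀ a : A₁, ι (algebraMap A₁ F₁ a) = algebraMap A₂ F₂ (j a)) (t : F₁)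
    {y : F₁} (hy : y ∈ s18tIntLoc A₁ t (C ϖ₁) (s18t_prime_C hϖ₁)) :
    ι y ∈ s18tIntLoc A₂ (ι t) (C ϖ₂) (s18t_prime_C hϖ₂) := by
  rw [s18t_intLoc_iff hϖ₁] at hy
  rw [s18t_intLoc_iff hϖ₂]
  obtain ⟨b, hb, hby⟩ := hy
  refine ⟨b.map j, stu_not_dvd_map hϖ₁ hϖ₂ j hb, ?_⟩
  rw [stu_aeval_map j ι hι, ← map_mul]
  exact stu_int_map j ι hι t hby

/-- **the transfer lemma** : `ι` maps `ϖ₁ P₁_(ϖ₁)` into `ϖ₂ P₂_(ϖ₂)` -/
theorem stu_dvdGauss_map (hϖ₁ : Irreducible ϖ₁) (hϖ₂ : Irreducible ϖ₂) (j : A₁ →+* A₂)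
    (hdvd : ϖ₂ ∣ j ϖ₁) (ι : F₁ →+* F₂)
    (hι : ∀ a : A₁, ι (algebraMap A₁ F₁ a) = algebraMap A₂ F₂ (j a)) (t : F₁) {x : F₁}
    (hx : S18DvdGauss hϖ₁ t x) : S18DvdGauss hϖ₂ (ι t) (ι x) := by
  obtain ⟨y, hy, rfl⟩ := hx
  obtain ⟨c, hc⟩ := hdvd
  refine ⟨algebraMap A₂ F₂ c * ι y, Subring.mul_mem _
    (s18tInt_le_intLoc hϖ₂ (ι t) (s18tc_algebraMap_mem_int (ι t) c))
    (stu_intLoc_map hϖ₁ hϖ₂ j ι hι t hy), ?_⟩
  rw [map_mul, hι, hc, map_mul, mul_assoc]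

/-- the transfer lemma for `x ≡ 1` -/
theorem stu_dvdGauss_map_sub_one (hϖ₁ : Irreducible ϖ₁) (hϖ₂ : Irreducible ϖ₂) (j : A₁ →+* A₂)
    (hdvd : ϖ₂ ∣ j ϖ₁) (ι : F₁ →+* F₂)
    (hι : ∀ a : A₁, ι (algebraMap A₁ F₁ a) = algebraMap A₂ F₂ (j a)) (t : F₁) {x : F₁}
    (hx : S18DvdGauss hϖ₁ t (x - 1)) : S18DvdGauss hϖ₂ (ι t) (ι x - 1) := by
  have h := stu_dvdGauss_map hϖ₁ hϖ₂ j hdvd ι hι t hx
  rwa [map_sub, map_one] at h

/-- the `Algebra` form of the transfer lemma -/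
theorem stu_dvdGauss_algebraMap [Algebra A₁ A₂] (hϖ₁ : Irreducible ϖ₁) (hϖ₂ : Irreducible ϖ₂)
    (hdvd : ϖ₂ ∣ algebraMap A₁ A₂ ϖ₁) (ι : F₁ →+* F₂)
    (hι : ∀ a : A₁, ι (algebraMap A₁ F₁ a) = algebraMap A₂ F₂ (algebraMap A₁ A₂ a)) (t : F₁)
    {x : F₁} (hx : S18DvdGauss hϖ₁ t x) : S18DvdGauss hϖ₂ (ι t) (ι x) :=
  stu_dvdGauss_map hϖ₁ hϖ₂ (algebraMap A₁ A₂) hdvd ι hι t hx

end Fermat.Agent.ST
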