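import Mathlib
import Fermat.Agent.ST.Cross.Side

/-!
# Program T (S35), leaf ST/Cross : the unit property at a `σ`-stable crossing point (`st_cross_unit`)

At a `σ`-stable closed point `𝔫` with residue field `A / ϖ`, lying on both components `V₁, V₂` of the
special fibre, with a crossing germ `𝔫 P_𝔫 = (ϖ, u, w)`, `u w ∈ ϖ P_𝔫` : either one of `u, w` lies in
`ϖ P_𝔫` (then the germ is smooth), or `u, w` are the local equations of the two components and every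
`Φ^Θ`, `Θ = (σ - Q)(σ - 1)`, is congruent to a unit of `P_𝔫` modulo `ϖ P_(ϖ)` (multiplicatively).
The ring-theoretic core is `stx_cross_abs` (`ST/Cross/Abs.lean`).
-/

set_option autoImplicit false
set_option linter.unusedSectionVars false
set_option linter.unusedVariables false
set_option linter.style.haveILetI false

noncomputable section

namespace Fermat.Agent.ST

open Polynomial IntermediateField AlgebraicCurve Fermat.Agent.S18 Fermat.Agent.SS IsLocalRing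

universe u

variable {A : Type*} [CommRing A] [IsDomain A] [IsDiscreteValuationRing A] [CharZero A]
variable {L : Type*} [Field L] [Algebra A L] [IsFractionRing A L]
variable {F : Type u} [Field F] [Algebra A F] [Algebra L F] [IsScalarTower A L F]
variable {ϖ : A}

/-- the unit property when `u`, `w` are the local equations of the two components -/
theorem stx_unit_of_sides (hϖ : Irreducible ϖ) (t : F) (ht : Transcendental L t)
    [FiniteDimensional L⟮t⟯ F]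
    {u₁ u₂ : F} {V₁ V₂ : ValuationSubring F} (h2 : SsvTwo hϖ t u₁ u₂ V₁ V₂)
    {Q : ℕ} {σ : SemilinearAut L F} (hσ : StFrob ϖ t V₁ V₂ Q σ)
    (𝔫 : Ideal ↥(s18tInt A t)) (h𝔫 : 𝔫.IsMaximal) (hϖ𝔫 : sskPi ϖ t ∈ 𝔫)
    (hres : StRes t 𝔫) (hon₁ : StOn V₁ t 𝔫) (hon₂ : StOn V₂ t 𝔫)
    (hfix : StPull t σ 𝔫 𝔫)
    (u w : F) (hu : SsInMax t 𝔫 u) (hw : SsInMax t 𝔫 w)
    (hgen : ∀ x : F, SsInMax t 𝔫 x → ∃ α β γ : F, SsInLoc t 𝔫 α ∧ SsInLoc t 𝔫 β ∧
      SsInLoc t 𝔫 γ ∧ x = α * algebraMap A F ϖ + β * u + γ * w)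
    (hu₁ : V₁.valuation u < 1) (hu₂ : V₂.valuation u = 1)
    (hw₁ : V₁.valuation w = 1) (hw₂ : V₂.valuation w < 1) :
    StUnitAt hϖ t Q σ 𝔫 := by
  haveI := h𝔫.isPrime
  haveI := ssl_locRing_isNoetherianRing (L := L) t ht 𝔫
  have hmem' : ∀ x : F, x ∈ s18tIntLoc A t (C ϖ) (s18t_prime_C hϖ) ↔ x ∈ V₂ ∧ x ∈ V₁ :=
    fun x => (h2.mem_iff x).trans and_comm
  have hπ₁ : V₁.valuation (algebraMap A F ϖ) < 1 := h2.unif₁.1
  have hπ₂ : V₂.valuation (algebraMap A F ϖ) < 1 := h2.unif₂.1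
  have hπB : algebraMap A F ϖ ∈ ssLocRing t 𝔫 :=
    ssl_int_le_locRing t 𝔫 (s18tc_algebraMap_mem_int t ϖ)
  have hle₁ : ssLocRing t 𝔫 ≤ V₁.toSubring := stx_loc_le hϖ t V₁ V₂ h2.mem_iff 𝔫 hon₁
  have hle₂ : ssLocRing t 𝔫 ≤ V₂.toSubring := stx_loc_le hϖ t V₂ V₁ hmem' 𝔫 hon₂
  have hval : ∀ (V : ValuationSubring F), ssLocRing t 𝔫 ≤ V.toSubring → ∀ c : F, SsInLoc t 𝔫 c →
      ∀ y : F, V.valuation y < 1 → V.valuation (c * y) < 1 := by
    intro V hV c hc y hy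
    rw [map_mul, mul_comm]
    exact mul_lt_one_of_lt_of_le hy ((V.valuation_le_one_iff _).mpr (hV hc))
  have side₁ : StxSide (ssLocRing t 𝔫) V₁ (algebraMap A F ϖ) w (SemilinearAut.toRingAut σ) := by
    refine stx_side hϖ t ht hσ 𝔫 hfix V₁ V₂ h2.mem_iff h2.unif₁ h2.unif₂ u₂
      ((ValuationSubring.mem_nonunits_iff _).mp h2.mem₂) h2.unit₂ hon₁ hσ.val₁ w hw hw₁ ?_
    intro x hx
    obtain ⟨α, β, γ, hα, hβ, hγ, hxe⟩ := hgen x hx
    refine ⟨γ, α * algebraMap A F ϖ + β * u, hγ,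
      Subring.add_mem _ (Subring.mul_mem _ hα hπB) (Subring.mul_mem _ hβ hu.inLoc),
      Valuation.map_add_lt _ (hval V₁ hle₁ α hα _ hπ₁) (hval V₁ hle₁ β hβ _ hu₁), ?_⟩
    rw [hxe]; ring
  have side₂ : StxSide (ssLocRing t 𝔫) V₂ (algebraMap A F ϖ) u (SemilinearAut.toRingAut σ) := by
    refine stx_side hϖ t ht hσ 𝔫 hfix V₂ V₁ hmem' h2.unif₂ h2.unif₁ u₁
      ((ValuationSubring.mem_nonunits_iff _).mp h2.mem₁) h2.unit₁ hon₂ hσ.val₂ u hu hu₂ ?_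
    intro x hx
    obtain ⟨α, β, γ, hα, hβ, hγ, hxe⟩ := hgen x hx
    refine ⟨β, α * algebraMap A F ϖ + γ * w, hβ,
      Subring.add_mem _ (Subring.mul_mem _ hα hπB) (Subring.mul_mem _ hγ hw.inLoc),
      Valuation.map_add_lt _ (hval V₂ hle₂ α hα _ hπ₂) (hval V₂ hle₂ γ hγ _ hw₂), ?_⟩
    rw [hxe]; ring
  intro Φ hΦ
  obtain ⟨ψ, hψ0, hψB, hψB', h₁, h₂⟩ := stx_cross_abs (ssLocRing t 𝔫) V₁ V₂ (algebraMap A F ϖ) u w
    (SemilinearAut.toRingAut σ) Q side₁ side₂ hu₁ hw₂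
    (fun x hx => hgen x ((stx_non_loc_iff x).mp hx))
    (fun b hb => (stx_non_loc_iff _).mpr (stx_frob_loc hσ hres hfix hϖ𝔫 hb)) Φ hΦ
  refine ⟨ψ, hψ0, hψB, hψB', ?_⟩
  rw [h2.dvd_iff]
  exact ⟨(ValuationSubring.mem_nonunits_iff _).mpr h₁, (ValuationSubring.mem_nonunits_iff _).mpr h₂⟩

/-- a crossing germ one of whose coordinates lies in `ϖ P_(ϖ)` is a smooth germ -/
theorem stx_smooth_of_dvd (hϖ : Irreducible ϖ) (t : F) (ht : Transcendental L t)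
    [FiniteDimensional L⟮t⟯ F] (G : Subgroup (SemilinearAut L F))
    (𝔫 : Ideal ↥(s18tInt A t)) [𝔫.IsPrime] (z' z : F) (hz' : SsInLoc t 𝔫 z') (hz : SsInMax t 𝔫 z)
    (hgen : ∀ x ∈ 𝔫, ∃ s : ↥(s18tInt A t), s ∉ 𝔫 ∧ ∃ a b c : ↥(s18tInt A t),
      (s : F) * (x : F) = (a : F) * algebraMap A F ϖ + (b : F) * z' + (c : F) * z)
    (hdvd : S18DvdGauss hϖ t z') : SsGermSmooth ϖ t G 𝔫 := by
  obtain ⟨y, hy, hz'y⟩ := hdvd
  obtain ⟨s', hs', hs'z'⟩ := hz'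
  -- `s' y ∈ P` by saturation
  have hs'y : (s' : F) * y ∈ s18tInt A t := by
    apply s18t_saturated hϖ t ht
    · exact Subring.mul_mem _ (s18tInt_le_intLoc hϖ t s'.2) hy
    · have e : algebraMap A F ϖ * ((s' : F) * y) = (s' : F) * z' := by rw [hz'y]; ring
      rw [e]
      exact hs'z'
  refine ⟨z, hz, fun x hx => ?_⟩
  obtain ⟨s, hs, a, b, c, hsx⟩ := hgen x hx
  refine ⟨s' * s, fun h => (Ideal.IsPrime.mem_or_mem inferInstance h).elim hs' hs,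
    s' * a + b * ⟨(s' : F) * y, hs'y⟩, s' * c, ?_⟩
  have e1 : ((s' * s : ↥(s18tInt A t)) : F) = (s' : F) * (s : F) := rfl
  have e2 : ((s' * a + b * ⟨(s' : F) * y, hs'y⟩ : ↥(s18tInt A t)) : F) =
      (s' : F) * (a : F) + (b : F) * ((s' : F) * y) := rfl
  have e3 : ((s' * c : ↥(s18tInt A t)) : F) = (s' : F) * (c : F) := rfl
  rw [e1, e2, e3, mul_assoc, hsx, hz'y]
  ring

/-- (T-cross) at a `σ`-stable closed point with residue field `A / ϖ`, lying on both components, with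
a crossing germ : either the germ degenerates to a smooth germ, or every `Φ^Θ` is congruent to a
unit of `P_𝔫` modulo `ϖ P_(ϖ)`. -/
theorem st_cross_unit (hϖ : Irreducible ϖ) (t : F) (ht : Transcendental L t)
    [FiniteDimensional L⟮t⟯ F]
    (G : Subgroup (SemilinearAut L F))
    {u₁ u₂ : F} {V₁ V₂ : ValuationSubring F} (h2 : SsvTwo hϖ t u₁ u₂ V₁ V₂)
    {Q : ℕ} {σ : SemilinearAut L F} (hσ : StFrob ϖ t V₁ V₂ Q σ)
    (𝔫 : Ideal ↥(s18tInt A t)) (h𝔫 : 𝔫.IsMaximal) (hϖ𝔫 : sskPi ϖ t ∈ 𝔫)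
    (hres : StRes t 𝔫) (hon₁ : StOn V₁ t 𝔫) (hon₂ : StOn V₂ t 𝔫)
    (hfix : StPull t σ 𝔫 𝔫)
    (hgerm : SsGermCross ϖ t G 𝔫) :
    SsGermSmooth ϖ t G 𝔫 ∨ StUnitAt hϖ t Q σ 𝔫 := by
  haveI := h𝔫.isPrime
  obtain ⟨u, w, hu0, hw0, -, -, hgen, κ, ρ, hρ0, hnode⟩ := hgerm 1
  have hu : SsInMax t 𝔫 u := hu0
  have hw : SsInMax t 𝔫 w := hw0
  have hρ : SsInLoc t 𝔫 ρ := hρ0
  rw [pow_one] at hnode
  have hmem' : ∀ x : F, x ∈ s18tIntLoc A t (C ϖ) (s18t_prime_C hϖ) ↔ x ∈ V₂ ∧ x ∈ V₁ :=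
    fun x => (h2.mem_iff x).trans and_comm
  have hle₁ : ssLocRing t 𝔫 ≤ V₁.toSubring := stx_loc_le hϖ t V₁ V₂ h2.mem_iff 𝔫 hon₁
  have hle₂ : ssLocRing t 𝔫 ≤ V₂.toSubring := stx_loc_le hϖ t V₂ V₁ hmem' 𝔫 hon₂
  have hπ₁ : V₁.valuation (algebraMap A F ϖ) < 1 := h2.unif₁.1
  have hπ₂ : V₂.valuation (algebraMap A F ϖ) < 1 := h2.unif₂.1
  have hinj := ssl_algebraMap_injective A L F
  have hs0 : ∀ s : ↥(s18tInt A t), s ∉ 𝔫 → (s : F) ≠ 0 := fun s hs h => hs (by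
    have : s = 0 := Subtype.ext h
    rw [this]; exact 𝔫.zero_mem)
  -- generation in fraction form
  have hgenF : ∀ x : F, SsInMax t 𝔫 x → ∃ α β γ : F, SsInLoc t 𝔫 α ∧ SsInLoc t 𝔫 β ∧
      SsInLoc t 𝔫 γ ∧ x = α * algebraMap A F ϖ + β * u + γ * w := by
    rintro x ⟨s', hs', p, hp, hs'x⟩
    obtain ⟨s, hs, a, b, c, hsp⟩ := hgen p hp
    have hss' : s * s' ∉ 𝔫 := fun h => (Ideal.IsPrime.mem_or_mem inferInstance h).elim hs hs'
    refine ⟨(a : F) / ((s * s' : ↥(s18tInt A t)) : F), (b : F) / ((s * s' : ↥(s18tInt A t)) : F),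
      (c : F) / ((s * s' : ↥(s18tInt A t)) : F), ssl_div_inLoc a _ hss', ssl_div_inLoc b _ hss',
      ssl_div_inLoc c _ hss', ?_⟩
    have e1 : ((s * s' : ↥(s18tInt A t)) : F) = (s : F) * (s' : F) := rfl
    have h1 := hs0 s hs
    have h2' := hs0 s' hs'
    rw [e1]
    field_simp
    rw [← hsp, ← hs'x]
    ring
  -- `ϖ ∣ κ`
  have huN : StxNon (ssLocRing t 𝔫) u := (stx_non_loc_iff u).mpr hu
  have hπN : StxNon (ssLocRing t 𝔫) (algebraMap A F ϖ) := (stx_non_loc_iff _).mpr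
    ⟨1, fun h => h𝔫.ne_top ((Ideal.eq_top_iff_one _).mpr h), sskPi ϖ t, hϖ𝔫, by
      rw [OneMemClass.coe_one, one_mul]; rfl⟩
  have hκN : StxNon (ssLocRing t 𝔫) (algebraMap A F κ) := by
    have e : algebraMap A F κ = w * u - ρ * algebraMap A F ϖ := by rw [mul_comm w u, hnode]; ring
    rw [e]
    exact (huN.mul_left hw.inLoc).sub (hπN.mul_left hρ)
  have hκ : ϖ ∣ κ := by
    by_contra hdvd
    have hunit : IsUnit κ := by
      rw [← IsLocalRing.notMem_maximalIdeal, hϖ.maximalIdeal_eq, Ideal.mem_span_singleton]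
      exact hdvd
    obtain ⟨c, hc⟩ := isUnit_iff_exists_inv.mp hunit
    exact hκN.2 (algebraMap A F c) (ssl_int_le_locRing t 𝔫 (s18tc_algebraMap_mem_int t c))
      (by rw [← map_mul, hc, map_one])
  obtain ⟨κ', rfl⟩ := hκ
  -- `u w = ϖ r`
  set r : F := algebraMap A F κ' + ρ with hr
  have hrB : SsInLoc t 𝔫 r :=
    Subring.add_mem (ssLocRing t 𝔫) (ssl_int_le_locRing t 𝔫 (s18tc_algebraMap_mem_int t κ')) hρ
  have huw : u * w = algebraMap A F ϖ * r := by rw [hnode, hr, map_mul]; ring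
  have hle : ∀ (V : ValuationSubring F), ssLocRing t 𝔫 ≤ V.toSubring → ∀ c : F, SsInLoc t 𝔫 c →
      V.valuation c ≤ 1 := fun V hV c hc => (V.valuation_le_one_iff _).mpr (hV hc)
  have hcase : ∀ (V : ValuationSubring F), ssLocRing t 𝔫 ≤ V.toSubring →
      V.valuation (algebraMap A F ϖ) < 1 → V.valuation u = 1 → V.valuation w < 1 := by
    intro V hV hπ hu1
    have h1 : V.valuation (u * w) < 1 := by
      rw [huw, map_mul]
      exact mul_lt_one_of_lt_of_le hπ (hle V hV r hrB)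
    rwa [map_mul, hu1, one_mul] at h1
  have heq : ∀ (V : ValuationSubring F), ssLocRing t 𝔫 ≤ V.toSubring → ∀ c : F, SsInLoc t 𝔫 c →
      ¬ V.valuation c < 1 → V.valuation c = 1 :=
    fun V hV c hc h => le_antisymm (hle V hV c hc) (not_lt.mp h)
  -- the swapped generation
  have hgen' : ∀ x ∈ 𝔫, ∃ s : ↥(s18tInt A t), s ∉ 𝔫 ∧ ∃ a b c : ↥(s18tInt A t),
      (s : F) * (x : F) = (a : F) * algebraMap A F ϖ + (b : F) * w + (c : F) * u := by
    intro x hx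
    obtain ⟨s, hs, a, b, c, hsx⟩ := hgen x hx
    exact ⟨s, hs, a, c, b, by rw [hsx]; ring⟩
  have hgenF' : ∀ x : F, SsInMax t 𝔫 x → ∃ α β γ : F, SsInLoc t 𝔫 α ∧ SsInLoc t 𝔫 β ∧
      SsInLoc t 𝔫 γ ∧ x = α * algebraMap A F ϖ + β * w + γ * u := by
    intro x hx
    obtain ⟨α, β, γ, hα, hβ, hγ, hxe⟩ := hgenF x hx
    exact ⟨α, γ, β, hα, hγ, hβ, by rw [hxe]; ring⟩
  by_cases hu1 : V₁.valuation u < 1
  · by_cases hu2 : V₂.valuation u < 1
    · -- `u ∈ ϖ P_(ϖ)`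
      left
      exact stx_smooth_of_dvd hϖ t ht G 𝔫 u w hu.inLoc hw hgen ((h2.dvd_iff u).mpr
        ⟨(ValuationSubring.mem_nonunits_iff _).mpr hu1, (ValuationSubring.mem_nonunits_iff _).mpr hu2⟩)
    · have hu2' : V₂.valuation u = 1 := heq V₂ hle₂ u hu.inLoc hu2
      have hw2 : V₂.valuation w < 1 := hcase V₂ hle₂ hπ₂ hu2'
      by_cases hw1 : V₁.valuation w < 1
      · left
        exact stx_smooth_of_dvd hϖ t ht G 𝔫 w u hw.inLoc hu hgen' ((h2.dvd_iff w).mpr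
          ⟨(ValuationSubring.mem_nonunits_iff _).mpr hw1,
            (ValuationSubring.mem_nonunits_iff _).mpr hw2⟩)
      · right
        exact stx_unit_of_sides hϖ t ht h2 hσ 𝔫 h𝔫 hϖ𝔫 hres hon₁ hon₂ hfix u w hu hw hgenF hu1 hu2'
          (heq V₁ hle₁ w hw.inLoc hw1) hw2
  · have hu1' : V₁.valuation u = 1 := heq V₁ hle₁ u hu.inLoc hu1
    have hw1 : V₁.valuation w < 1 := hcase V₁ hle₁ hπ₁ hu1'
    by_cases hw2 : V₂.valuation w < 1
    · left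
      exact stx_smooth_of_dvd hϖ t ht G 𝔫 w u hw.inLoc hu hgen' ((h2.dvd_iff w).mpr
        ⟨(ValuationSubring.mem_nonunits_iff _).mpr hw1,
          (ValuationSubring.mem_nonunits_iff _).mpr hw2⟩)
    · right
      have hw2' : V₂.valuation w = 1 := heq V₂ hle₂ w hw.inLoc hw2
      have hu2 : V₂.valuation u < 1 := by
        have h1 : V₂.valuation (u * w) < 1 := by
          rw [huw, map_mul]
          exact mul_lt_one_of_lt_of_le hπ₂ (hle V₂ hle₂ r hrB)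
        rwa [map_mul, hw2', mul_one] at h1
      exact stx_unit_of_sides hϖ t ht h2 hσ 𝔫 h𝔫 hϖ𝔫 hres hon₁ hon₂ hfix w u hw hu hgenF' hw1 hw2'
        hu1' hu2

end Fermat.Agent.ST
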