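import Mathlib
import Fermat.Agent.ST.Defs
import Fermat.Agent.SS.Loc.Germ
import Fermat.Agent.SS.Loc.GermNF
import Fermat.Agent.SS.NF.Loc
import Fermat.Agent.SS.K.Krull
import Fermat.Agent.SS.Germ.Res

/-!
# Program T (S35), leaf ST/Smooth : smooth germs (no `σ`)

* `st_smooth` : at a closed point `𝔫` with a SMOOTH germ `𝔫 P_𝔫 = (ϖ, z)`, a function
  `g ≡ 1 mod ϖ P_(ϖ)` whose divisor is `n ·`(rational places) has the local datum `StDivAt` :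
  `r = ∏ (1 - z(R)/z)^{ord_R g / n}` (product over the rational places `R` of the support centred at
  `𝔫`), the local degree `∑ ord_R g / n` being `0` (DEG, from `g ≡ 1` + KRULL).  The coordinate `z` is
  first adjusted so that `z⁻¹ ∈ V₁ ∩ V₂`.
* `st_smooth_of_cross` : a crossing germ at a closed point lying on ONE component only is a smooth
  germ.
-/

set_option autoImplicit false
set_option linter.unusedSectionVars false
set_option linter.unusedVariables false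
set_option linter.style.haveILetI false

noncomputable section

namespace Fermat.Agent.ST

open Polynomial IntermediateField AlgebraicCurve Fermat.Agent.S18 Fermat.Agent.SS Fermat.Agent.S24
  IsLocalRing

/-! ### `1 + 𝔪_V` -/

section One

variable {F : Type*} [Field F] (V : ValuationSubring F)

/-- `x ∈ 1 + 𝔪_V` -/
def StsOne (x : F) : Prop := x - 1 ∈ V.nonunits

theorem stsOne_one : StsOne V (1 : F) := by
  unfold StsOne
  rw [sub_self, V.mem_nonunits_iff, map_zero]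
  exact zero_lt_one

theorem StsOne.mem {V : ValuationSubring F} {x : F} (h : StsOne V x) : x ∈ V := by
  have : x = (x - 1) + 1 := by ring
  rw [this]
  exact V.add_mem _ _ (ssgr_nu_mem V h) V.one_mem

theorem StsOne.not_nonunit {V : ValuationSubring F} {x : F} (h : StsOne V x) :
    x ∉ V.nonunits := by
  intro hx
  have h1 : (1 : F) ∈ V.nonunits := by
    have := ssgr_nu_sub V hx h
    rwa [sub_sub_cancel] at this
  rw [V.mem_nonunits_iff, map_one] at h1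
  exact lt_irrefl _ h1

theorem StsOne.ne_zero {V : ValuationSubring F} {x : F} (h : StsOne V x) : x ≠ 0 := by
  rintro rfl
  apply h.not_nonunit
  rw [V.mem_nonunits_iff, map_zero]
  exact zero_lt_one

/-- an element of `V` which is not a non-unit has its inverse in `V` -/
theorem sts_inv_mem {x : F} (hx : x ∉ V.nonunits) : x⁻¹ ∈ V := by
  rw [V.mem_nonunits_iff, not_lt] at hx
  rw [← V.valuation_le_one_iff, map_inv₀]
  exact inv_le_one_of_one_le₀ hx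

/-- `x⁻¹ ∈ V`, `x ≠ 0` : `x` is not a non-unit -/
theorem sts_not_nonunit_of_inv {x : F} (hx0 : x ≠ 0) (hx : x⁻¹ ∈ V) : x ∉ V.nonunits := by
  intro h
  have h1 : x * x⁻¹ ∈ V.nonunits := ssgr_nu_mul_left V h hx
  rw [mul_inv_cancel₀ hx0, V.mem_nonunits_iff, map_one] at h1
  exact lt_irrefl _ h1

/-- integral powers of a unit of `V` lie in `V` -/
theorem sts_zpow_mem {x : F} (hx : x ∈ V) (hx' : x⁻¹ ∈ V) (k : ℤ) : x ^ k ∈ V := by
  rcases Int.eq_nat_or_neg k with ⟨m, rfl | rfl⟩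
  · rw [zpow_natCast]; exact pow_mem hx m
  · rw [zpow_neg, zpow_natCast, ← inv_pow]; exact pow_mem hx' m

theorem StsOne.mul {V : ValuationSubring F} {x y : F} (hx : StsOne V x) (hy : StsOne V y) :
    StsOne V (x * y) := by
  unfold StsOne
  have e : x * y - 1 = (x - 1) * y + (y - 1) := by ring
  rw [e]
  exact ssgr_nu_add V (ssgr_nu_mul_left V hx hy.mem) hy

theorem StsOne.inv {V : ValuationSubring F} {x : F} (hx : StsOne V x) : StsOne V x⁻¹ := by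
  unfold StsOne
  have hx0 := hx.ne_zero
  have e : x⁻¹ - 1 = -((x - 1) * x⁻¹) := by field_simp; ring
  rw [e]
  exact ssgr_nu_neg V (ssgr_nu_mul_left V hx (sts_inv_mem V hx.not_nonunit))

theorem StsOne.pow {V : ValuationSubring F} {x : F} (hx : StsOne V x) (k : ℕ) :
    StsOne V (x ^ k) := by
  induction k with
  | zero => rw [pow_zero]; exact stsOne_one V
  | succ k ih => rw [pow_succ]; exact ih.mul hx

theorem StsOne.zpow {V : ValuationSubring F} {x : F} (hx : StsOne V x) (k : ℤ) :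
    StsOne V (x ^ k) := by
  rcases Int.eq_nat_or_neg k with ⟨m, rfl | rfl⟩
  · rw [zpow_natCast]; exact hx.pow m
  · rw [zpow_neg, zpow_natCast]; exact (hx.pow m).inv

theorem stsOne_prod {V : ValuationSubring F} {ι : Type*} (S : Finset ι) (f : ι → F)
    (hf : ∀ i ∈ S, StsOne V (f i)) : StsOne V (∏ i ∈ S, f i) := by
  classical
  induction S using Finset.induction_on with
  | empty => rw [Finset.prod_empty]; exact stsOne_one V
  | insert i S hi ih =>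
    rw [Finset.prod_insert hi]
    exact (hf i (Finset.mem_insert_self i S)).mul
      (ih fun j hj => hf j (Finset.mem_insert_of_mem hj))

end One

universe u

variable {A : Type*} [CommRing A] [IsDomain A] [IsDiscreteValuationRing A] [CharZero A]
variable {L : Type*} [Field L] [Algebra A L] [IsFractionRing A L]
variable {F : Type u} [Field F] [Algebra A F] [Algebra L F] [IsScalarTower A L F]
variable {ϖ : A}

/-! ### consequences of `SsvTwo` -/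

section Two

variable {hϖ : Irreducible ϖ} {t : F} {u₁ u₂ : F} {V₁ V₂ : ValuationSubring F}

theorem sts_intLoc_le₁ (h2 : SsvTwo hϖ t u₁ u₂ V₁ V₂) {x : F}
    (hx : x ∈ s18tIntLoc A t (C ϖ) (s18t_prime_C hϖ)) : x ∈ V₁ := ((h2.mem_iff x).mp hx).1

theorem sts_intLoc_le₂ (h2 : SsvTwo hϖ t u₁ u₂ V₁ V₂) {x : F}
    (hx : x ∈ s18tIntLoc A t (C ϖ) (s18t_prime_C hϖ)) : x ∈ V₂ := ((h2.mem_iff x).mp hx).2

theorem sts_int_le₁ (h2 : SsvTwo hϖ t u₁ u₂ V₁ V₂) : ∀ x ∈ s18tInt A t, x ∈ V₁ :=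
  fun x hx => sts_intLoc_le₁ h2 (s18tInt_le_intLoc hϖ t hx)

theorem sts_int_le₂ (h2 : SsvTwo hϖ t u₁ u₂ V₁ V₂) : ∀ x ∈ s18tInt A t, x ∈ V₂ :=
  fun x hx => sts_intLoc_le₂ h2 (s18tInt_le_intLoc hϖ t hx)

theorem sts_unif_mem {V : ValuationSubring F} {π : F} (h : S18IsUnif V π) : π ∈ V.nonunits :=
  (V.mem_nonunits_iff).mpr h.1

/-- a non-unit is divisible by the uniformiser -/
theorem sts_div_unif_mem {V : ValuationSubring F} {π : F} (h : S18IsUnif V π) (hπ0 : π ≠ 0)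
    {x : F} (hx : x ∈ V.nonunits) : x / π ∈ V := by
  rw [← V.valuation_le_one_iff, map_div₀]
  have h4 : V.valuation π ≠ 0 := (Valuation.ne_zero_iff _).mpr hπ0
  exact (div_le_one₀ (zero_lt_iff.mpr h4)).mpr (h.2 x ((V.mem_nonunits_iff).mp hx))

theorem sts_unif_ne_zero (L : Type*) [Field L] [Algebra A L] [IsFractionRing A L] [Algebra L F]
    [IsScalarTower A L F] (hϖ : Irreducible ϖ) : algebraMap A F ϖ ≠ 0 := fun h0 =>
  hϖ.ne_zero (ssl_algebraMap_injective A L F (by rw [h0, map_zero]))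

/-- ARCHIMEDEAN : every element of `F` is in `P_(ϖ)` after multiplication by a power of `ϖ`. -/
theorem sts_exists_pow_mul_mem (hϖ : Irreducible ϖ) (t : F) (ht : Transcendental L t)
    [FiniteDimensional L⟮t⟯ F] (x : F) :
    ∃ k : ℕ, algebraMap A F ϖ ^ k * x ∈ s18tIntLoc A t (C ϖ) (s18t_prime_C hϖ) := by
  obtain ⟨r, hr0, hr⟩ := s18tlg_exists_multiple_mem_int (A := A) ht x
  obtain ⟨k, r', hr', hrr⟩ := WfDvdMonoid.max_power_factor hr0 (s18t_prime_C hϖ).irreducible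
  refine ⟨k, (s18t_intLoc_iff hϖ t _).mpr ⟨r', hr', ?_⟩⟩
  rw [hrr, map_mul, map_pow, aeval_C] at hr
  have e : aeval t r' * (algebraMap A F ϖ ^ k * x) = algebraMap A F ϖ ^ k * aeval t r' * x := by
    ring
  rw [e]
  exact hr

/-- `𝔭₁ 𝔭₂ ⊆ ϖ P` (saturation) -/
theorem sts_mul_mem (h2 : SsvTwo hϖ t u₁ u₂ V₁ V₂) (ht : Transcendental L t)
    [FiniteDimensional L⟮t⟯ F] {b₁ b₂ : ↥(s18tInt A t)} (h₁ : (b₁ : F) ∈ V₁.nonunits)
    (h₂ : (b₂ : F) ∈ V₂.nonunits) : ∃ y : ↥(s18tInt A t), b₁ * b₂ = sskPi ϖ t * y := by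
  have h3 : (b₁ : F) * (b₂ : F) ∈ V₁.nonunits := ssgr_nu_mul_left V₁ h₁ (sts_int_le₁ h2 _ b₂.2)
  have h4 : (b₁ : F) * (b₂ : F) ∈ V₂.nonunits := ssgr_nu_mul_right V₂ (sts_int_le₂ h2 _ b₁.2) h₂
  obtain ⟨y, hy, hyb⟩ := (h2.dvd_iff _).mpr ⟨h3, h4⟩
  have hy' : y ∈ s18tInt A t := by
    apply s18t_saturated (L := L) hϖ t ht y hy
    rw [← hyb]
    exact Subring.mul_mem _ b₁.2 b₂.2
  exact ⟨⟨y, hy'⟩, Subtype.ext hyb⟩

/-- every closed point `∋ ϖ` lies on one of the two components -/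
theorem sts_on_or (h2 : SsvTwo hϖ t u₁ u₂ V₁ V₂) (ht : Transcendental L t)
    [FiniteDimensional L⟮t⟯ F] (𝔫 : Ideal ↥(s18tInt A t)) [h𝔫 : 𝔫.IsPrime]
    (hϖ𝔫 : sskPi ϖ t ∈ 𝔫) : StOn V₁ t 𝔫 ∨ StOn V₂ t 𝔫 := by
  by_contra hcon
  rw [not_or] at hcon
  obtain ⟨hc1, hc2⟩ := hcon
  unfold StOn at hc1 hc2
  push Not at hc1 hc2
  obtain ⟨b₁, hb₁, hb₁𝔫⟩ := hc1
  obtain ⟨b₂, hb₂, hb₂𝔫⟩ := hc2
  obtain ⟨y, hy⟩ := sts_mul_mem h2 ht hb₁ hb₂
  have : b₁ * b₂ ∈ 𝔫 := by rw [hy]; exact 𝔫.mul_mem_right _ hϖ𝔫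
  exact (h𝔫.mem_or_mem this).elim hb₁𝔫 hb₂𝔫

/-- a rational place centred at `𝔫` gives an element of `𝔫` which is a unit of `P_(ϖ)` -/
theorem sts_exists_tau (h2 : SsvTwo hϖ t u₁ u₂ V₁ V₂) (ht : Transcendental L t)
    {𝔫 : Ideal ↥(s18tInt A t)} [h𝔫 : 𝔫.IsPrime] {R : ValuationSubring F}
    (hR : SsPoint L ϖ t 𝔫 R) :
    ∃ τ : ↥(s18tInt A t), τ ∈ 𝔫 ∧ (τ : F) ∉ V₁.nonunits ∧ (τ : F) ∉ V₂.nonunits := by
  set tO : ↥(ssLocRing t 𝔫) := ⟨t, ssl_int_le_locRing t 𝔫 (s18tc_self_mem_int t)⟩ with htO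
  set a : A := sslEv hR tO with ha
  have hspec : R.valuation (t - algebraMap A F a) < 1 := sslEv_spec hR tO
  have hτP : t - algebraMap A F a ∈ s18tInt A t :=
    Subring.sub_mem _ (s18tc_self_mem_int t) (s18tc_algebraMap_mem_int t a)
  have hτ0 : t - algebraMap A F a ≠ 0 := by
    intro h0
    apply ht
    have : t = algebraMap L F (algebraMap A L a) := by
      rw [← IsScalarTower.algebraMap_apply A L F]; exact sub_eq_zero.mp h0
    rw [this]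
    exact isAlgebraic_algebraMap _
  have hinv : (t - algebraMap A F a)⁻¹ ∈ s18tIntLoc A t (C ϖ) (s18t_prime_C hϖ) := by
    apply s18tc_loc_le_intLoc
    refine ⟨1, X - C a, ?_, ?_⟩
    · intro hdvd
      have h1 := (Polynomial.C_dvd_iff_dvd_coeff _ _).mp hdvd 1
      rw [Polynomial.coeff_sub, Polynomial.coeff_X_one, Polynomial.coeff_C_succ, sub_zero] at h1
      exact hϖ.not_isUnit (isUnit_of_dvd_one h1)
    · rw [map_sub, aeval_X, aeval_C, map_one, inv_mul_cancel₀ hτ0]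
  refine ⟨⟨t - algebraMap A F a, hτP⟩, hR.centred.2 _ hspec, ?_, ?_⟩
  · exact sts_not_nonunit_of_inv V₁ hτ0 (sts_intLoc_le₁ h2 hinv)
  · exact sts_not_nonunit_of_inv V₂ hτ0 (sts_intLoc_le₂ h2 hinv)

end Two

/-! ### the local ring `P_𝔫` and a component through `𝔫` -/

section Loc

variable {t : F} {𝔫 : Ideal ↥(s18tInt A t)} [h𝔫 : 𝔫.IsPrime] {V : ValuationSubring F}

/-- `P_𝔫 ⊆ V` if `𝔫` lies on the component `V` -/
theorem sts_loc_mem (hPV : ∀ x ∈ s18tInt A t, x ∈ V) (hon : StOn V t 𝔫) {x : F}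
    (hx : SsInLoc t 𝔫 x) : x ∈ V := by
  obtain ⟨s, hs, hsx⟩ := hx
  have hsV : (s : F) ∉ V.nonunits := fun h => hs (hon s h)
  have hs0 : (s : F) ≠ 0 := fun h => hs (by
    have : s = 0 := Subtype.ext h
    rw [this]; exact 𝔫.zero_mem)
  have e : x = (s : F)⁻¹ * ((s : F) * x) := by
    rw [← mul_assoc, inv_mul_cancel₀ hs0, one_mul]
  rw [e]
  exact V.mul_mem _ _ (sts_inv_mem V hsV) (hPV _ hsx)

/-- `P_𝔫 ∩ 𝔪_V ⊆ 𝔫 P_𝔫` if `𝔫` lies on the component `V` -/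
theorem sts_inMax_of_nonunit (hPV : ∀ x ∈ s18tInt A t, x ∈ V) (hon : StOn V t 𝔫) {x : F}
    (hx : SsInLoc t 𝔫 x) (hxV : x ∈ V.nonunits) : SsInMax t 𝔫 x := by
  obtain ⟨s, hs, hsx⟩ := hx
  exact ⟨s, hs, ⟨(s : F) * x, hsx⟩, hon _ (ssgr_nu_mul_right V (hPV s s.2) hxV), rfl⟩

theorem sts_inMax_add {x y : F} (hx : SsInMax t 𝔫 x) (hy : SsInMax t 𝔫 y) :
    SsInMax t 𝔫 (x + y) := by
  have h1 := (ssl_mem_maximalIdeal t 𝔫 (⟨x, hx.inLoc⟩ : ↥(ssLocRing t 𝔫))).mpr hx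
  have h2 := (ssl_mem_maximalIdeal t 𝔫 (⟨y, hy.inLoc⟩ : ↥(ssLocRing t 𝔫))).mpr hy
  exact (ssl_mem_maximalIdeal t 𝔫 _).mp ((maximalIdeal ↥(ssLocRing t 𝔫)).add_mem h1 h2)

theorem sts_inMax_sub {x y : F} (hx : SsInMax t 𝔫 x) (hy : SsInMax t 𝔫 y) :
    SsInMax t 𝔫 (x - y) := by
  have h1 := (ssl_mem_maximalIdeal t 𝔫 (⟨x, hx.inLoc⟩ : ↥(ssLocRing t 𝔫))).mpr hx
  have h2 := (ssl_mem_maximalIdeal t 𝔫 (⟨y, hy.inLoc⟩ : ↥(ssLocRing t 𝔫))).mpr hy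
  exact (ssl_mem_maximalIdeal t 𝔫 _).mp ((maximalIdeal ↥(ssLocRing t 𝔫)).sub_mem h1 h2)

theorem sts_inMax_mul {x y : F} (hx : SsInLoc t 𝔫 x) (hy : SsInMax t 𝔫 y) :
    SsInMax t 𝔫 (x * y) := by
  have h2 := (ssl_mem_maximalIdeal t 𝔫 (⟨y, hy.inLoc⟩ : ↥(ssLocRing t 𝔫))).mpr hy
  exact (ssl_mem_maximalIdeal t 𝔫 _).mp
    ((maximalIdeal ↥(ssLocRing t 𝔫)).mul_mem_left (⟨x, hx⟩ : ↥(ssLocRing t 𝔫)) h2)

theorem sts_inMax_pow {x : F} (hx : SsInMax t 𝔫 x) {e : ℕ} (he : e ≠ 0) :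
    SsInMax t 𝔫 (x ^ e) := by
  obtain ⟨k, rfl⟩ := Nat.exists_eq_succ_of_ne_zero he
  rw [pow_succ]
  exact sts_inMax_mul ((ssLocRing t 𝔫).pow_mem hx.inLoc k) hx

theorem sts_not_inMax_one : ¬ SsInMax t 𝔫 (1 : F) := by
  intro h
  have h1 := (ssl_mem_maximalIdeal t 𝔫 (1 : ↥(ssLocRing t 𝔫))).mpr h
  exact (Ideal.ne_top_iff_one _).mp (maximalIdeal.isMaximal ↥(ssLocRing t 𝔫)).ne_top h1

/-- (DEG, positive degree is impossible) -/
theorem sts_deg_pos_false (hPV : ∀ x ∈ s18tInt A t, x ∈ V) (hon : StOn V t 𝔫) {z y₀ : F}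
    (hz : SsInMax t 𝔫 z) (hy₀ : SsInLoc t 𝔫 y₀) {e : ℕ} (he : e ≠ 0)
    (h1 : StsOne V (y₀ * z ^ e)) : False := by
  have h2 : SsInMax t 𝔫 (y₀ * z ^ e) := sts_inMax_mul hy₀ (sts_inMax_pow hz he)
  have h3 : SsInMax t 𝔫 (y₀ * z ^ e - 1) :=
    sts_inMax_of_nonunit hPV hon
      ((ssLocRing t 𝔫).sub_mem h2.inLoc (ssLocRing t 𝔫).one_mem) h1
  have h4 := sts_inMax_sub h2 h3
  rw [sub_sub_cancel] at h4
  exact sts_not_inMax_one h4

/-- (DEG, negative degree is impossible) -/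
theorem sts_deg_neg_false (hPV : ∀ x ∈ s18tInt A t, x ∈ V) (hon : StOn V t 𝔫) {z y₀ : F}
    (hz : SsInMax t 𝔫 z) (hz0 : z ≠ 0) (hy₀ : SsInLoc t 𝔫 y₀) (hy₀' : SsInLoc t 𝔫 y₀⁻¹)
    (hy₀0 : y₀ ≠ 0) {e : ℕ} (he : e ≠ 0) (h1 : StsOne V (y₀ / z ^ e)) : False := by
  have hze : SsInMax t 𝔫 (z ^ e) := sts_inMax_pow hz he
  have hzeV : z ^ e ∈ V := sts_loc_mem hPV hon hze.inLoc
  have h2 : y₀ - z ^ e ∈ V.nonunits := by
    have e1 : y₀ - z ^ e = z ^ e * (y₀ / z ^ e - 1) := by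
      have : z ^ e ≠ 0 := pow_ne_zero _ hz0
      field_simp
    rw [e1]
    exact ssgr_nu_mul_right V hzeV h1
  have h3 : SsInMax t 𝔫 (y₀ - z ^ e) :=
    sts_inMax_of_nonunit hPV hon ((ssLocRing t 𝔫).sub_mem hy₀ hze.inLoc) h2
  have h4 : SsInMax t 𝔫 y₀ := by
    have := sts_inMax_add h3 hze
    rwa [sub_add_cancel] at this
  have h5 := sts_inMax_mul hy₀' h4
  rw [inv_mul_cancel₀ hy₀0] at h5
  exact sts_not_inMax_one h5

/-- (DEG) the degree is zero -/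
theorem sts_deg_zero (hPV : ∀ x ∈ s18tInt A t, x ∈ V) (hon : StOn V t 𝔫) {z y₁ : F}
    (hz : SsInMax t 𝔫 z) (hz0 : z ≠ 0) (hy₁ : StsOne V y₁) (m : ℤ)
    (hy₀ : SsInLoc t 𝔫 (y₁ / z ^ m)) (hy₀' : SsInLoc t 𝔫 (y₁ / z ^ m)⁻¹) : m = 0 := by
  rcases lt_trichotomy m 0 with hneg | h0 | hpos
  · exfalso
    obtain ⟨e, he⟩ : ∃ e : ℕ, m = -(e : ℤ) := ⟨(-m).toNat, by omega⟩
    have he0 : e ≠ 0 := by
      rintro rfl
      simp at he
      omega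
    subst he
    have e1 : y₁ / z ^ (-(e : ℤ)) = y₁ * z ^ e := by
      rw [zpow_neg, zpow_natCast, div_inv_eq_mul]
    rw [e1] at hy₀ hy₀'
    apply sts_deg_neg_false hPV hon hz hz0 hy₀ hy₀'
      (mul_ne_zero hy₁.ne_zero (pow_ne_zero _ hz0)) he0
    rw [mul_div_assoc, div_self (pow_ne_zero _ hz0), mul_one]
    exact hy₁
  · exact h0
  · exfalso
    obtain ⟨e, he⟩ : ∃ e : ℕ, m = (e : ℤ) := ⟨m.toNat, by omega⟩
    have he0 : e ≠ 0 := by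
      rintro rfl
      simp at he
      omega
    subst he
    rw [zpow_natCast] at hy₀
    apply sts_deg_pos_false hPV hon hz hy₀ he0
    rw [div_mul_cancel₀ _ (pow_ne_zero _ hz0)]
    exact hy₁

/-- changing a smooth coordinate by an element of `ϖ P_𝔫` -/
theorem sts_gen_add {z : F} (hgen : SsGen ϖ t 𝔫 z 0) (hϖ𝔫 : sskPi ϖ t ∈ 𝔫) {c : F}
    (hc : SsInLoc t 𝔫 c) : SsGen ϖ t 𝔫 (z + algebraMap A F ϖ * c) 0 := by
  have hϖmax : SsInMax t 𝔫 (algebraMap A F ϖ) :=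
    (ssl_mem_maximalIdeal t 𝔫 (sslConst t 𝔫 ϖ)).mp (ssl_const_mem_max t 𝔫 hϖ𝔫)
  refine ⟨sts_inMax_add hgen.1 ?_, hgen.2.1, fun p hp => ?_⟩
  · have := sts_inMax_mul hc hϖmax
    rwa [mul_comm] at this
  · obtain ⟨x, y, z', hx, hy, hz', hp⟩ := hgen.2.2 p hp
    refine ⟨x - y * c, y, z', (ssLocRing t 𝔫).sub_mem hx ((ssLocRing t 𝔫).mul_mem hy hc), hy, hz',
      ?_⟩
    rw [hp]; ring

/-- a smooth coordinate is a unit along a component through `𝔫` (as soon as `𝔫` is not the generic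
point of the component) -/
theorem sts_coord_not_nonunit (hPV : ∀ x ∈ s18tInt A t, x ∈ V) (hon : StOn V t 𝔫)
    (hϖV : algebraMap A F ϖ ∈ V.nonunits) {z : F} (hgen : SsGen ϖ t 𝔫 z 0)
    {τ : ↥(s18tInt A t)} (hτ : τ ∈ 𝔫) (hτV : (τ : F) ∉ V.nonunits) : z ∉ V.nonunits := by
  intro hz
  obtain ⟨x, y, z', hx, hy, hz', hp⟩ := hgen.2.2 τ hτ
  apply hτV
  rw [hp, mul_zero, add_zero]
  exact ssgr_nu_add V (ssgr_nu_mul_right V (sts_loc_mem hPV hon hx) hϖV)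
    (ssgr_nu_mul_right V (sts_loc_mem hPV hon hy) hz)

/-- a smooth coordinate which is a non-unit at neither of two valuation rings, one of which is a
component through `𝔫` -/
theorem sts_coord_aux (L : Type*) [Field L] [Algebra A L] [IsFractionRing A L] [Algebra L F]
    [IsScalarTower A L F] (hϖ : Irreducible ϖ) (V V' : ValuationSubring F)
    (hPV : ∀ x ∈ s18tInt A t, x ∈ V) (hPV' : ∀ x ∈ s18tInt A t, x ∈ V') (hon : StOn V t 𝔫)
    (hunif : S18IsUnif V (algebraMap A F ϖ)) (hunif' : S18IsUnif V' (algebraMap A F ϖ))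
    (hϖ𝔫 : sskPi ϖ t ∈ 𝔫) {z₀ : F} (hgen₀ : SsGen ϖ t 𝔫 z₀ 0)
    {τ : ↥(s18tInt A t)} (hτ : τ ∈ 𝔫) (hτV : (τ : F) ∉ V.nonunits)
    (hτV' : (τ : F) ∉ V'.nonunits) :
    ∃ z : F, SsGen ϖ t 𝔫 z 0 ∧ z ∉ V.nonunits ∧ z ∉ V'.nonunits := by
  have hϖ0 : algebraMap A F ϖ ≠ 0 := sts_unif_ne_zero L hϖ
  by_cases hon' : StOn V' t 𝔫
  · exact ⟨z₀, hgen₀, sts_coord_not_nonunit hPV hon (sts_unif_mem hunif) hgen₀ hτ hτV,
      sts_coord_not_nonunit hPV' hon' (sts_unif_mem hunif') hgen₀ hτ hτV'⟩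
  by_cases hz : z₀ ∈ V'.nonunits
  · unfold StOn at hon'
    push Not at hon'
    obtain ⟨b, hbV', hb𝔫⟩ := hon'
    have hb0 : (b : F) ≠ 0 := fun h => hb𝔫 (by
      have : b = 0 := Subtype.ext h
      rw [this]; exact 𝔫.zero_mem)
    have hbinv : SsInLoc t 𝔫 (b : F)⁻¹ :=
      ⟨b, hb𝔫, by rw [mul_inv_cancel₀ hb0]; exact Subring.one_mem _⟩
    have hgen := sts_gen_add hgen₀ hϖ𝔫 hbinv
    refine ⟨_, hgen, sts_coord_not_nonunit hPV hon (sts_unif_mem hunif) hgen hτ hτV, ?_⟩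
    intro hcon
    have h1 : algebraMap A F ϖ * (b : F)⁻¹ ∈ V'.nonunits := by
      have := ssgr_nu_sub V' hcon hz
      rwa [add_sub_cancel_left] at this
    have h2 : (b : F) / algebraMap A F ϖ ∈ V' := sts_div_unif_mem hunif' hϖ0 hbV'
    have h3 := ssgr_nu_mul_left V' h1 h2
    have e : algebraMap A F ϖ * (b : F)⁻¹ * ((b : F) / algebraMap A F ϖ) = 1 := by
      field_simp
    rw [e, V'.mem_nonunits_iff, map_one] at h3
    exact lt_irrefl _ h3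
  · exact ⟨z₀, hgen₀, sts_coord_not_nonunit hPV hon (sts_unif_mem hunif) hgen₀ hτ hτV, hz⟩

end Loc

/-! ### the good coordinate, KRULL, the cutting functions -/

section Main

variable {hϖ : Irreducible ϖ} {t : F} {u₁ u₂ : F} {V₁ V₂ : ValuationSubring F}

/-- a smooth coordinate `z` with `z ∉ 𝔪_{V₁} ∪ 𝔪_{V₂}` -/
theorem sts_exists_coord (h2 : SsvTwo hϖ t u₁ u₂ V₁ V₂) (ht : Transcendental L t)
    [FiniteDimensional L⟮t⟯ F] (𝔫 : Ideal ↥(s18tInt A t)) [h𝔫 : 𝔫.IsPrime]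
    (hϖ𝔫 : sskPi ϖ t ∈ 𝔫) {z₀ : F} (hgen₀ : SsGen ϖ t 𝔫 z₀ 0)
    {τ : ↥(s18tInt A t)} (hτ : τ ∈ 𝔫) (hτV₁ : (τ : F) ∉ V₁.nonunits)
    (hτV₂ : (τ : F) ∉ V₂.nonunits) :
    ∃ z : F, SsGen ϖ t 𝔫 z 0 ∧ z ∉ V₁.nonunits ∧ z ∉ V₂.nonunits := by
  rcases sts_on_or h2 ht 𝔫 hϖ𝔫 with hon | hon
  · exact sts_coord_aux L hϖ V₁ V₂ (sts_int_le₁ h2) (sts_int_le₂ h2) hon h2.unif₁ h2.unif₂ hϖ𝔫
      hgen₀ hτ hτV₁ hτV₂
  · obtain ⟨z, hz, hz2, hz1⟩ := sts_coord_aux L hϖ V₂ V₁ (sts_int_le₂ h2) (sts_int_le₁ h2) hon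
      h2.unif₂ h2.unif₁ hϖ𝔫 hgen₀ hτ hτV₂ hτV₁
    exact ⟨z, hz, hz1, hz2⟩

/-- a multiplier `c ∈ P ∖ 𝔫` with `c x ∈ V` -/
theorem sts_exists_mult (hϖ : Irreducible ϖ) (t : F) (ht : Transcendental L t)
    [FiniteDimensional L⟮t⟯ F] (𝔫 : Ideal ↥(s18tInt A t)) [h𝔫 : 𝔫.IsPrime]
    (V : ValuationSubring F)
    (hV : ∀ y ∈ s18tIntLoc A t (C ϖ) (s18t_prime_C hϖ), y ∈ V)
    (hunif : S18IsUnif V (algebraMap A F ϖ)) (x : F) (hx : StOn V t 𝔫 → x ∈ V) :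
    ∃ c : ↥(s18tInt A t), c ∉ 𝔫 ∧ ∀ c' : ↥(s18tInt A t), (c' : F) * (c : F) * x ∈ V := by
  have hPV : ∀ y ∈ s18tInt A t, y ∈ V := fun y hy => hV y (s18tInt_le_intLoc hϖ t hy)
  have hϖ0 : algebraMap A F ϖ ≠ 0 := sts_unif_ne_zero L hϖ
  by_cases hon : StOn V t 𝔫
  · refine ⟨1, (Ideal.ne_top_iff_one _).mp h𝔫.ne_top, fun c' => ?_⟩
    rw [OneMemClass.coe_one, mul_one]
    exact V.mul_mem _ _ (hPV _ c'.2) (hx hon)
  · unfold StOn at hon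
    push Not at hon
    obtain ⟨b, hbV, hb𝔫⟩ := hon
    obtain ⟨k, hk⟩ := sts_exists_pow_mul_mem (L := L) hϖ t ht x
    refine ⟨b ^ k, fun h => hb𝔫 (h𝔫.mem_of_pow_mem k h), fun c' => ?_⟩
    have h1 : (b : F) / algebraMap A F ϖ ∈ V := sts_div_unif_mem hunif hϖ0 hbV
    have e : (c' : F) * ((b ^ k : ↥(s18tInt A t)) : F) * x =
        (c' : F) * (((b : F) / algebraMap A F ϖ) ^ k * (algebraMap A F ϖ ^ k * x)) := by
      rw [SubmonoidClass.coe_pow, div_pow]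
      field_simp
    rw [e]
    exact V.mul_mem _ _ (hPV _ c'.2) (V.mul_mem _ _ (pow_mem h1 k) (hV _ hk))

/-- (KRULL) an element of `F` without pole at the places centred at `𝔫`, and in `Vᵢ` for the
components `Vᵢ` through `𝔫`, lies in `P_𝔫`. -/
theorem sts_inLoc_of_ord (h2 : SsvTwo hϖ t u₁ u₂ V₁ V₂) (ht : Transcendental L t)
    [FiniteDimensional L⟮t⟯ F] (𝔫 : Ideal ↥(s18tInt A t)) (h𝔫 : 𝔫.IsMaximal)
    (x : F) (hord : ∀ R : Place L F, SsCentredAt t 𝔫 R → 0 ≤ R.ord x)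
    (h₁ : StOn V₁ t 𝔫 → x ∈ V₁) (h₂ : StOn V₂ t 𝔫 → x ∈ V₂) : SsInLoc t 𝔫 x := by
  haveI : 𝔫.IsPrime := h𝔫.isPrime
  obtain ⟨c₁, hc₁𝔫, hc₁⟩ := sts_exists_mult (L := L) hϖ t ht 𝔫 V₁
    (fun y hy => sts_intLoc_le₁ h2 hy) h2.unif₁ x h₁
  obtain ⟨c₂, hc₂𝔫, hc₂⟩ := sts_exists_mult (L := L) hϖ t ht 𝔫 V₂
    (fun y hy => sts_intLoc_le₂ h2 hy) h2.unif₂ x h₂
  have hmem : ((c₁ * c₂ : ↥(s18tInt A t)) : F) * x ∈ s18tIntLoc A t (C ϖ) (s18t_prime_C hϖ) := by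
    rw [h2.mem_iff]
    constructor
    · have := hc₁ c₂
      rwa [mul_comm (c₂ : F) (c₁ : F)] at this
    · exact hc₂ c₁
  obtain ⟨s, hs, hsx⟩ := ssk_krull hϖ t ht 𝔫 h𝔫 _ hmem (by
    intro V hV hPV hcen
    obtain ⟨R, rfl⟩ := s18r_exists_place t ht V hV
    have hxR : x ∈ R.toValuationSubring := PlaceOrd.mem_of_ord_nonneg R (hord R ⟨hPV, hcen⟩)
    exact R.toValuationSubring.mul_mem _ _ (hPV (c₁ * c₂).2) hxR)
  refine ⟨s * (c₁ * c₂), fun h => (‹𝔫.IsPrime›.mem_or_mem h).elim hs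
    (fun h' => (‹𝔫.IsPrime›.mem_or_mem h').elim hc₁𝔫 hc₂𝔫), ?_⟩
  have e : ((s * (c₁ * c₂) : ↥(s18tInt A t)) : F) * x =
      (s : F) * (((c₁ * c₂ : ↥(s18tInt A t)) : F) * x) := by
    rw [Subring.coe_mul (s18tInt A t) s (c₁ * c₂), mul_assoc]
  rw [e]
  exact hsx

/-- the function cutting out a rational place `R` centred at a smooth germ : `z - a`, `a ∈ ϖ A` -/
theorem sts_cut (hϖ : Irreducible ϖ) (ht : Transcendental L t) [FiniteDimensional L⟮t⟯ F]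
    {𝔫 : Ideal ↥(s18tInt A t)} (h𝔫 : 𝔫.IsMaximal) (hϖ𝔫 : sskPi ϖ t ∈ 𝔫)
    {z : F} (hgen : SsGen ϖ t 𝔫 z 0)
    (R : Place L F) (hRr : SsRational R) (hRc : SsCentredAt t 𝔫 R) :
    ∃ a : A, ϖ ∣ a ∧ z - algebraMap A F a ≠ 0 ∧ R.ord (z - algebraMap A F a) = 1 ∧
      ∀ R' : Place L F, SsCentredAt t 𝔫 R' → R' ≠ R → R'.ord (z - algebraMap A F a) = 0 := by
  haveI : 𝔫.IsPrime := h𝔫.isPrime
  have hR := ssl_point_of_place hϖ hϖ𝔫 R hRr hRc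
  set zO : ↥(ssLocRing t 𝔫) := ⟨z, hgen.1.inLoc⟩ with hzO
  set a := sslEv hR zO with ha
  have hspec := sslEv_spec hR zO
  have hev : ∀ a, sslEv hR (sslConst t 𝔫 a) = a := sslEv_const hR
  -- `a` is a non-unit
  have hzϖ : ϖ ∣ a := by
    have hzm : zO ∈ maximalIdeal ↥(ssLocRing t 𝔫) := (ssl_mem_maximalIdeal t 𝔫 _).mpr hgen.1
    have h1 : ¬ IsUnit (sslEv hR zO) := by
      intro h
      have h2 : sslConst t 𝔫 (sslEv hR zO) ∈ maximalIdeal ↥(ssLocRing t 𝔫) := by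
        have := (maximalIdeal ↥(ssLocRing t 𝔫)).sub_mem hzm
          (ssl_ker_le_max (sslEv hR) (ssl_sub_mem_ker (sslConst t 𝔫) (sslEv hR) hev zO))
        rwa [sub_sub_cancel] at this
      exact (mem_maximalIdeal _).mp h2 (h.map (sslConst t 𝔫))
    have h3 : sslEv hR zO ∈ maximalIdeal A := (mem_maximalIdeal _).mpr h1
    rw [hR.unif.maximalIdeal_eq] at h3
    exact Ideal.mem_span_singleton.mp h3
  obtain ⟨hunif, huniq⟩ := ss_loc_smooth ht hR z hgen a hspec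
  obtain ⟨f, hf0, hord, hother⟩ := ssl_locAt_left R
    ((ssLocRing t 𝔫).sub_mem hgen.1.inLoc
      (ssl_int_le_locRing t 𝔫 (s18tc_algebraMap_mem_int t a))) hunif huniq
  have hord1 := ssl_ord_of_isUnif R hunif
  have hne : z - algebraMap A F a ≠ 0 := by
    intro h0
    rw [h0, Place.ord_zero] at hord1
    exact zero_ne_one hord1
  refine ⟨a, hzϖ, hne, hord1, fun R' hR'c hne' => ?_⟩
  have hR'c' : SsCentred t 𝔫 R'.toValuationSubring := ⟨hR'c.1, fun p hp => hR'c.2 hp⟩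
  apply ssl_ord_of_val_one
  apply le_antisymm
    ((R'.toValuationSubring.valuation_le_one_iff _).mpr (ssl_locRing_le t 𝔫 hR'c'
      ((ssLocRing t 𝔫).sub_mem hgen.1.inLoc
        (ssl_int_le_locRing t 𝔫 (s18tc_algebraMap_mem_int t a)))))
  by_contra h
  push Not at h
  exact hne' (Place.ext (huniq _ (ssl_place_isPlace R') hR'c' h))

/-- **(T-smooth)** at a closed point with a SMOOTH germ, a function `g ≡ 1 mod ϖ P_(ϖ)` whose
divisor is `n ·`(rational places) has the local datum. -/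
theorem st_smooth (hϖ : Irreducible ϖ) (t : F) (ht : Transcendental L t) [FiniteDimensional L⟮t⟯ F]
    (G : Subgroup (SemilinearAut L F))
    {u₁ u₂ : F} {V₁ V₂ : ValuationSubring F} (h2 : SsvTwo hϖ t u₁ u₂ V₁ V₂)
    (𝔫 : Ideal ↥(s18tInt A t)) (h𝔫 : 𝔫.IsMaximal) (hϖ𝔫 : sskPi ϖ t ∈ 𝔫)
    (hgerm : SsGermSmooth ϖ t G 𝔫)
    (n : ℕ) (hn : n ≠ 0) (g : F) (hg : g ≠ 0)
    (hg1 : ∀ R : Place L F, (n : ℤ) ∣ R.ord g)
    (hg2 : ∀ R : Place L F, R.ord g ≠ 0 → SsRational R)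
    (hg3 : {R : Place L F | R.ord g ≠ 0}.Finite)
    (hg4 : S18DvdGauss hϖ t (g - 1)) :
    StDivAt L hϖ t n g 𝔫 := by
  classical
  haveI : 𝔫.IsPrime := h𝔫.isPrime
  obtain ⟨z₀, hgen₀⟩ := ssl_germSmoothF_of h𝔫.ne_top hgerm
  -- the support centred at `𝔫`
  set S : Finset (Place L F) := hg3.toFinset.filter (fun R => SsCentredAt t 𝔫 R) with hS
  have hSmem : ∀ R, R ∈ S ↔ R.ord g ≠ 0 ∧ SsCentredAt t 𝔫 R := by
    intro R
    rw [hS, Finset.mem_filter, Set.Finite.mem_toFinset]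
    rfl
  have hnz : (n : ℤ) ≠ 0 := by exact_mod_cast hn
  rcases S.eq_empty_or_nonempty with hSe | ⟨R₀, hR₀⟩
  · -- no place of the support is centred at `𝔫` : `r = 1`
    refine ⟨1, one_ne_zero, ?_, ?_, fun R hR => ?_⟩
    · rw [sub_self]; exact ⟨0, Subring.zero_mem _, by rw [mul_zero]⟩
    · rw [inv_one, sub_self]; exact ⟨0, Subring.zero_mem _, by rw [mul_zero]⟩
    · rw [Place.ord_one, mul_zero]
      by_contra h
      have : R ∈ S := (hSmem R).mpr ⟨h, hR⟩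
      rw [hSe] at this
      exact absurd this (Finset.notMem_empty R)
  -- a good coordinate
  obtain ⟨hR₀g, hR₀c⟩ := (hSmem R₀).mp hR₀
  have hR₀pt := ssl_point_of_place hϖ hϖ𝔫 R₀ (hg2 R₀ hR₀g) hR₀c
  obtain ⟨τ, hτ, hτ1, hτ2⟩ := sts_exists_tau h2 ht hR₀pt
  obtain ⟨z, hgen, hz1, hz2⟩ := sts_exists_coord h2 ht 𝔫 hϖ𝔫 hgen₀ hτ hτ1 hτ2
  have hz0 : z ≠ 0 := by
    rintro rfl
    apply hz1
    rw [V₁.mem_nonunits_iff, map_zero]
    exact zero_lt_one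
  -- the cutting functions
  have hcut : ∀ R : Place L F, ∃ a : A, R ∈ S → (ϖ ∣ a ∧ z - algebraMap A F a ≠ 0 ∧
      R.ord (z - algebraMap A F a) = 1 ∧
      ∀ R' : Place L F, SsCentredAt t 𝔫 R' → R' ≠ R → R'.ord (z - algebraMap A F a) = 0) := by
    intro R
    by_cases hRS : R ∈ S
    · obtain ⟨hRg, hRc⟩ := (hSmem R).mp hRS
      obtain ⟨a, ha⟩ := sts_cut hϖ ht h𝔫 hϖ𝔫 hgen R (hg2 R hRg) hRc
      exact ⟨a, fun _ => ha⟩
    · exact ⟨0, fun h => absurd h hRS⟩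
  choose a ha using hcut
  let d : Place L F → ℤ := fun R => R.ord g / (n : ℤ)
  let ε : Place L F → F := fun R => (z - algebraMap A F (a R)) / z
  have hε0 : ∀ R ∈ S, ε R ≠ 0 := fun R hR => div_ne_zero (ha R hR).2.1 hz0
  let r : F := ∏ R ∈ S, ε R ^ d R
  have hr0 : r ≠ 0 := Finset.prod_ne_zero_iff.mpr fun R hR => zpow_ne_zero _ (hε0 R hR)
  -- congruences
  have hεone : ∀ V : ValuationSubring F, algebraMap A F ϖ ∈ V.nonunits →
      (∀ x ∈ s18tInt A t, x ∈ V) → z ∉ V.nonunits → ∀ R ∈ S, StsOne V (ε R) := by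
    intro V hϖV hPV hzV R hR
    obtain ⟨c, hc⟩ := (ha R hR).1
    have e : ε R - 1 = -(algebraMap A F ϖ * (algebraMap A F c * z⁻¹)) := by
      show (z - algebraMap A F (a R)) / z - 1 = _
      rw [hc, map_mul]
      field_simp
      ring
    show ε R - 1 ∈ V.nonunits
    rw [e]
    exact ssgr_nu_neg V (ssgr_nu_mul_left V hϖV
      (V.mul_mem _ _ (hPV _ (s18tc_algebraMap_mem_int t c)) (sts_inv_mem V hzV)))
  have hrone : ∀ V : ValuationSubring F, algebraMap A F ϖ ∈ V.nonunits →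
      (∀ x ∈ s18tInt A t, x ∈ V) → z ∉ V.nonunits → StsOne V r := by
    intro V hϖV hPV hzV
    exact stsOne_prod S _ fun R hR => (hεone V hϖV hPV hzV R hR).zpow (d R)
  have hr1 : StsOne V₁ r := hrone V₁ (sts_unif_mem h2.unif₁) (sts_int_le₁ h2) hz1
  have hr2 : StsOne V₂ r := hrone V₂ (sts_unif_mem h2.unif₂) (sts_int_le₂ h2) hz2
  obtain ⟨hg1', hg2'⟩ := (h2.dvd_iff _).mp hg4
  -- orders
  let D : ℤ := ∑ R ∈ S, d R
  have hordε : ∀ R ∈ S, ∀ R' : Place L F, SsCentredAt t 𝔫 R' →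
      R'.ord (ε R) = (if R' = R then 1 else 0) - R'.ord z := by
    intro R hR R' hR'
    show R'.ord ((z - algebraMap A F (a R)) / z) = _
    rw [div_eq_mul_inv, R'.ord_mul (ha R hR).2.1 (inv_ne_zero hz0), R'.ord_inv]
    by_cases hEq : R' = R
    · rw [if_pos hEq, hEq, (ha R hR).2.2.1]; ring
    · rw [if_neg hEq, (ha R hR).2.2.2 R' hR' hEq]; ring
  have hordr : ∀ R' : Place L F, SsCentredAt t 𝔫 R' →
      R'.ord r = (if R' ∈ S then d R' else 0) - D * R'.ord z := by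
    intro R' hR'
    show R'.ord (∏ R ∈ S, ε R ^ d R) = _
    rw [ssnf_ord_prod R' S _ (fun R hR => zpow_ne_zero _ (hε0 R hR))]
    have hterm : ∀ R ∈ S, R'.ord (ε R ^ d R) =
        (if R = R' then d R' else 0) - d R * R'.ord z := by
      intro R hR
      rw [R'.ord_zpow, hordε R hR R' hR']
      by_cases hEq : R' = R
      · subst hEq
        rw [if_pos rfl, if_pos rfl]; ring
      · have hEq' : ¬ R = R' := fun h => hEq h.symm
        rw [if_neg hEq, if_neg hEq']; ring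
    rw [Finset.sum_congr rfl hterm, Finset.sum_sub_distrib, Finset.sum_ite_eq' S R',
      ← Finset.sum_mul]
  have hnd : ∀ R : Place L F, (n : ℤ) * d R = R.ord g := fun R => Int.mul_ediv_cancel' (hg1 R)
  have hordg : ∀ R' : Place L F, SsCentredAt t 𝔫 R' →
      R'.ord g = (n : ℤ) * (if R' ∈ S then d R' else 0) := by
    intro R' hR'
    by_cases hm : R' ∈ S
    · rw [if_pos hm, hnd]
    · rw [if_neg hm, mul_zero]
      by_contra h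
      exact hm ((hSmem R').mpr ⟨h, hR'⟩)
  -- (DEG)
  let y₁ : F := g / r ^ n
  let y₀ : F := y₁ / z ^ ((n : ℤ) * D)
  have hy₁0 : y₁ ≠ 0 := div_ne_zero hg (pow_ne_zero _ hr0)
  have hzp0 : z ^ ((n : ℤ) * D) ≠ 0 := zpow_ne_zero _ hz0
  have hy₀0 : y₀ ≠ 0 := div_ne_zero hy₁0 hzp0
  have hordy₀ : ∀ R' : Place L F, SsCentredAt t 𝔫 R' → R'.ord y₀ = 0 := by
    intro R' hR'
    have hy₁0' : g / r ^ n ≠ 0 := hy₁0
    show R'.ord (g / r ^ n / z ^ ((n : ℤ) * D)) = 0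
    rw [div_eq_mul_inv, R'.ord_mul hy₁0' (inv_ne_zero hzp0), R'.ord_inv, R'.ord_zpow,
      div_eq_mul_inv, R'.ord_mul hg (inv_ne_zero (pow_ne_zero _ hr0)), R'.ord_inv,
      ← zpow_natCast, R'.ord_zpow, hordg R' hR', hordr R' hR']
    ring
  have hy₁one : ∀ V : ValuationSubring F, StsOne V g → StsOne V r → StsOne V y₁ := by
    intro V hgV hrV
    show StsOne V (g / r ^ n)
    rw [div_eq_mul_inv]
    exact hgV.mul (hrV.pow n).inv
  have hVmem : ∀ V : ValuationSubring F, (∀ x ∈ s18tInt A t, x ∈ V) → z ∉ V.nonunits →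
      StsOne V y₁ → StOn V t 𝔫 → y₀ ∈ V ∧ y₀⁻¹ ∈ V := by
    intro V hPV hzV hy₁V hon
    have hzV' : z ∈ V := sts_loc_mem hPV hon hgen.1.inLoc
    have hzinv : z⁻¹ ∈ V := sts_inv_mem V hzV
    constructor
    · show y₁ / z ^ ((n : ℤ) * D) ∈ V
      rw [div_eq_mul_inv, ← zpow_neg]
      exact V.mul_mem _ _ hy₁V.mem (sts_zpow_mem V hzV' hzinv _)
    · show (y₁ / z ^ ((n : ℤ) * D))⁻¹ ∈ V
      rw [inv_div, div_eq_mul_inv]
      exact V.mul_mem _ _ (sts_zpow_mem V hzV' hzinv _) hy₁V.inv.mem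
  have hy₁V₁ : StsOne V₁ y₁ := hy₁one V₁ hg1' hr1
  have hy₁V₂ : StsOne V₂ y₁ := hy₁one V₂ hg2' hr2
  have hy₀B : SsInLoc t 𝔫 y₀ :=
    sts_inLoc_of_ord h2 ht 𝔫 h𝔫 y₀ (fun R hR => by rw [hordy₀ R hR])
      (fun hon => (hVmem V₁ (sts_int_le₁ h2) hz1 hy₁V₁ hon).1)
      (fun hon => (hVmem V₂ (sts_int_le₂ h2) hz2 hy₁V₂ hon).1)
  have hy₀B' : SsInLoc t 𝔫 y₀⁻¹ :=
    sts_inLoc_of_ord h2 ht 𝔫 h𝔫 y₀⁻¹ (fun R hR => by rw [R.ord_inv, hordy₀ R hR, neg_zero])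
      (fun hon => (hVmem V₁ (sts_int_le₁ h2) hz1 hy₁V₁ hon).2)
      (fun hon => (hVmem V₂ (sts_int_le₂ h2) hz2 hy₁V₂ hon).2)
  have hDEG : D = 0 := by
    have hm : (n : ℤ) * D = 0 := by
      rcases sts_on_or h2 ht 𝔫 hϖ𝔫 with hon | hon
      · exact sts_deg_zero (sts_int_le₁ h2) hon hgen.1 hz0 hy₁V₁ _ hy₀B hy₀B'
      · exact sts_deg_zero (sts_int_le₂ h2) hon hgen.1 hz0 hy₁V₂ _ hy₀B hy₀B'
    exact (mul_eq_zero.mp hm).resolve_left hnz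
  refine ⟨r, hr0, (h2.dvd_iff _).mpr ⟨hr1, hr2⟩, (h2.dvd_iff _).mpr ⟨hr1.inv, hr2.inv⟩,
    fun R hR => ?_⟩
  rw [hordg R hR, hordr R hR, hDEG, zero_mul, sub_zero]

/-! ### a crossing germ on one component only is a smooth germ -/

/-- a constant of `A` in `𝔫 P_𝔫` is divisible by `ϖ` -/
theorem sts_dvd_of_inMax (hϖ : Irreducible ϖ) {𝔫 : Ideal ↥(s18tInt A t)} [h𝔫 : 𝔫.IsPrime]
    {κ : A} (h : SsInMax t 𝔫 (algebraMap A F κ)) : ϖ ∣ κ := by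
  have h1 : ¬ IsUnit κ := by
    intro hu
    have h2 := (ssl_mem_maximalIdeal t 𝔫 (sslConst t 𝔫 κ)).mpr h
    exact (mem_maximalIdeal _).mp h2 (hu.map (sslConst t 𝔫))
  have h3 : κ ∈ maximalIdeal A := (mem_maximalIdeal _).mpr h1
  rw [hϖ.maximalIdeal_eq] at h3
  exact Ideal.mem_span_singleton.mp h3

/-- the generic step : `𝔫` lies on `V`, and `P ∩ 𝔪_V ⊆ ϖ P_𝔫` -/
theorem sts_smooth_of_cross_aux (hϖ : Irreducible ϖ) (G : Subgroup (SemilinearAut L F))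
    {𝔫 : Ideal ↥(s18tInt A t)} [h𝔫 : 𝔫.IsPrime] (hϖ𝔫 : sskPi ϖ t ∈ 𝔫)
    (V : ValuationSubring F) (hPV : ∀ x ∈ s18tInt A t, x ∈ V) (hon : StOn V t 𝔫)
    (hϖV : algebraMap A F ϖ ∈ V.nonunits)
    (hsat : ∀ p : ↥(s18tInt A t), (p : F) ∈ V.nonunits →
      ∃ c : ↥(s18tInt A t), c ∉ 𝔫 ∧ ∃ y : ↥(s18tInt A t), c * p = sskPi ϖ t * y)
    (hgerm : SsGermCross ϖ t G 𝔫) : SsGermSmooth ϖ t G 𝔫 := by
  obtain ⟨u, w, hu0, hw0, -, -, hgen, κ, ρ, hρ0, hnode⟩ := hgerm 1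
  rw [pow_one] at hnode
  have hu : SsInMax t 𝔫 u := hu0
  have hw : SsInMax t 𝔫 w := hw0
  have hρ : SsInLoc t 𝔫 ρ := hρ0
  have hϖmax : SsInMax t 𝔫 (algebraMap A F ϖ) :=
    (ssl_mem_maximalIdeal t 𝔫 (sslConst t 𝔫 ϖ)).mp (ssl_const_mem_max t 𝔫 hϖ𝔫)
  -- `ϖ ∣ κ`
  have hκ : ϖ ∣ κ := by
    apply sts_dvd_of_inMax hϖ (t := t) (𝔫 := 𝔫)
    have e : algebraMap A F κ = u * w - algebraMap A F ϖ * ρ := by rw [hnode]; ring
    rw [e]
    refine sts_inMax_sub (sts_inMax_mul hu.inLoc hw) ?_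
    have := sts_inMax_mul hρ hϖmax
    rwa [mul_comm] at this
  obtain ⟨κ', rfl⟩ := hκ
  -- `u w ∈ 𝔪_V`
  have huw : u * w ∈ V.nonunits := by
    have e : u * w = algebraMap A F ϖ * (algebraMap A F κ' + ρ) := by
      rw [hnode, map_mul]; ring
    rw [e]
    exact ssgr_nu_mul_left V hϖV (V.add_mem _ _ (hPV _ (s18tc_algebraMap_mem_int t κ'))
      (sts_loc_mem hPV hon hρ))
  have huV : u ∈ V := sts_loc_mem hPV hon hu.inLoc
  have hwV : w ∈ V := sts_loc_mem hPV hon hw.inLoc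
  -- an element of `P_𝔫 ∩ 𝔪_V` is in `ϖ P_𝔫`
  have hdiv : ∀ x : F, SsInLoc t 𝔫 x → x ∈ V.nonunits →
      ∃ s : ↥(s18tInt A t), s ∉ 𝔫 ∧ ∃ y : ↥(s18tInt A t),
        (s : F) * x = algebraMap A F ϖ * (y : F) := by
    intro x hx hxV
    obtain ⟨s, hs, hsx⟩ := hx
    obtain ⟨c, hc, y, hy⟩ := hsat ⟨(s : F) * x, hsx⟩ (ssgr_nu_mul_right V (hPV s s.2) hxV)
    refine ⟨c * s, fun h => (h𝔫.mem_or_mem h).elim hc hs, y, ?_⟩
    have := congrArg (fun z : ↥(s18tInt A t) => (z : F)) hy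
    simp only [Subring.coe_mul] at this
    rw [Subring.coe_mul, mul_assoc]
    exact this
  -- one of `u, w` is a non-unit of `V`
  have hor : u ∈ V.nonunits ∨ w ∈ V.nonunits := by
    by_contra hcon
    rw [not_or] at hcon
    have h1 := sts_inv_mem V hcon.1
    have h2 := sts_inv_mem V hcon.2
    have hune : u ≠ 0 := by
      intro h0
      apply hcon.1
      rw [h0, V.mem_nonunits_iff, map_zero]; exact zero_lt_one
    have hwne : w ≠ 0 := by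
      intro h0
      apply hcon.2
      rw [h0, V.mem_nonunits_iff, map_zero]; exact zero_lt_one
    have h3 := ssgr_nu_mul_left V huw (V.mul_mem _ _ h1 h2)
    have e : u * w * (u⁻¹ * w⁻¹) = 1 := by field_simp
    rw [e, V.mem_nonunits_iff, map_one] at h3
    exact lt_irrefl _ h3
  rcases hor with huN | hwN
  · -- `u ∈ ϖ P_𝔫` : the coordinate is `w`
    obtain ⟨s₂, hs₂, y, hy⟩ := hdiv u hu.inLoc huN
    refine ⟨w, hw0, fun x hx => ?_⟩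
    obtain ⟨s₁, hs₁, a, b, c, hsx⟩ := hgen x hx
    refine ⟨s₂ * s₁, fun h => (h𝔫.mem_or_mem h).elim hs₂ hs₁, s₂ * a + b * y, s₂ * c, ?_⟩
    simp only [Subring.coe_mul, Subring.coe_add]
    linear_combination (s₂ : F) * hsx + (b : F) * hy
  · -- `w ∈ ϖ P_𝔫` : the coordinate is `u`
    obtain ⟨s₂, hs₂, y, hy⟩ := hdiv w hw.inLoc hwN
    refine ⟨u, hu0, fun x hx => ?_⟩
    obtain ⟨s₁, hs₁, a, b, c, hsx⟩ := hgen x hx
    refine ⟨s₂ * s₁, fun h => (h𝔫.mem_or_mem h).elim hs₂ hs₁, s₂ * a + c * y, s₂ * b, ?_⟩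
    simp only [Subring.coe_mul, Subring.coe_add]
    linear_combination (s₂ : F) * hsx + (c : F) * hy

/-- a crossing germ at a closed point lying on ONE component only is a smooth germ -/
theorem st_smooth_of_cross (hϖ : Irreducible ϖ) (t : F) (ht : Transcendental L t)
    [FiniteDimensional L⟮t⟯ F]
    (G : Subgroup (SemilinearAut L F))
    {u₁ u₂ : F} {V₁ V₂ : ValuationSubring F} (h2 : SsvTwo hϖ t u₁ u₂ V₁ V₂)
    (𝔫 : Ideal ↥(s18tInt A t)) (h𝔫 : 𝔫.IsMaximal) (hϖ𝔫 : sskPi ϖ t ∈ 𝔫)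
    (hnot : ¬ (StOn V₁ t 𝔫 ∧ StOn V₂ t 𝔫))
    (hgerm : SsGermCross ϖ t G 𝔫) :
    SsGermSmooth ϖ t G 𝔫 := by
  haveI : 𝔫.IsPrime := h𝔫.isPrime
  rcases sts_on_or h2 ht 𝔫 hϖ𝔫 with hon | hon
  · -- on `V₁`, off `V₂`
    have hoff : ¬ StOn V₂ t 𝔫 := fun h => hnot ⟨hon, h⟩
    unfold StOn at hoff
    push Not at hoff
    obtain ⟨b, hbV, hb𝔫⟩ := hoff
    refine sts_smooth_of_cross_aux hϖ G hϖ𝔫 V₁ (sts_int_le₁ h2) hon (sts_unif_mem h2.unif₁)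
      (fun p hp => ?_) hgerm
    obtain ⟨y, hy⟩ := sts_mul_mem h2 ht hp hbV
    exact ⟨b, hb𝔫, y, by rw [mul_comm]; exact hy⟩
  · -- on `V₂`, off `V₁`
    have hoff : ¬ StOn V₁ t 𝔫 := fun h => hnot ⟨h, hon⟩
    unfold StOn at hoff
    push Not at hoff
    obtain ⟨b, hbV, hb𝔫⟩ := hoff
    refine sts_smooth_of_cross_aux hϖ G hϖ𝔫 V₂ (sts_int_le₂ h2) hon (sts_unif_mem h2.unif₂)
      (fun p hp => ?_) hgerm
    obtain ⟨y, hy⟩ := sts_mul_mem h2 ht hbV hp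
    exact ⟨b, hb𝔫, y, hy⟩

end Main

end Fermat.Agent.ST
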