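import Mathlib
import Fermat.Agent.S24.PlaceOrd
import Fermat.Agent.SS.NF.Loc
import Fermat.Agent.SS.Loc.Germ
import Fermat.Agent.ST.Defs
import Fermat.Agent.ST.Deep
import Fermat.Agent.ST.Core
import Fermat.Agent.ST.Smooth
import Fermat.Agent.ST.Cross

/-!
# Program T (S35), the abstract toric theorem : bookkeeping of the local data (`ST/Loc`)

* `st_divAt_nonres` : at a closed point whose residue field is not `A / ϖ` nothing happens;
* `st_divAt_theta`  : the local datum of `g` at `𝔫, σ⁻¹ 𝔫, σ⁻² 𝔫` gives the local datum of `g^Θ` at `𝔫`;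
* `st_divAt_cross`  : at a `σ`-stable closed point, (one-zero function or `σ`-fixed) + the unit
  property give the local datum of `g^Θ` (the analogue of `ssnf_loc`).
-/

set_option autoImplicit false
set_option linter.unusedSectionVars false
set_option linter.unusedVariables false

noncomputable section

namespace Fermat.Agent.ST

open Polynomial IntermediateField AlgebraicCurve Fermat.Agent.S18 Fermat.Agent.SS Fermat.Agent.S24

universe u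

variable {A : Type*} [CommRing A] [IsDomain A] [IsDiscreteValuationRing A] [CharZero A]
variable {L : Type*} [Field L] [Algebra A L] [IsFractionRing A L]
variable {F : Type u} [Field F] [Algebra A F] [Algebra L F] [IsScalarTower A L F]
variable {ϖ : A}

/-! ### orders -/

/-- the order of a natural power -/
theorem stl_ord_pow (R : Place L F) (x : F) (k : ℕ) : R.ord (x ^ k) = k * R.ord x := by
  rw [← zpow_natCast, R.ord_zpow]

/-- the order of `σ(σ r₂) · r₀^Q / σ(r₁)^(Q+1)` -/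
theorem stl_ord_th3 (Q : ℕ) (σ : SemilinearAut L F) (R : Place L F) {r₀ r₁ r₂ : F}
    (h0 : r₀ ≠ 0) (h1 : r₁ ≠ 0) (h2 : r₂ ≠ 0) :
    R.ord ((σ • (σ • r₂)) * r₀ ^ Q / (σ • r₁) ^ (Q + 1)) =
      (σ⁻¹ • σ⁻¹ • R).ord r₂ + Q * R.ord r₀ - (Q + 1) * (σ⁻¹ • R).ord r₁ := by
  have e2 : σ • (σ • r₂) ≠ 0 := (smul_ne_zero_iff_ne σ).mpr ((smul_ne_zero_iff_ne σ).mpr h2)
  have e1 : σ • r₁ ≠ 0 := (smul_ne_zero_iff_ne σ).mpr h1
  rw [div_eq_mul_inv, R.ord_mul (mul_ne_zero e2 (pow_ne_zero _ h0))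
      (inv_ne_zero (pow_ne_zero _ e1)),
    R.ord_mul e2 (pow_ne_zero _ h0), R.ord_inv, stl_ord_pow, stl_ord_pow,
    ssnf_ord_smul σ R (σ • r₂), ssnf_ord_smul σ (σ⁻¹ • R) r₂, ssnf_ord_smul σ R r₁]
  push_cast
  ring

/-- the order of `f^Θ` -/
theorem stl_ord_th (Q : ℕ) (σ : SemilinearAut L F) (R : Place L F) {f : F} (hf : f ≠ 0) :
    R.ord (stTh Q σ f) =
      (σ⁻¹ • σ⁻¹ • R).ord f + Q * R.ord f - (Q + 1) * (σ⁻¹ • R).ord f :=
  stl_ord_th3 Q σ R hf hf hf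

theorem stl_th_ne_zero (Q : ℕ) (σ : SemilinearAut L F) {f : F} (hf : f ≠ 0) :
    stTh Q σ f ≠ 0 := by
  unfold stTh
  exact div_ne_zero (mul_ne_zero ((smul_ne_zero_iff_ne σ).mpr ((smul_ne_zero_iff_ne σ).mpr hf))
    (pow_ne_zero _ hf)) (pow_ne_zero _ ((smul_ne_zero_iff_ne σ).mpr hf))

/-- `0 ≡ 0` -/
theorem stl_dvdGauss_zero (hϖ : Irreducible ϖ) (t : F) : S18DvdGauss hϖ t (0 : F) :=
  ⟨0, Subring.zero_mem _, by rw [mul_zero]⟩

/-- `x ≡ 1 ⟹ x^k ≡ 1` -/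
theorem stl_dvdGauss_pow (hϖ : Irreducible ϖ) (t : F) {x : F} (hx : S18DvdGauss hϖ t (x - 1))
    (k : ℕ) : S18DvdGauss hϖ t (x ^ k - 1) := by
  induction k with
  | zero => rw [pow_zero, sub_self]; exact stl_dvdGauss_zero hϖ t
  | succ k ih => rw [pow_succ]; exact stb_dvdGauss_mul hϖ t ih hx

/-- a unit of `P_𝔫` has order `0` at every place centred at `𝔫` -/
theorem stl_ord_unit {t : F} {𝔫 : Ideal ↥(s18tInt A t)} [𝔫.IsPrime] (R : Place L F)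
    (hR : SsCentredAt t 𝔫 R) {ψ : F} (hψ0 : ψ ≠ 0) (hψ : SsnfInLoc t 𝔫 ψ)
    (hψ' : SsnfInLoc t 𝔫 ψ⁻¹) : R.ord ψ = 0 := by
  have hR' : SsCentred t 𝔫 R.toValuationSubring := ⟨hR.1, fun p hp => hR.2 hp⟩
  rw [PlaceOrd.ord_eq_zero_iff R hψ0]
  exact ⟨ssl_locRing_le t 𝔫 hR' (ssnfInLoc_iff.mp hψ), ssl_locRing_le t 𝔫 hR' (ssnfInLoc_iff.mp hψ')⟩

/-! ### closed points with a bigger residue field -/

/-- a closed point at which a rational place is centred has residue field `A / ϖ` -/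
theorem stl_res_of_place {t : F} {𝔫 : Ideal ↥(s18tInt A t)} [𝔫.IsPrime] (hϖ : Irreducible ϖ)
    (hϖ𝔫 : sskPi ϖ t ∈ 𝔫) (R : Place L F) (hRr : SsRational R) (hRc : SsCentredAt t 𝔫 R) :
    StRes t 𝔫 := by
  have hR := ssl_point_of_place hϖ hϖ𝔫 R hRr hRc
  intro x
  have hx : (x : F) ∈ ssLocRing t 𝔫 := ssl_int_le_locRing t 𝔫 x.2
  set a := sslEv hR ⟨x, hx⟩ with ha
  have hspec := sslEv_spec hR (⟨x, hx⟩ : ↥(ssLocRing t 𝔫))
  refine ⟨a, ⟨(x : F) - algebraMap A F a,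
    Subring.sub_mem _ x.2 (s18tc_algebraMap_mem_int t a)⟩, ?_, by simp⟩
  apply hRc.2
  show (x : F) - algebraMap A F a ∈ R.toValuationSubring.nonunits
  rw [ValuationSubring.mem_nonunits_iff]
  exact hspec

/-- no rational place is centred at a closed point whose residue field is not `A / ϖ` -/
theorem st_divAt_nonres (hϖ : Irreducible ϖ) (t : F)
    {Q : ℕ} {σ : SemilinearAut L F}
    (𝔫 : Ideal ↥(s18tInt A t)) (h𝔫 : 𝔫.IsMaximal) (hϖ𝔫 : sskPi ϖ t ∈ 𝔫)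
    (hres : ¬ StRes t 𝔫)
    (n : ℕ) (g : F) (hg : g ≠ 0)
    (hg2 : ∀ R : Place L F, R.ord g ≠ 0 → SsRational R) :
    StDivAt L hϖ t n (stTh Q σ g) 𝔫 := by
  haveI := h𝔫.isPrime
  refine ⟨1, one_ne_zero, by rw [sub_self]; exact stl_dvdGauss_zero hϖ t,
    by rw [inv_one, sub_self]; exact stl_dvdGauss_zero hϖ t, fun R hR => ?_⟩
  have hnr : ∀ R' : Place L F, SsRational R' → R' = R → False := fun R' h1 h2 =>
    hres (stl_res_of_place hϖ hϖ𝔫 R (h2 ▸ h1) hR)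
  have h0 : R.ord g = 0 := by
    by_contra h
    exact hnr R (hg2 R h) rfl
  have h1 : (σ⁻¹ • R).ord g = 0 := by
    by_contra h
    have := std_rational_smul σ _ (hg2 _ h)
    rw [smul_inv_smul] at this
    exact hnr R this rfl
  have h2 : (σ⁻¹ • σ⁻¹ • R).ord g = 0 := by
    by_contra h
    have := std_rational_smul σ _ (std_rational_smul σ _ (hg2 _ h))
    rw [smul_inv_smul, smul_inv_smul] at this
    exact hnr R this rfl
  rw [stl_ord_th Q σ R hg, h0, h1, h2, Place.ord_one]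
  ring

/-! ### `Θ` of local data -/

/-- the local datum of `g` at `𝔫, σ⁻¹ 𝔫, σ⁻² 𝔫` gives the local datum of `g^Θ` at `𝔫` -/
theorem st_divAt_theta (hϖ : Irreducible ϖ) (t : F)
    {u₁ u₂ : F} {V₁ V₂ : ValuationSubring F} (h2 : SsvTwo hϖ t u₁ u₂ V₁ V₂)
    {Q : ℕ} {σ : SemilinearAut L F} (hσ : StFrob ϖ t V₁ V₂ Q σ)
    (𝔫 𝔫₁ 𝔫₂ : Ideal ↥(s18tInt A t)) (h1 : StPull t σ 𝔫 𝔫₁) (h2' : StPull t σ 𝔫₁ 𝔫₂)
    (n : ℕ) (g : F) (hg : g ≠ 0)
    (d0 : StDivAt L hϖ t n g 𝔫) (d1 : StDivAt L hϖ t n g 𝔫₁) (d2 : StDivAt L hϖ t n g 𝔫₂) :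
    StDivAt L hϖ t n (stTh Q σ g) 𝔫 := by
  obtain ⟨r₀, hr₀, hr₀1, -, hord₀⟩ := d0
  obtain ⟨r₁, hr₁, hr₁1, -, hord₁⟩ := d1
  obtain ⟨r₂, hr₂, hr₂1, -, hord₂⟩ := d2
  set r : F := (σ • (σ • r₂)) * r₀ ^ Q / (σ • r₁) ^ (Q + 1) with hr
  have e2 : σ • (σ • r₂) ≠ 0 := (smul_ne_zero_iff_ne σ).mpr ((smul_ne_zero_iff_ne σ).mpr hr₂)
  have e1 : σ • r₁ ≠ 0 := (smul_ne_zero_iff_ne σ).mpr hr₁
  have hr0 : r ≠ 0 :=
    div_ne_zero (mul_ne_zero e2 (pow_ne_zero _ hr₀)) (pow_ne_zero _ e1)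
  have hr1 : S18DvdGauss hϖ t (r - 1) := by
    rw [hr, div_eq_mul_inv]
    refine stb_dvdGauss_mul hϖ t (stb_dvdGauss_mul hϖ t ?_ (stl_dvdGauss_pow hϖ t hr₀1 Q)) ?_
    · exact stb_dvdGauss_smul hϖ h2 hσ (stb_dvdGauss_smul hϖ h2 hσ hr₂1)
    · exact stb_dvdGauss_inv hϖ t h2
        (stl_dvdGauss_pow hϖ t (stb_dvdGauss_smul hϖ h2 hσ hr₁1) (Q + 1))
  refine ⟨r, hr0, hr1, stb_dvdGauss_inv hϖ t h2 hr1, fun R hR => ?_⟩
  have hR1 : SsCentredAt t 𝔫₁ (σ⁻¹ • R) := stb_centred_pull hσ h1 R hR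
  have hR2 : SsCentredAt t 𝔫₂ (σ⁻¹ • σ⁻¹ • R) := stb_centred_pull hσ h2' _ hR1
  rw [stl_ord_th Q σ R hg, hr, stl_ord_th3 Q σ R hr₀ hr₁ hr₂, hord₀ R hR, hord₁ _ hR1,
    hord₂ _ hR2]
  ring

/-! ### `σ`-stable closed points -/

/-- at a `σ`-stable closed point : (one-zero function or `σ`-fixed) + unit property ⟹ local datum of
`g^Θ` -/
theorem st_divAt_cross (hϖ : Irreducible ϖ) (t : F)
    {u₁ u₂ : F} {V₁ V₂ : ValuationSubring F} (h2 : SsvTwo hϖ t u₁ u₂ V₁ V₂)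
    {Q : ℕ} {σ : SemilinearAut L F} (hσ : StFrob ϖ t V₁ V₂ Q σ)
    (𝔫 : Ideal ↥(s18tInt A t)) (h𝔫 : 𝔫.IsMaximal) (hϖ𝔫 : sskPi ϖ t ∈ 𝔫)
    (hfix : StPull t σ 𝔫 𝔫) (hloc : SsLocAt t σ σ 𝔫) (hunit : StUnitAt hϖ t Q σ 𝔫)
    (n : ℕ) (hn : n ≠ 0) (g : F) (hg : g ≠ 0)
    (hg1 : ∀ R : Place L F, (n : ℤ) ∣ R.ord g)
    (hg2 : ∀ R : Place L F, R.ord g ≠ 0 → SsRational R)
    (hg3 : {R : Place L F | R.ord g ≠ 0}.Finite) :
    StDivAt L hϖ t n (stTh Q σ g) 𝔫 := by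
  classical
  haveI := h𝔫.isPrime
  -- the finite set of good places of the support centred at `𝔫`
  set S : Finset (Place L F) :=
    hg3.toFinset.filter (fun R' => SsCentredAt t 𝔫 R' ∧ SsHasLoc t 𝔫 R') with hS
  set φ : Place L F → F := fun R' => ssLocFun t 𝔫 R' ^ (R'.ord g / (n : ℤ)) with hφ
  have hφ0 : ∀ R' : Place L F, φ R' ≠ 0 := fun R' => zpow_ne_zero _ (ssLocFun_ne_zero t 𝔫 R')
  set f : F := ∏ R' ∈ S, φ R' with hf
  have hf0 : f ≠ 0 := Finset.prod_ne_zero_iff.mpr fun R' _ => hφ0 R'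
  have hnz : (n : ℤ) ≠ 0 := by exact_mod_cast hn
  -- (★) the order of `f` at a place centred at `𝔫`
  have hstar : ∀ R'' : Place L F, SsCentredAt t 𝔫 R'' →
      (n : ℤ) * R''.ord f = if R'' ∈ S then R''.ord g else 0 := by
    intro R'' hR''
    rw [hf, ssnf_ord_prod R'' S φ (fun R' _ => hφ0 R')]
    have hterm : ∀ R' ∈ S, R''.ord (φ R') = if R' = R'' then R''.ord g / (n : ℤ) else 0 := by
      intro R' hR'
      have hR'S := (Finset.mem_filter.mp hR').2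
      rw [hφ]
      simp only
      rw [R''.ord_zpow, ssLocFun_ord t 𝔫 R' hR'S.2 R'' hR'']
      by_cases hEq : R' = R''
      · subst hEq
        rw [if_pos rfl, if_pos rfl, mul_one]
      · have hEq' : ¬ R'' = R' := fun h => hEq h.symm
        rw [if_neg hEq', if_neg hEq, mul_zero]
    rw [Finset.sum_congr rfl hterm, Finset.sum_ite_eq' S R'']
    split_ifs with hmem
    · exact Int.mul_ediv_cancel' (hg1 R'')
    · rw [mul_zero]
  -- the unit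
  obtain ⟨ψ, hψ0, hψ, hψ', hψ1⟩ := hunit f hf0
  set r : F := stTh Q σ f / ψ with hr
  have hth0 : stTh Q σ f ≠ 0 := stl_th_ne_zero Q σ hf0
  have hr0 : r ≠ 0 := div_ne_zero hth0 hψ0
  refine ⟨r, hr0, hψ1, stb_dvdGauss_inv hϖ t h2 hψ1, fun R hR => ?_⟩
  have hR1 : SsCentredAt t 𝔫 (σ⁻¹ • R) := stb_centred_pull hσ hfix R hR
  have hR12 : SsCentredAt t 𝔫 (σ⁻¹ • σ⁻¹ • R) := stb_centred_pull hσ hfix _ hR1
  have hordr : R.ord r = R.ord (stTh Q σ f) := by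
    rw [hr, div_eq_mul_inv, R.ord_mul hth0 (inv_ne_zero hψ0), R.ord_inv,
      stl_ord_unit R hR hψ0 hψ hψ']
    ring
  rw [hordr, stl_ord_th Q σ R hg, stl_ord_th Q σ R hf0]
  -- a place of the three which is in the support but has no local function is fixed
  by_cases hbad : ∃ R'' : Place L F, (R'' = R ∨ R'' = σ⁻¹ • R ∨ R'' = σ⁻¹ • σ⁻¹ • R) ∧
      R''.ord g ≠ 0 ∧ ¬ SsHasLoc t 𝔫 R''
  · obtain ⟨R'', hR''X, hR''g, hR''loc⟩ := hbad
    have hR''cen : SsCentredAt t 𝔫 R'' := by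
      rcases hR''X with h | h | h <;> rw [h] <;> assumption
    rcases hloc R'' (hg2 R'' hR''g) hR''cen with hl | ⟨hfixσ, -⟩
    · exact absurd hl hR''loc
    · have hfixσ' : σ⁻¹ • R'' = R'' := by
        rw [inv_smul_eq_iff, hfixσ]
      have hRR'' : R = R'' := by
        rcases hR''X with h | h | h
        · exact h.symm
        · rw [h, smul_inv_smul] at hfixσ; exact hfixσ.symm ▸ (by rw [h])
        · have h1 : σ • R'' = σ⁻¹ • R := by rw [h, smul_inv_smul]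
          rw [hfixσ] at h1
          have h2 : σ • R'' = R := by rw [h1, smul_inv_smul]
          rw [hfixσ] at h2
          exact h2.symm
      rw [hRR'', hfixσ', hfixσ']
      ring
  · push Not at hbad
    have hgood : ∀ R'' : Place L F, (R'' = R ∨ R'' = σ⁻¹ • R ∨ R'' = σ⁻¹ • σ⁻¹ • R) →
        SsCentredAt t 𝔫 R'' → R''.ord g = (n : ℤ) * R''.ord f := by
      intro R'' hX hcen
      rw [hstar R'' hcen]
      by_cases h0 : R''.ord g = 0
      · rw [h0]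
        split_ifs <;> rfl
      · have hl := hbad R'' hX h0
        have hmem : R'' ∈ S := by
          rw [hS, Finset.mem_filter, Set.Finite.mem_toFinset]
          exact ⟨h0, hcen, hl⟩
        rw [if_pos hmem]
    rw [hgood R (Or.inl rfl) hR, hgood _ (Or.inr (Or.inl rfl)) hR1,
      hgood _ (Or.inr (Or.inr rfl)) hR12]
    ring

end Fermat.Agent.ST
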