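import Mathlib
import Fermat.Agent.SS.Val.TwoInv
import Fermat.Agent.SS.Geo.ChartInv
import Fermat.Agent.ST.Defs
import Fermat.Agent.ST.Deep
import Fermat.Agent.ST.Core
import Fermat.Agent.ST.Smooth
import Fermat.Agent.ST.Cross
import Fermat.Agent.ST.Loc

/-!
# Program T (S35) : THE ABSTRACT TORIC THEOREM `st_toric`

Assembly of the leaves : `st_core` (KRULL + KUM), `st_smooth`, `st_smooth_of_cross` (smooth germs),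
`std_locAt_of_germ` (uniqueness of the deep place), `st_cross_unit` (unit property at crossings)
and the bookkeeping of `ST/Loc.lean`.
-/

set_option autoImplicit false
set_option linter.unusedSectionVars false
set_option linter.unusedVariables false
set_option linter.style.haveILetI false

noncomputable section

namespace Fermat.Agent.ST

open Polynomial IntermediateField AlgebraicCurve Fermat.Agent.S18 Fermat.Agent.SS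

universe u

variable {A : Type*} [CommRing A] [IsDomain A] [IsDiscreteValuationRing A] [CharZero A]
variable {L : Type*} [Field L] [Algebra A L] [IsFractionRing A L]
variable {F : Type u} [Field F] [Algebra A F] [Algebra L F] [IsScalarTower A L F]
variable {ϖ : A}

/-- `σ 𝔫 = 𝔫` (in the form `StPull`) gives the stability used by `ST/Deep.lean` -/
theorem stt_stable_of_pull {t : F} {V₁ V₂ : ValuationSubring F} {Q : ℕ} {σ : SemilinearAut L F}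
    (hσ : StFrob ϖ t V₁ V₂ Q σ) {𝔫 : Ideal ↥(s18tInt A t)} (hfix : StPull t σ 𝔫 𝔫) :
    StdStable t 𝔫 σ := by
  refine ⟨fun x hx => ?_, fun p hp h => ?_⟩
  · rw [← stb_int hσ, smul_inv_smul]
    exact hx
  · obtain ⟨h', hmem⟩ := (hfix p).mp hp
    exact hmem

/-- THE LOCAL DATUM OF `g^Θ` AT EVERY CLOSED POINT of a class `C` of closed points which is stable
under `𝔫 ↦ σ⁻¹ 𝔫` and carries germs. -/
theorem stt_divAt (hϖ : Irreducible ϖ) (t : F) (ht : Transcendental L t)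
    [FiniteDimensional L⟮t⟯ F] (G : Subgroup (SemilinearAut L F))
    {u₁ u₂ : F} {V₁ V₂ : ValuationSubring F} (h2 : SsvTwo hϖ t u₁ u₂ V₁ V₂)
    {Q : ℕ} {σ : SemilinearAut L F} (hσ : StFrob ϖ t V₁ V₂ Q σ)
    (C : Ideal ↥(s18tInt A t) → Prop)
    (hC : ∀ 𝔫 𝔫' : Ideal ↥(s18tInt A t), C 𝔫 → StPull t σ 𝔫 𝔫' → C 𝔫')
    (hgerm : ∀ 𝔫 : Ideal ↥(s18tInt A t), 𝔫.IsMaximal → sskPi ϖ t ∈ 𝔫 → C 𝔫 → StRes t 𝔫 →
      StGermAt ϖ t G V₁ V₂ σ 𝔫)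
    (n : ℕ) (hn : n ≠ 0) (g : F) (hg : g ≠ 0)
    (hg1 : ∀ R : Place L F, (n : ℤ) ∣ R.ord g)
    (hg2 : ∀ R : Place L F, R.ord g ≠ 0 → SsRational R)
    (hg3 : {R : Place L F | R.ord g ≠ 0}.Finite)
    (hg4 : S18DvdGauss hϖ t (g - 1))
    (𝔫 : Ideal ↥(s18tInt A t)) (h𝔫 : 𝔫.IsMaximal) (hϖ𝔫 : sskPi ϖ t ∈ 𝔫) (hC𝔫 : C 𝔫) :
    StDivAt L hϖ t n (stTh Q σ g) 𝔫 := by
  by_cases hres : StRes t 𝔫
  swap
  · exact st_divAt_nonres hϖ t 𝔫 h𝔫 hϖ𝔫 hres n g hg hg2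
  obtain ⟨𝔫₁, hp1, hmax1, hϖ1, hres1, hon11, hon12⟩ := stb_exists_pull hσ 𝔫 h𝔫 hϖ𝔫
  obtain ⟨𝔫₂, hp2, hmax2, hϖ2, hres2, hon21, hon22⟩ := stb_exists_pull hσ 𝔫₁ hmax1 hϖ1
  have hC1 : C 𝔫₁ := hC 𝔫 𝔫₁ hC𝔫 hp1
  have hC2 : C 𝔫₂ := hC 𝔫₁ 𝔫₂ hC1 hp2
  -- smooth germs
  have hsmooth : ∀ 𝔪 : Ideal ↥(s18tInt A t), 𝔪.IsMaximal → sskPi ϖ t ∈ 𝔪 →
      SsGermSmooth ϖ t G 𝔪 → StDivAt L hϖ t n g 𝔪 := fun 𝔪 h𝔪 hϖ𝔪 hsm =>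
    st_smooth hϖ t ht G h2 𝔪 h𝔪 hϖ𝔪 hsm n hn g hg hg1 hg2 hg3 hg4
  by_cases hon : StOn V₁ t 𝔫 ∧ StOn V₂ t 𝔫
  · -- a crossing point : `σ`-stable
    obtain ⟨hgm, hfix'⟩ := hgerm 𝔫 h𝔫 hϖ𝔫 hC𝔫 hres
    have hfix : StPull t σ 𝔫 𝔫 := hfix' hon.1 hon.2
    have hsm' : SsGermSmooth ϖ t G 𝔫 → StDivAt L hϖ t n (stTh Q σ g) 𝔫 := fun hsm =>
      st_divAt_theta hϖ t h2 hσ 𝔫 𝔫 𝔫 hfix hfix n g hg (hsmooth 𝔫 h𝔫 hϖ𝔫 hsm)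
        (hsmooth 𝔫 h𝔫 hϖ𝔫 hsm) (hsmooth 𝔫 h𝔫 hϖ𝔫 hsm)
    rcases hgm with hsm | hcr
    · exact hsm' hsm
    · rcases st_cross_unit hϖ t ht G h2 hσ 𝔫 h𝔫 hϖ𝔫 hres hon.1 hon.2 hfix hcr with hsm | hunit
      · exact hsm' hsm
      · have hst : StdStable t 𝔫 σ := stt_stable_of_pull hσ hfix
        exact st_divAt_cross hϖ t h2 hσ 𝔫 h𝔫 hϖ𝔫 hfix
          (std_locAt_of_germ hϖ t ht G σ σ 𝔫 h𝔫 hϖ𝔫 hst hst (Or.inr hcr)) hunit n hn g hg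
          hg1 hg2 hg3
  · -- a point on one component only : smooth germs at `𝔫, σ⁻¹ 𝔫, σ⁻² 𝔫`
    have key : ∀ 𝔪 : Ideal ↥(s18tInt A t), 𝔪.IsMaximal → sskPi ϖ t ∈ 𝔪 → C 𝔪 → StRes t 𝔪 →
        ¬ (StOn V₁ t 𝔪 ∧ StOn V₂ t 𝔪) → StDivAt L hϖ t n g 𝔪 := by
      intro 𝔪 h𝔪 hϖ𝔪 hC𝔪 hres𝔪 hnot
      rcases (hgerm 𝔪 h𝔪 hϖ𝔪 hC𝔪 hres𝔪).1 with hsm | hcr
      · exact hsmooth 𝔪 h𝔪 hϖ𝔪 hsm
      · exact hsmooth 𝔪 h𝔪 hϖ𝔪 (st_smooth_of_cross hϖ t ht G h2 𝔪 h𝔪 hϖ𝔪 hnot hcr)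
    have hon1 : ¬ (StOn V₁ t 𝔫₁ ∧ StOn V₂ t 𝔫₁) := fun h => hon ⟨hon11.mp h.1, hon12.mp h.2⟩
    have hon2 : ¬ (StOn V₁ t 𝔫₂ ∧ StOn V₂ t 𝔫₂) := fun h => hon1 ⟨hon21.mp h.1, hon22.mp h.2⟩
    exact st_divAt_theta hϖ t h2 hσ 𝔫 𝔫₁ 𝔫₂ hp1 hp2 n g hg (key 𝔫 h𝔫 hϖ𝔫 hC𝔫 hres hon)
      (key 𝔫₁ hmax1 hϖ1 hC1 (hres1 hres) hon1) (key 𝔫₂ hmax2 hϖ2 hC2 (hres2 (hres1 hres)) hon2)

/-- **(T-TOR) THE ABSTRACT TORIC THEOREM of Program T.**  `σ` a `Q`-Frobenius lift, germs at all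
closed points `∋ ϖ` with residue field `A / ϖ` (chart `t`; chart `t⁻¹` : only those `∋ t⁻¹`), crossing
points `σ`-stable.  If `g ≡ 1 mod ϖ P_(ϖ)`, `div g = n ·`(rational places), then
`g^Θ = σ²(g) g^Q / σ(g)^(Q+1)` is an `n`-th power in `F` as soon as it is one in a constant-field
-preserving extension `F' = F(y)`. -/
theorem st_toric (F' : Type u) [Field F'] [Algebra F F'] [Algebra A F'] [Algebra L F']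
    [IsScalarTower A F F'] [IsScalarTower L F F'] [IsScalarTower A L F']
    (hϖ : Irreducible ϖ) (t : F) (ht : Transcendental L t) [FiniteDimensional L⟮t⟯ F]
    (G : Subgroup (SemilinearAut L F))
    (n : ℕ) (hn : IsUnit (n : A)) (ζ : A) (hζ : IsPrimitiveRoot ζ n)
    {u₁ u₂ : F} {V₁ V₂ : ValuationSubring F} (h2 : SsvTwo hϖ t u₁ u₂ V₁ V₂)
    (Q : ℕ) (σ : SemilinearAut L F) (hσ : StFrob ϖ t V₁ V₂ Q σ)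
    (hgerm0 : ∀ 𝔫 : Ideal ↥(s18tInt A t), 𝔫.IsMaximal → sskPi ϖ t ∈ 𝔫 → StRes t 𝔫 →
      StGermAt ϖ t G V₁ V₂ σ 𝔫)
    (hgerminf : ∀ 𝔫 : Ideal ↥(s18tInt A t⁻¹), 𝔫.IsMaximal → sskPi ϖ t⁻¹ ∈ 𝔫 →
      ssglTinv (A := A) t ∈ 𝔫 → StRes t⁻¹ 𝔫 → StGermAt ϖ t⁻¹ G V₁ V₂ σ 𝔫)
    (g : F) (hg : g ≠ 0)
    (hg1 : ∀ R : Place L F, (n : ℤ) ∣ R.ord g)
    (hg2 : ∀ R : Place L F, R.ord g ≠ 0 → SsRational R)
    (hg3 : {R : Place L F | R.ord g ≠ 0}.Finite)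
    (hg4 : S18DvdGauss hϖ t (g - 1))
    (y : F') (hy : y ^ n = algebraMap F F' (stTh Q σ g))
    (hgen : IntermediateField.adjoin F {y} = ⊤)
    (hL : ∀ x : F', IsAlgebraic L x → x ∈ (algebraMap L F').range) :
    ∃ y₀ : F, y₀ ^ n = stTh Q σ g := by
  have hn0 : n ≠ 0 := by
    rintro rfl
    rw [Nat.cast_zero] at hn
    exact not_isUnit_zero hn
  have ht' : Transcendental L t⁻¹ := by
    intro h
    exact ht (by simpa using h.inv)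
  haveI hfd : FiniteDimensional L⟮t⁻¹⟯ F := by
    have hEq : L⟮t⁻¹⟯ = L⟮t⟯ := by
      apply le_antisymm
      · rw [IntermediateField.adjoin_simple_le_iff]
        exact inv_mem (IntermediateField.mem_adjoin_simple_self L t)
      · rw [IntermediateField.adjoin_simple_le_iff]
        have := inv_mem (IntermediateField.mem_adjoin_simple_self L t⁻¹)
        simpa using this
    rw [hEq]; infer_instance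
  have h2' : SsvTwo hϖ t⁻¹ u₁ u₂ V₁ V₂ := ssvti_two_inv hϖ t ht h2
  have hσ' : StFrob ϖ t⁻¹ V₁ V₂ Q σ := hσ.inv_chart
  have hg4' : S18DvdGauss hϖ t⁻¹ (g - 1) := (s18t_dvdGauss_inv (L := L) hϖ t ht _).mpr hg4
  refine st_core F' hϖ t ht n hn ζ hζ (stTh Q σ g) (stl_th_ne_zero Q σ hg)
    (stb_dvdGauss_th hϖ h2 hσ hg4) ?_ ?_ y hy hgen hL
  · intro 𝔫 h𝔫 hϖ𝔫
    exact stt_divAt hϖ t ht G h2 hσ (fun _ => True) (fun _ _ _ _ => trivial)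
      (fun 𝔪 h𝔪 hϖ𝔪 _ hres => hgerm0 𝔪 h𝔪 hϖ𝔪 hres) n hn0 g hg hg1 hg2 hg3 hg4 𝔫 h𝔫 hϖ𝔫 trivial
  · intro 𝔫 h𝔫 hϖ𝔫 hcusp
    refine stt_divAt hϖ t⁻¹ ht' G h2' hσ' (fun 𝔪 => ssglTinv (A := A) t ∈ 𝔪) ?_
      (fun 𝔪 h𝔪 hϖ𝔪 hc hres => hgerminf 𝔪 h𝔪 hϖ𝔪 hc hres) n hn0 g hg hg1 hg2 hg3 hg4' 𝔫 h𝔫 hϖ𝔫
      hcusp
    intro 𝔪 𝔪' hc hpull
    rw [hpull]
    have e : σ • ((ssglTinv (A := A) t : ↥(s18tInt A t⁻¹)) : F) = t⁻¹ := by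
      show σ • t⁻¹ = t⁻¹
      rw [smul_inv'', hσ.t_fixed]
    refine ⟨by rw [e]; exact s18tc_self_mem_int t⁻¹, ?_⟩
    have e' : (⟨σ • ((ssglTinv (A := A) t : ↥(s18tInt A t⁻¹)) : F),
        by rw [e]; exact s18tc_self_mem_int t⁻¹⟩ : ↥(s18tInt A t⁻¹)) = ssglTinv t :=
      Subtype.ext e
    rw [e']
    exact hc

end Fermat.Agent.ST
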